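/-
Program V (S27), half A: the hub definitions of the Frobenius-structure design.
Owner: helper17.  Everything here is stated on the Prelude types
`AlgebraicCurve.SemilinearAut`, `Place`, `Divisor`, `Pic`, `Pic0`.
-/
import Fermat.Prelude.Def_AlgebraicCurve_BaseChangeGalois
import Fermat.Prelude.Def_AlgebraicCurve_Repartitions
import Fermat.Prelude.Def_AlgebraicCurve_IsCurveOver

set_option autoImplicit false

noncomputable section

namespace Fermat.Agent.V

open AlgebraicCurve

variable {k F : Type*} [Field k] [Field F] [Algebra k F]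

/-! ### Frobenius structures -/

/-- A Frobenius structure: a semilinear automorphism acting as `c ↦ c ^ Q` on the constants,
`Q` a positive power of `p`, and locally finite on `F`. -/
structure V27Frob (p : ℕ) (σ : SemilinearAut k F) (Q : ℕ) : Prop where
  hQ : ∃ r : ℕ, 0 < r ∧ Q = p ^ r
  base : ∀ c : k, SemilinearAut.baseAut σ c = c ^ Q
  loc : ∀ f : F, ∃ m : ℕ, 0 < m ∧ (σ ^ m) • f = f

theorem v27_baseAut_pow (σ : SemilinearAut k F) (m : ℕ) :
    SemilinearAut.baseAut (σ ^ m) = SemilinearAut.baseAut σ ^ m := by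
  induction m with
  | zero => rfl
  | succ m ih => rw [pow_succ, pow_succ, SemilinearAut.baseAut_mul, ih]

theorem v27_baseAut_pow_apply {σ : SemilinearAut k F} {Q : ℕ}
    (hbase : ∀ c : k, SemilinearAut.baseAut σ c = c ^ Q) (m : ℕ) (c : k) :
    SemilinearAut.baseAut (σ ^ m) c = c ^ Q ^ m := by
  induction m generalizing c with
  | zero => simp
  | succ m ih =>
    rw [pow_succ, SemilinearAut.baseAut_mul]
    show SemilinearAut.baseAut (σ ^ m) (SemilinearAut.baseAut σ c) = _
    rw [ih, hbase, ← pow_mul, pow_succ, mul_comm]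

theorem V27Frob.pow {p : ℕ} {σ : SemilinearAut k F} {Q : ℕ} (h : V27Frob p σ Q) {m : ℕ}
    (hm : 0 < m) : V27Frob p (σ ^ m) (Q ^ m) where
  hQ := by
    obtain ⟨r, hr, rfl⟩ := h.hQ
    exact ⟨r * m, Nat.mul_pos hr hm, by rw [pow_mul]⟩
  base := v27_baseAut_pow_apply h.base m
  loc := fun f => by
    obtain ⟨n, hn, hf⟩ := h.loc f
    refine ⟨n, hn, ?_⟩
    rw [← pow_mul, mul_comm, pow_mul]
    clear hn hm
    induction m with
    | zero => simp
    | succ m ih =>
      rw [pow_succ, mul_smul, hf]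
      exact ih

theorem V27Frob.one_lt {p : ℕ} [Fact p.Prime] {σ : SemilinearAut k F} {Q : ℕ}
    (h : V27Frob p σ Q) : 1 < Q := by
  obtain ⟨r, hr, rfl⟩ := h.hQ
  exact Nat.one_lt_pow hr.ne' (Fact.out : p.Prime).one_lt

/-! ### The action on the full class group `Pic` -/

/-- The additive map induced by `g` on the Prelude class group `Pic k F`. -/
def v27PicMap (g : SemilinearAut k F) : Pic k F →+ Pic k F :=
  QuotientAddGroup.map _ _ (DistribSMul.toAddMonoidHom (Divisor k F) g)
    (fun _ hD => SemilinearAut.smul_mem_principal g hD)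

/-- The class of a divisor in `Pic`. -/
def v27PicMk : Divisor k F →+ Pic k F :=
  QuotientAddGroup.mk' (Divisor.principal (K := k) (F := F))

theorem v27PicMk_surjective : Function.Surjective (v27PicMk (k := k) (F := F)) :=
  QuotientAddGroup.mk_surjective

theorem v27PicMk_eq_iff {D E : Divisor k F} :
    v27PicMk D = v27PicMk E ↔ E - D ∈ Divisor.principal (K := k) (F := F) := by
  unfold v27PicMk
  rw [QuotientAddGroup.mk'_apply, QuotientAddGroup.mk'_apply, QuotientAddGroup.eq,
    neg_add_eq_sub]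

@[simp]
theorem v27PicMap_mk (g : SemilinearAut k F) (D : Divisor k F) :
    v27PicMap g (v27PicMk D) = v27PicMk (g • D) := rfl

@[simp]
theorem v27PicMap_one (c : Pic k F) : v27PicMap (1 : SemilinearAut k F) c = c := by
  obtain ⟨D, rfl⟩ := v27PicMk_surjective c
  simp

theorem v27PicMap_mul (g h : SemilinearAut k F) (c : Pic k F) :
    v27PicMap (g * h) c = v27PicMap g (v27PicMap h c) := by
  obtain ⟨D, rfl⟩ := v27PicMk_surjective c
  simp [mul_smul]

theorem v27PicMap_pow (g : SemilinearAut k F) (m : ℕ) (c : Pic k F) :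
    v27PicMap (g ^ m) c = (⇑(v27PicMap g))^[m] c := by
  induction m generalizing c with
  | zero => simp
  | succ m ih =>
    rw [pow_succ, v27PicMap_mul, ih, Function.iterate_succ_apply]

/-- The degree homomorphism on `Pic`. -/
def v27PicDeg [HasPrincipalDivisors k F] : Pic k F →+ ℤ :=
  QuotientAddGroup.lift _ (Divisor.degree (K := k) (F := F)) (by
    rintro D ⟨f, hf, hD⟩
    obtain ⟨D', hD', hdeg⟩ := HasPrincipalDivisors.exists_divisor (K := k) f hf
    have : D = D' := Finsupp.ext fun v => by rw [hD v, hD' v]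
    rw [AddMonoidHom.mem_ker, this, hdeg])

@[simp]
theorem v27PicDeg_mk [HasPrincipalDivisors k F] (D : Divisor k F) :
    v27PicDeg (v27PicMk D) = Divisor.degree D := rfl

@[simp]
theorem v27PicDeg_map [HasPrincipalDivisors k F] (g : SemilinearAut k F) (c : Pic k F) :
    v27PicDeg (v27PicMap g c) = v27PicDeg c := by
  obtain ⟨D, rfl⟩ := v27PicMk_surjective c
  simp

/-- The invariant classes: level-one class group of the Frobenius structure. -/
def v27ClInv (σ : SemilinearAut k F) : AddSubgroup (Pic k F) where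
  carrier := {c | v27PicMap σ c = c}
  zero_mem' := map_zero _
  add_mem' := fun {a b} ha hb => by
    show v27PicMap σ (a + b) = a + b
    rw [map_add, ha, hb]
  neg_mem' := fun {a} ha => by
    show v27PicMap σ (-a) = -a
    rw [map_neg, ha]

theorem mem_v27ClInv {σ : SemilinearAut k F} {c : Pic k F} :
    c ∈ v27ClInv σ ↔ v27PicMap σ c = c := Iff.rfl

/-- The degree on invariant classes. -/
def v27ClDeg [HasPrincipalDivisors k F] (σ : SemilinearAut k F) : ↥(v27ClInv σ) →+ ℤ :=
  (v27PicDeg (k := k) (F := F)).comp (v27ClInv σ).subtype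

/-! ### `Pic0` inside `Pic` -/

/-- The natural map `Pic0 → Pic`. -/
def v27Pic0ToPic : Pic0 k F →+ Pic k F :=
  QuotientAddGroup.map _ _ (Divisor.degZero (K := k) (F := F)).subtype
    (fun _ hD => hD)

@[simp]
theorem v27Pic0ToPic_mk (D : Divisor.degZero (K := k) (F := F)) :
    v27Pic0ToPic (Pic0.mk D) = v27PicMk (D : Divisor k F) := rfl

theorem v27Pic0ToPic_injective : Function.Injective (v27Pic0ToPic (k := k) (F := F)) := by
  rw [injective_iff_map_eq_zero]
  intro x hx
  obtain ⟨D, rfl⟩ := Pic0.mk_surjective x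
  rw [v27Pic0ToPic_mk] at hx
  have h0 : v27PicMk (D : Divisor k F) = v27PicMk (0 : Divisor k F) := by rw [hx, map_zero]
  have h1 := v27PicMk_eq_iff.mp h0
  rw [zero_sub] at h1
  have h2 : (D : Divisor k F) ∈ Divisor.principal (K := k) (F := F) := by
    have := neg_mem h1
    rwa [neg_neg] at this
  exact (QuotientAddGroup.eq_zero_iff D).mpr h2

theorem v27Pic0ToPic_smul (g : SemilinearAut k F) (x : Pic0 k F) :
    v27Pic0ToPic (g • x) = v27PicMap g (v27Pic0ToPic x) := by
  obtain ⟨D, rfl⟩ := Pic0.mk_surjective x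
  rw [SemilinearAut.pic0_smul_mk]
  rfl

theorem v27PicDeg_pic0 [HasPrincipalDivisors k F] (x : Pic0 k F) :
    v27PicDeg (v27Pic0ToPic x) = 0 := by
  obtain ⟨D, rfl⟩ := Pic0.mk_surjective x
  exact D.2

theorem v27_exists_pic0_of_deg [HasPrincipalDivisors k F] {c : Pic k F}
    (hc : v27PicDeg c = 0) : ∃ x : Pic0 k F, v27Pic0ToPic x = c := by
  obtain ⟨D, rfl⟩ := v27PicMk_surjective c
  exact ⟨Pic0.mk ⟨D, hc⟩, rfl⟩

/-- The fixed points of `σ` on `Pic0` are the degree-zero invariant classes. -/
def v27FixEquiv [HasPrincipalDivisors k F] (σ : SemilinearAut k F) :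
    {x : Pic0 k F // σ • x = x} ≃ ↥(v27ClDeg σ).ker where
  toFun x := ⟨⟨v27Pic0ToPic x.1, by
      rw [mem_v27ClInv, ← v27Pic0ToPic_smul, x.2]⟩, v27PicDeg_pic0 x.1⟩
  invFun c := ⟨(v27_exists_pic0_of_deg (c := c.1.1) c.2).choose, by
      apply v27Pic0ToPic_injective
      rw [v27Pic0ToPic_smul, (v27_exists_pic0_of_deg (c := c.1.1) c.2).choose_spec]
      exact c.1.2⟩
  left_inv x := by
    apply Subtype.ext
    apply v27Pic0ToPic_injective
    exact (v27_exists_pic0_of_deg (c := v27Pic0ToPic x.1) (v27PicDeg_pic0 x.1)).choose_spec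
  right_inv c := by
    apply Subtype.ext
    apply Subtype.ext
    exact (v27_exists_pic0_of_deg (c := c.1.1) c.2).choose_spec

theorem v27_card_pic0_fixed [HasPrincipalDivisors k F] (σ : SemilinearAut k F) :
    Nat.card {x : Pic0 k F // σ • x = x} = Nat.card ↥(v27ClDeg σ).ker :=
  Nat.card_congr (v27FixEquiv σ)

/-- The additive endomorphism of `Pic0` used by `GlueA`. -/
def v27Phi (σ : SemilinearAut k F) : Pic0 k F →+ Pic0 k F :=
  DistribSMul.toAddMonoidHom (Pic0 k F) σ

@[simp]
theorem v27Phi_apply (σ : SemilinearAut k F) (x : Pic0 k F) : v27Phi σ x = σ • x := rfl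

theorem v27Phi_iterate (σ : SemilinearAut k F) (m : ℕ) (x : Pic0 k F) :
    (⇑(v27Phi σ))^[m] x = (σ ^ m) • x := by
  induction m generalizing x with
  | zero => simp
  | succ m ih =>
    rw [Function.iterate_succ_apply, ih, pow_succ, mul_smul]
    rfl

/-! ### Counting functions -/

/-- Number of effective `σ`-invariant divisors in the class `c`. -/
def v27NCls (σ : SemilinearAut k F) (c : Pic k F) : ℕ :=
  Nat.card {E : Divisor k F // 0 ≤ E ∧ σ • E = E ∧ v27PicMk E = c}

/-- Number of effective `σ`-invariant divisors of degree `d`. -/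
def v27ADeg (σ : SemilinearAut k F) (d : ℕ) : ℕ :=
  Nat.card {E : Divisor k F // 0 ≤ E ∧ σ • E = E ∧ Divisor.degree E = (d : ℤ)}

/-- Number of places fixed by `σ ^ r`. -/
def v27NFix (σ : SemilinearAut k F) (r : ℕ) : ℕ :=
  Nat.card {v : Place k F // (σ ^ r) • v = v}


theorem v27NFix_pow (σ : SemilinearAut k F) (m r : ℕ) :
    v27NFix (σ ^ m) r = v27NFix σ (m * r) := by
  unfold v27NFix
  rw [pow_mul]

/-- `ℓ` of a class: the dimension of the Riemann-Roch space of a representative. -/
def v27Ell (c : Pic k F) : ℕ :=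
  Module.finrank k (riemannRochSpace (Quotient.out c : Divisor k F))

end Fermat.Agent.V
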