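/-
Program V (S27), half A: the Prop-valued interface statements ("Spec") of the concrete leaves
C1-C7, at level one for an arbitrary semilinear automorphism `σ` (level `m` = `σ ^ m`, `Q ^ m`).
Owner: helper17.  Producers prove `theorem … : V27SpecXxx σ …` (with whatever hypotheses their
leaf needs: `V27Frob p σ Q`, `V27RR k F g`, other Specs); consumers take the Specs as hypotheses.
-/
import Fermat.Agent.V.Frob.Defs
import Mathlib.RingTheory.PowerSeries.Basic
import Mathlib.RingTheory.Polynomial.Basic

set_option autoImplicit false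

noncomputable section

namespace Fermat.Agent.V

open AlgebraicCurve

variable {k F : Type*} [Field k] [Field F] [Algebra k F]

/-- C1 ORBIT: every place has a finite orbit, and every power of `σ` fixes only finitely many
places. -/
def V27SpecOrbit (σ : SemilinearAut k F) : Prop :=
  (∀ v : Place k F, ∃ n : ℕ, 0 < n ∧ (σ ^ n) • v = v) ∧
    ∀ n : ℕ, 0 < n → {v : Place k F | (σ ^ n) • v = v}.Finite

/-- C2 COUNT: the number of effective invariant divisors in the class of an invariant divisor. -/
def V27SpecCount (σ : SemilinearAut k F) (Q : ℕ) : Prop :=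
  ∀ D : Divisor k F, σ • D = D →
    v27NCls σ (v27PicMk D) * (Q - 1) = Q ^ Module.finrank k (riemannRochSpace D) - 1

/-- C3 PICDESC: (a) an invariant principal divisor is the divisor of a fixed function;
(b) an invariant class contains an invariant divisor. -/
def V27SpecPicDesc (σ : SemilinearAut k F) : Prop :=
  (∀ D : Divisor k F, σ • D = D → D ∈ Divisor.principal (K := k) (F := F) →
      ∃ f : F, f ≠ 0 ∧ σ • f = f ∧ ∀ v : Place k F, D v = v.ord f) ∧
    ∀ c : Pic k F, v27PicMap σ c = c → ∃ D : Divisor k F, σ • D = D ∧ v27PicMk D = c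

/-- C4 ELL: `ℓ` is a class function, invariant under semilinear automorphisms. -/
def V27SpecEll (k F : Type*) [Field k] [Field F] [Algebra k F] : Prop :=
  (∀ D : Divisor k F, v27Ell (v27PicMk D) = Module.finrank k (riemannRochSpace D)) ∧
    ∀ (g : SemilinearAut k F) (c : Pic k F), v27Ell (v27PicMap g c) = v27Ell c

/-- C5 ZETA-INST + FIN: the zeta function of the Frobenius structure `(σ, Q)` of genus `g`. -/
def V27SpecZeta (σ : SemilinearAut k F) (Q g : ℕ) : Prop :=
  Finite {x : Pic0 k F // σ • x = x} ∧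
    ∃ P : Polynomial ℤ, P.natDegree = 2 * g ∧ P.coeff 0 = 1 ∧ P.leadingCoeff = (Q : ℤ) ^ g ∧
      P.eval 1 = (Nat.card {x : Pic0 k F // σ • x = x} : ℤ) ∧
      ((1 - PowerSeries.X) * (1 - (Q : ℤ) • PowerSeries.X) *
          PowerSeries.mk (fun d => (v27ADeg σ d : ℤ)) : PowerSeries ℤ) = (P : PowerSeries ℤ)

/-- C6 HREC: the logarithmic-derivative recursion of the Euler product. -/
def V27SpecRec (σ : SemilinearAut k F) : Prop :=
  v27ADeg σ 0 = 1 ∧
    ∀ d : ℕ, d * v27ADeg σ d =
      ∑ i ∈ Finset.range d, v27NFix σ (i + 1) * v27ADeg σ (d - (i + 1))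

/-- C7 NORM-INST: the norm `Σ_{i<n} σ^i` from the fixed points of `σ^n` onto those of `σ`. -/
def V27SpecNorm (σ : SemilinearAut k F) : Prop :=
  ∀ n : ℕ, 0 < n → ∀ y : Pic0 k F, σ • y = y →
    ∃ x : Pic0 k F, (σ ^ n) • x = x ∧ ∑ i ∈ Finset.range n, (σ ^ i) • x = y

/-- Or3 (part of C1): every class has a finite orbit. -/
def V27SpecFix (σ : SemilinearAut k F) : Prop :=
  ∀ x : Pic0 k F, ∃ m : ℕ, 0 < m ∧ (σ ^ m) • x = x

end Fermat.Agent.V
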