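/-
Program V (S27), finite-field half, leaf (F4) (helper6): construction of the FROBENIUS STRUCTURE on a
finitely generated field `F` over a field `k` algebraic over its prime field `𝔽_p`.

`v27fc_exists_frob` : there are `r > 0`, generators `a : Fin n → F` of `F` over `k` and a ring
automorphism `φ` of `F` with `φ (a i) = a i`, `φ c = c ^ (p ^ r)` on `k`, finite orbits, and the
computation rule `φ^m (P(a)) = (Frob^{rm} P)(a)`.
-/
import Mathlib

set_option autoImplicit false

noncomputable section

namespace Fermat.Agent.V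

open MvPolynomial

/-- `k` is "algebraic over `𝔽_p`" in the elementary form: every element is fixed by a positive
power of the `p`-Frobenius. -/
def V27fcAlg (p : ℕ) (k : Type*) [Field k] : Prop :=
  ∀ c : k, ∃ r : ℕ, 0 < r ∧ c ^ p ^ r = c

section Alg

variable (p : ℕ) [Fact p.Prime] (k : Type*) [Field k]

/-- a field algebraic over `ZMod p` satisfies `V27fcAlg`. -/
theorem v27fc_alg_of_isAlgebraic [Algebra (ZMod p) k] [Algebra.IsAlgebraic (ZMod p) k] :
    V27fcAlg p k := by
  classical
  intro c
  have halg : IsAlgebraic (ZMod p) c := Algebra.IsAlgebraic.isAlgebraic c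
  let K' : IntermediateField (ZMod p) k := IntermediateField.adjoin (ZMod p) {c}
  have : FiniteDimensional (ZMod p) K' :=
    IntermediateField.adjoin.finiteDimensional halg.isIntegral
  have : Finite K' := Module.finite_of_finite (ZMod p)
  have : Fintype K' := Fintype.ofFinite K'
  have hcard : Fintype.card K' = p ^ Module.finrank (ZMod p) K' := by
    rw [Module.card_eq_pow_finrank (K := ZMod p) (V := K'), ZMod.card]
  refine ⟨Module.finrank (ZMod p) K', Module.finrank_pos, ?_⟩
  have hc : c ∈ K' := IntermediateField.mem_adjoin_simple_self (ZMod p) c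
  have h1 := FiniteField.pow_card (⟨c, hc⟩ : K')
  rw [hcard] at h1
  have h2 := congrArg (fun x : K' => (x : k)) h1
  simpa using h2

variable {p k}

omit [Fact p.Prime] in
theorem v27fc_pow_mul {c : k} {r : ℕ} (h : c ^ p ^ r = c) (m : ℕ) : c ^ p ^ (r * m) = c := by
  induction m with
  | zero => simp
  | succ m ih => rw [Nat.mul_succ, pow_add, pow_mul, ih, h]

omit [Fact p.Prime] in
/-- a common positive Frobenius power fixing a finite set of elements -/
theorem v27fc_exists_pow_eq_finset (hk : V27fcAlg p k) (S : Finset k) :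
    ∃ r : ℕ, 0 < r ∧ ∀ c ∈ S, c ^ p ^ r = c := by
  classical
  induction S using Finset.induction_on with
  | empty => exact ⟨1, one_pos, fun c hc => absurd hc (Finset.notMem_empty c)⟩
  | insert c S _ ih =>
    obtain ⟨r, hr, h⟩ := ih
    obtain ⟨r', hr', h'⟩ := hk c
    refine ⟨r * r', Nat.mul_pos hr hr', fun d hd => ?_⟩
    rcases Finset.mem_insert.mp hd with rfl | hd
    · rw [mul_comm]; exact v27fc_pow_mul h' r
    · exact v27fc_pow_mul (h d hd) r'

/-- `k` is perfect. -/
theorem v27fc_perfectRing [CharP k p] (hk : V27fcAlg p k) : PerfectRing k p := by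
  have : ExpChar k p := ExpChar.prime Fact.out
  refine PerfectRing.ofSurjective k p fun c => ?_
  obtain ⟨r, hr, h⟩ := hk c
  refine ⟨c ^ p ^ (r - 1), ?_⟩
  rw [frobenius_def, ← pow_mul, ← pow_succ]
  rwa [Nat.sub_add_cancel hr]

end Alg

section Poly

variable {p : ℕ} [Fact p.Prime] {k : Type*} [Field k] [CharP k p] {ι : Type*}

/-- the `p^s`-Frobenius on `k` as a ring hom (instance-free wrapper). -/
def v27fcFrob (p : ℕ) [Fact p.Prime] (k : Type*) [Field k] [CharP k p] (s : ℕ) : k →+* k :=
  have : ExpChar k p := ExpChar.prime Fact.out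
  iterateFrobenius k p s

@[simp] theorem v27fcFrob_apply (s : ℕ) (c : k) : v27fcFrob p k s c = c ^ p ^ s := by
  have : ExpChar k p := ExpChar.prime Fact.out
  exact iterateFrobenius_def p s c

theorem v27fcFrob_comp (s t : ℕ) :
    (v27fcFrob p k s).comp (v27fcFrob p k t) = v27fcFrob p k (t + s) := by
  ext c
  simp [pow_add, pow_mul]

/-- a polynomial all of whose coefficients are fixed by the `p^s`-Frobenius is fixed by the
coefficientwise Frobenius. -/
theorem v27fc_map_eq_self {P : MvPolynomial ι k} {s : ℕ}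
    (h : ∀ m, (P.coeff m) ^ p ^ s = P.coeff m) : MvPolynomial.map (v27fcFrob p k s) P = P := by
  ext m
  rw [MvPolynomial.coeff_map, v27fcFrob_apply, h m]

omit [CharP k p] in
/-- a common positive Frobenius power fixing all coefficients of finitely many polynomials -/
theorem v27fc_exists_pow_eq_coeffs (hk : V27fcAlg p k) (T : Finset (MvPolynomial ι k)) :
    ∃ r : ℕ, 0 < r ∧ ∀ P ∈ T, ∀ m, (P.coeff m) ^ p ^ r = P.coeff m := by
  classical
  obtain ⟨r, hr, h⟩ := v27fc_exists_pow_eq_finset hk
    (T.biUnion fun P => P.support.image fun m => P.coeff m)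
  refine ⟨r, hr, fun P hP m => ?_⟩
  by_cases hm : m ∈ P.support
  · exact h _ (Finset.mem_biUnion.mpr ⟨P, hP, Finset.mem_image.mpr ⟨m, hm, rfl⟩⟩)
  · rw [MvPolynomial.notMem_support_iff.mp hm]
    exact zero_pow (pow_ne_zero _ (Fact.out : p.Prime).ne_zero)

end Poly

section Main

variable {p : ℕ} [Fact p.Prime] {k : Type*} [Field k] [CharP k p]
variable {F : Type*} [Field F] [Algebra k F] {ι : Type*} [Finite ι]

/-- MAIN CONSTRUCTION, for a given finite generating family `a` of the field `F` over `k`. -/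
theorem v27fc_exists_frob_of_gen (hk : V27fcAlg p k) (a : ι → F)
    (ha : IntermediateField.adjoin k (Set.range a) = ⊤) :
    ∃ (r : ℕ) (φ : F ≃+* F), 0 < r ∧ (∀ i, φ (a i) = a i) ∧
      (∀ c : k, φ (algebraMap k F c) = algebraMap k F (c ^ p ^ r)) ∧
      (∀ f : F, ∃ m : ℕ, 0 < m ∧ (⇑φ)^[m] f = f) ∧
      (∀ (m : ℕ) (P : MvPolynomial ι k),
        (⇑φ)^[m] (MvPolynomial.aeval a P) =
          MvPolynomial.aeval a (MvPolynomial.map (v27fcFrob p k (r * m)) P)) := by
  classical
  have : ExpChar k p := ExpChar.prime Fact.out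
  have : PerfectRing k p := v27fc_perfectRing hk
  -- the evaluation map and its kernel
  let ev : MvPolynomial ι k →+* F := (MvPolynomial.aeval a : MvPolynomial ι k →ₐ[k] F)
  have hev : ∀ P, ev P = MvPolynomial.aeval a P := fun _ => rfl
  let I : Ideal (MvPolynomial ι k) := RingHom.ker ev
  obtain ⟨S, hS⟩ : I.FG := IsNoetherian.noetherian I
  obtain ⟨r, hr, hfix⟩ := v27fc_exists_pow_eq_coeffs hk S
  -- the coefficientwise Frobenius
  let σ : k ≃+* k := iterateFrobeniusEquiv k p r
  have hσ : (σ : k →+* k) = v27fcFrob p k r := by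
    ext c
    simp [σ, iterateFrobenius_def]
  let τ : MvPolynomial ι k ≃+* MvPolynomial ι k := MvPolynomial.mapEquiv ι σ
  have hτ : ∀ P, τ P = MvPolynomial.map (v27fcFrob p k r) P := fun P => by
    rw [← hσ]; rfl
  have hτS : ∀ g ∈ S, τ g = g := fun g hg => by
    rw [hτ]; exact v27fc_map_eq_self (hfix g hg)
  have hI : I = Ideal.map (τ : MvPolynomial ι k →+* MvPolynomial ι k) I := by
    conv_rhs => rw [← hS, Ideal.map_span]
    have : (⇑(τ : MvPolynomial ι k →+* MvPolynomial ι k)) '' (S : Set (MvPolynomial ι k))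
        = (S : Set (MvPolynomial ι k)) := by
      ext g
      constructor
      · rintro ⟨g', hg', rfl⟩
        have : τ g' = g' := hτS g' hg'
        simpa [this] using hg'
      · intro hg
        exact ⟨g, hg, hτS g hg⟩
    rw [this, hS]
  let e : (MvPolynomial ι k ⧸ I) ≃+* (MvPolynomial ι k ⧸ I) := Ideal.quotientEquiv I I τ hI
  -- `F` is the fraction field of `A = k[X]/I`
  let : Algebra (MvPolynomial ι k ⧸ I) F := (RingHom.kerLift ev).toAlgebra
  have halg : ∀ P, algebraMap (MvPolynomial ι k ⧸ I) F (Ideal.Quotient.mk I P) = ev P :=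
    fun P => RingHom.kerLift_mk ev P
  have : FaithfulSMul (MvPolynomial ι k ⧸ I) F :=
    (faithfulSMul_iff_algebraMap_injective _ _).mpr (RingHom.kerLift_injective ev)
  have : IsFractionRing (MvPolynomial ι k ⧸ I) F := by
    refine IsFractionRing.of_field _ _ fun z => ?_
    have hz : z ∈ IntermediateField.adjoin k (Set.range a) := by rw [ha]; trivial
    obtain ⟨P, Q, hPQ⟩ := (IntermediateField.mem_adjoin_range_iff k a z).mp hz
    exact ⟨Ideal.Quotient.mk I P, Ideal.Quotient.mk I Q, by rw [halg, halg, hev, hev, hPQ]⟩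
  let φ : F ≃+* F := IsFractionRing.ringEquivOfRingEquiv e
  -- the computation rule
  have hφ : ∀ P, φ (ev P) = ev (MvPolynomial.map (v27fcFrob p k r) P) := fun P => by
    rw [← halg, ← halg, ← hτ]
    exact (IsFractionRing.ringEquivOfRingEquiv_algebraMap e _).trans
      (congrArg _ (Ideal.quotientEquiv_mk I I τ hI P))
  have hiter : ∀ (m : ℕ) (P : MvPolynomial ι k),
      (⇑φ)^[m] (ev P) = ev (MvPolynomial.map (v27fcFrob p k (r * m)) P) := by
    intro m
    induction m with
    | zero =>
      intro P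
      have : v27fcFrob p k (r * 0) = RingHom.id k := by ext c; simp
      rw [this, MvPolynomial.map_id]; rfl
    | succ m ih =>
      intro P
      rw [Function.iterate_succ_apply', ih, hφ, MvPolynomial.map_map, v27fcFrob_comp, Nat.mul_succ]
  refine ⟨r, φ, hr, fun i => ?_, fun c => ?_, fun f => ?_, fun m P => hiter m P⟩
  · have h1 := hφ (MvPolynomial.X i)
    simpa [ev] using h1
  · have h1 := hφ (MvPolynomial.C c)
    simpa [ev] using h1
  · have hz : f ∈ IntermediateField.adjoin k (Set.range a) := by rw [ha]; trivial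
    obtain ⟨P, Q, hPQ⟩ := (IntermediateField.mem_adjoin_range_iff k a f).mp hz
    obtain ⟨r', hr', hfix'⟩ := v27fc_exists_pow_eq_coeffs hk ({P, Q} : Finset (MvPolynomial ι k))
    refine ⟨r', hr', ?_⟩
    have hP : MvPolynomial.map (v27fcFrob p k (r * r')) P = P :=
      v27fc_map_eq_self fun m => by
        rw [mul_comm]; exact v27fc_pow_mul (hfix' P (by simp) m) r
    have hQ : MvPolynomial.map (v27fcFrob p k (r * r')) Q = Q :=
      v27fc_map_eq_self fun m => by
        rw [mul_comm]; exact v27fc_pow_mul (hfix' Q (by simp) m) r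
    by_cases hQ0 : ev Q = 0
    · have : f = 0 := by rw [hPQ, ← hev Q, hQ0, div_zero]
      rw [this]; exact iterate_map_zero φ r'
    · have hf : f * ev Q = ev P := by
        rw [hPQ, ← hev, ← hev]; exact div_mul_cancel₀ _ hQ0
      have h2 := congrArg (⇑φ)^[r'] hf
      rw [iterate_map_mul, hiter, hiter, hP, hQ, ← hf] at h2
      exact mul_right_cancel₀ hQ0 h2

/-- iterates of a ring automorphism are its powers in `RingAut`. -/
theorem v27fc_pow_apply (φ : F ≃+* F) (m : ℕ) (f : F) : (φ ^ m) f = (⇑φ)^[m] f := by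
  induction m generalizing f with
  | zero => rfl
  | succ m ih =>
    rw [pow_succ, Function.iterate_succ_apply]
    exact ih (φ f)

/-- (F4), EXISTENCE FORM: a field `F` finitely generated over a field `k` that is algebraic over
`𝔽_p` carries a FROBENIUS STRUCTURE: generators `a₁, …, aₙ`, `r > 0` and a ring automorphism `φ`
fixing the `a_i`, acting on `k` as the `p^r`-Frobenius, with finite orbits, and computed on
`P(a)` by the coefficientwise Frobenius. -/
theorem v27fc_exists_frob (hk : V27fcAlg p k) [Algebra.EssFiniteType k F] :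
    ∃ (r n : ℕ) (a : Fin n → F) (φ : F ≃+* F), 0 < r ∧
      IntermediateField.adjoin k (Set.range a) = ⊤ ∧ (∀ i, φ (a i) = a i) ∧
      (∀ c : k, φ (algebraMap k F c) = algebraMap k F (c ^ p ^ r)) ∧
      (∀ f : F, ∃ m : ℕ, 0 < m ∧ (⇑φ)^[m] f = f) ∧
      (∀ (m : ℕ) (P : MvPolynomial (Fin n) k),
        (⇑φ)^[m] (MvPolynomial.aeval a P) =
          MvPolynomial.aeval a (MvPolynomial.map (v27fcFrob p k (r * m)) P)) := by
  classical
  obtain ⟨s, hs⟩ := IntermediateField.fg_top k F
  let a : Fin s.card → F := fun i => (s.equivFin.symm i : F)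
  have hrange : Set.range a = (s : Set F) := by
    ext x
    constructor
    · rintro ⟨i, rfl⟩
      exact (s.equivFin.symm i).2
    · intro hx
      exact ⟨s.equivFin ⟨x, hx⟩, by simp [a]⟩
  have ha : IntermediateField.adjoin k (Set.range a) = ⊤ := by rw [hrange, hs]
  obtain ⟨r, φ, hr, h1, h2, h3, h4⟩ := v27fc_exists_frob_of_gen hk a ha
  exact ⟨r, s.card, a, φ, hr, ha, h1, h2, h3, h4⟩

/-- (F4), SHORT FORM (what the orbit / descent leaves consume): a ring automorphism `φ` of `F`
with `φ c = c ^ q` on `k`, `q = p ^ r > 1`, and every element of `F` fixed by a positive power. -/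
theorem v27fc_exists_frob_short (hk : V27fcAlg p k) [Algebra.EssFiniteType k F] :
    ∃ (r : ℕ) (φ : F ≃+* F), 0 < r ∧
      (∀ c : k, φ (algebraMap k F c) = algebraMap k F (c ^ p ^ r)) ∧
      (∀ f : F, ∃ m : ℕ, 0 < m ∧ (φ ^ m) f = f) := by
  obtain ⟨r, n, a, φ, hr, -, -, h2, h3, -⟩ := v27fc_exists_frob (F := F) hk
  refine ⟨r, φ, hr, h2, fun f => ?_⟩
  obtain ⟨m, hm, h⟩ := h3 f
  exact ⟨m, hm, by rw [v27fc_pow_apply, h]⟩

end Main



end Fermat.Agent.V
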