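/-
Program V (S27), finite-field half, leaf (F4) (helper6): the Frobenius structure of
`V/Frob/Construct.lean` packaged as an element of the Prelude group `AlgebraicCurve.SemilinearAut`
(which already acts on `Place`, `Divisor`, `Pic0`).
-/
import Fermat.Prelude.Def_AlgebraicCurve_BaseChangeGalois
import Fermat.Agent.V.Frob.Construct

set_option autoImplicit false

noncomputable section

namespace Fermat.Agent.V

open AlgebraicCurve

section SL

variable {p : ℕ} [Fact p.Prime] {k : Type*} [Field k] [CharP k p]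
variable {F : Type*} [Field F] [Algebra k F]

theorem v27fc_toRingAut_pow (g : SemilinearAut k F) (m : ℕ) :
    SemilinearAut.toRingAut (g ^ m) = SemilinearAut.toRingAut g ^ m := by
  induction m with
  | zero => rfl
  | succ m ih => rw [pow_succ, pow_succ, SemilinearAut.toRingAut_mul, ih]

theorem v27fc_baseAut_pow (g : SemilinearAut k F) (m : ℕ) :
    SemilinearAut.baseAut (g ^ m) = SemilinearAut.baseAut g ^ m := by
  induction m with
  | zero => rfl
  | succ m ih => rw [pow_succ, pow_succ, SemilinearAut.baseAut_mul, ih]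

/-- (F4), `SemilinearAut` FORM: a FROBENIUS MODEL `(p ^ r, g)` on a finitely generated field `F`
over a field `k` algebraic over `𝔽_p`: `g` is semilinear over the `p^r`-Frobenius of `k`, `r > 0`,
and every element of `F` is fixed by a positive power of `g`. -/
theorem v27fc_exists_semilinearAut (hk : V27fcAlg p k) [Algebra.EssFiniteType k F] :
    ∃ (r : ℕ) (g : SemilinearAut k F), 0 < r ∧
      (∀ c : k, SemilinearAut.baseAut g c = c ^ p ^ r) ∧
      (∀ f : F, ∃ m : ℕ, 0 < m ∧ (g ^ m) • f = f) := by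
  have : ExpChar k p := ExpChar.prime Fact.out
  have : PerfectRing k p := v27fc_perfectRing hk
  obtain ⟨r, φ, hr, h2, h3⟩ := v27fc_exists_frob_short (F := F) hk
  let σ : k ≃+* k := iterateFrobeniusEquiv k p r
  have hσ : ∀ c, σ c = c ^ p ^ r := fun c => iterateFrobeniusEquiv_def k p r c
  let g : SemilinearAut k F := ⟨(φ, σ), fun c => by
    show φ (algebraMap k F c) = algebraMap k F (σ c)
    rw [h2, hσ]⟩
  refine ⟨r, g, hr, hσ, fun f => ?_⟩
  obtain ⟨m, hm, h⟩ := h3 f
  refine ⟨m, hm, ?_⟩
  rw [SemilinearAut.smul_def, v27fc_toRingAut_pow]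
  exact h

/-- the same, with the generators and the computation rule. -/
theorem v27fc_exists_semilinearAut_gen (hk : V27fcAlg p k) [Algebra.EssFiniteType k F] :
    ∃ (r n : ℕ) (a : Fin n → F) (g : SemilinearAut k F), 0 < r ∧
      IntermediateField.adjoin k (Set.range a) = ⊤ ∧ (∀ i, g • a i = a i) ∧
      (∀ c : k, SemilinearAut.baseAut g c = c ^ p ^ r) ∧
      (∀ f : F, ∃ m : ℕ, 0 < m ∧ (g ^ m) • f = f) ∧
      (∀ (m : ℕ) (P : MvPolynomial (Fin n) k),
        (g ^ m) • (MvPolynomial.aeval a P) =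
          MvPolynomial.aeval a (MvPolynomial.map (v27fcFrob p k (r * m)) P)) := by
  have : ExpChar k p := ExpChar.prime Fact.out
  have : PerfectRing k p := v27fc_perfectRing hk
  obtain ⟨r, n, a, φ, hr, ha, h1, h2, h3, h4⟩ := v27fc_exists_frob (F := F) hk
  let σ : k ≃+* k := iterateFrobeniusEquiv k p r
  have hσ : ∀ c, σ c = c ^ p ^ r := fun c => iterateFrobeniusEquiv_def k p r c
  let g : SemilinearAut k F := ⟨(φ, σ), fun c => by
    show φ (algebraMap k F c) = algebraMap k F (σ c)
    rw [h2, hσ]⟩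
  have hg : ∀ (m : ℕ) (f : F), (g ^ m) • f = (⇑φ)^[m] f := fun m f => by
    rw [SemilinearAut.smul_def, v27fc_toRingAut_pow]
    exact v27fc_pow_apply φ m f
  refine ⟨r, n, a, g, hr, ha, h1, hσ, fun f => ?_, fun m P => ?_⟩
  · obtain ⟨m, hm, h⟩ := h3 f
    exact ⟨m, hm, by rw [hg, h]⟩
  · rw [hg, h4]

end SL

end Fermat.Agent.V
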