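import Fermat.Agent.V.Frob.OrbitDiv
import Fermat.Agent.V.NormSurj.Triv

/-!
# Program V (S27), leaf C6 (abstract half): the zeta recursion for invariant effective divisors

For `s : Equiv.Perm X` with all points periodic and finitely many fixed points of every power:
`d * A d = Σ_{i<d} N (i+1) * A (d-(i+1))` where `A d` is the number of `s`-invariant effective
finitely supported functions `X →₀ ℤ` of total degree `d` and `N r = #Fix(s^r)`.
-/

set_option autoImplicit false
set_option linter.style.haveILetI false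

noncomputable section

namespace Fermat.Agent.V

open Function

variable {X : Type*}

/-- the number of fixed points of `s ^ r`. -/
def v27hrN (s : Equiv.Perm X) (r : ℕ) : ℕ := Nat.card {x : X // (s ^ r) x = x}

/-- the number of invariant effective divisors of total degree `d`. -/
def v27hrA (s : Equiv.Perm X) (d : ℕ) : ℕ :=
  Nat.card {D : X →₀ ℤ // Finsupp.mapDomain (⇑s) D = D ∧ 0 ≤ D ∧ v27odTotal D = (d : ℤ)}

section

variable {s : Equiv.Perm X} (h : V27oPer s)
  (hfix : ∀ m : ℕ, 0 < m → Finite {x : X // (s ^ m) x = x})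

include h hfix in
theorem v27hr_N_eq (m : ℕ) (hm : 0 < m) :
    v27nN (v27o_finite_deg_le h hfix) m = v27hrN s m := by
  classical
  unfold v27nN v27hrN
  refine (v27o_card_fix_finset h m (hfix m hm) _ ?_).symm
  intro v
  rw [Finset.mem_filter, mem_v27nPl]
  exact ⟨fun hv => hv.2, fun hv => ⟨Nat.le_of_dvd hm hv, hv⟩⟩

theorem v27hr_deg_iff (d : ℕ) (E : v27oOrb s →₀ ℕ) :
    v27nDeg (v27oDeg s) E = d ↔
      v27odTotal ((v27odEffEquiv h E : {D : X →₀ ℤ // Finsupp.mapDomain (⇑s) D = D ∧ 0 ≤ D}) :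
        X →₀ ℤ) = (d : ℤ) := by
  rw [v27odEffEquiv_apply_coe, v27odPhi_cast_total]
  unfold v27nDeg
  exact Nat.cast_inj.symm

/-- flattening a nested subtype. -/
def v27hrFlat (d : ℕ) :
    {D' : {D : X →₀ ℤ // Finsupp.mapDomain (⇑s) D = D ∧ 0 ≤ D} //
      v27odTotal (D' : X →₀ ℤ) = (d : ℤ)} ≃
      {D : X →₀ ℤ // Finsupp.mapDomain (⇑s) D = D ∧ 0 ≤ D ∧ v27odTotal D = (d : ℤ)} where
  toFun x := ⟨x.1.1, x.1.2.1, x.1.2.2, x.2⟩
  invFun y := ⟨⟨y.1, y.2.1, y.2.2.1⟩, y.2.2.2⟩
  left_inv _ := rfl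
  right_inv _ := rfl

/-- effective divisors on orbits of degree `d` are the invariant effective divisors of total
degree `d`. -/
def v27hrEquiv (d : ℕ) :
    {E : v27oOrb s →₀ ℕ // v27nDeg (v27oDeg s) E = d} ≃
      {D : X →₀ ℤ // Finsupp.mapDomain (⇑s) D = D ∧ 0 ≤ D ∧ v27odTotal D = (d : ℤ)} :=
  ((v27odEffEquiv h).subtypeEquiv fun E => v27hr_deg_iff h d E).trans (v27hrFlat d)

include h hfix in
theorem v27hr_A_eq (d : ℕ) :
    v27nA (v27o_finite_deg_le h hfix) d = v27hrA s d := by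
  rw [v27nA_eq_natCard (fun v => v27oDeg_pos h v)]
  exact Nat.card_congr (v27hrEquiv h d)

include h hfix in
/-- **C6, abstract form.** -/
theorem v27hr_rec (d : ℕ) :
    d * v27hrA s d = ∑ i ∈ Finset.range d, v27hrN s (i + 1) * v27hrA s (d - (i + 1)) := by
  have := v27n_rec_nat (fun v => v27oDeg_pos h v) (v27o_finite_deg_le h hfix) d
  rw [v27hr_A_eq h hfix] at this
  rw [this]
  refine Finset.sum_congr rfl fun i _ => ?_
  rw [v27hr_N_eq h hfix (i + 1) (Nat.succ_pos i), v27hr_A_eq h hfix]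

include h hfix in
theorem v27hr_A_zero : v27hrA s 0 = 1 := by
  rw [← v27hr_A_eq h hfix]
  exact v27nA_zero (fun v => v27oDeg_pos h v) _

end

end Fermat.Agent.V
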