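import Fermat.Prelude.Def_AlgebraicCurve_BaseChangeGalois
import Fermat.Agent.V.Frob.HRec

/-!
# Program V (S27), leaf C6 (concrete half): the zeta recursion for a Frobenius structure

For `σ : SemilinearAut k F` all of whose place orbits are finite, with finitely many fixed places of
every power, and all places of degree one:
`d * A d = Σ_{i<d} N (i+1) * A (d-(i+1))`, where
`A d = #{E : Divisor k F // 0 ≤ E ∧ σ • E = E ∧ degree E = d}` and
`N r = #{v : Place k F // σ^r • v = v}`.
-/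

set_option autoImplicit false
set_option linter.style.haveILetI false

noncomputable section

namespace Fermat.Agent.V

open AlgebraicCurve

variable {k F : Type*} [Field k] [Field F] [Algebra k F]

/-- the permutation of the places induced by `σ`. -/
def v27hcPerm (σ : SemilinearAut k F) : Equiv.Perm (Place k F) := MulAction.toPerm σ

@[simp] theorem v27hcPerm_apply (σ : SemilinearAut k F) (v : Place k F) :
    v27hcPerm σ v = σ • v := rfl

theorem v27hcPerm_pow (σ : SemilinearAut k F) (m : ℕ) :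
    v27hcPerm σ ^ m = v27hcPerm (σ ^ m) :=
  (map_pow (MulAction.toPermHom (SemilinearAut k F) (Place k F)) σ m).symm

theorem v27hcPerm_pow_apply (σ : SemilinearAut k F) (m : ℕ) (v : Place k F) :
    (v27hcPerm σ ^ m) v = (σ ^ m) • v := by
  rw [v27hcPerm_pow]; rfl

theorem v27hc_per {σ : SemilinearAut k F}
    (hOr1 : ∀ v : Place k F, ∃ m : ℕ, 0 < m ∧ (σ ^ m) • v = v) : V27oPer (v27hcPerm σ) := by
  intro v
  obtain ⟨m, hm, hv⟩ := hOr1 v
  exact ⟨m, hm, by rw [v27hcPerm_pow_apply]; exact hv⟩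

theorem v27hc_mapDomain (σ : SemilinearAut k F) (D : Divisor k F) :
    Finsupp.mapDomain (⇑(v27hcPerm σ)) D = σ • D := rfl

/-- the number of places fixed by `σ ^ r`. -/
def v27hcN (σ : SemilinearAut k F) (r : ℕ) : ℕ := Nat.card {v : Place k F // (σ ^ r) • v = v}

/-- the number of `σ`-invariant effective divisors of degree `d`. -/
def v27hcA (σ : SemilinearAut k F) (d : ℕ) : ℕ :=
  Nat.card {E : Divisor k F // 0 ≤ E ∧ σ • E = E ∧ Divisor.degree E = (d : ℤ)}

theorem v27hc_degree_eq_total (hdeg : ∀ v : Place k F, v.deg = 1) (D : Divisor k F) :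
    Divisor.degree D = v27odTotal D := by
  induction D using Finsupp.induction_linear with
  | zero => simp
  | add D₁ D₂ h₁ h₂ => rw [map_add, map_add, h₁, h₂]
  | single v n => rw [Divisor.degree_single, hdeg v, v27odTotal_single]; simp

theorem v27hcN_eq (σ : SemilinearAut k F) (r : ℕ) : v27hcN σ r = v27hrN (v27hcPerm σ) r := by
  unfold v27hcN v27hrN
  refine Nat.card_congr (Equiv.subtypeEquivRight fun v => ?_)
  rw [v27hcPerm_pow_apply]

theorem v27hcA_eq (σ : SemilinearAut k F) (hdeg : ∀ v : Place k F, v.deg = 1) (d : ℕ) :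
    v27hcA σ d = v27hrA (v27hcPerm σ) d := by
  unfold v27hcA v27hrA
  refine Nat.card_congr (Equiv.subtypeEquivRight fun D => ?_)
  rw [v27hc_mapDomain, v27hc_degree_eq_total hdeg]
  tauto

/-- **C6**: the zeta recursion for the invariant effective divisors of a Frobenius structure. -/
theorem v27hc_rec (σ : SemilinearAut k F) (hdeg : ∀ v : Place k F, v.deg = 1)
    (hOr1 : ∀ v : Place k F, ∃ m : ℕ, 0 < m ∧ (σ ^ m) • v = v)
    (hOr2 : ∀ m : ℕ, 0 < m → Finite {v : Place k F // (σ ^ m) • v = v}) (d : ℕ) :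
    d * v27hcA σ d =
      ∑ i ∈ Finset.range d, v27hcN σ (i + 1) * v27hcA σ (d - (i + 1)) := by
  have hfix : ∀ m : ℕ, 0 < m → Finite {x : Place k F // (v27hcPerm σ ^ m) x = x} := by
    intro m hm
    haveI := hOr2 m hm
    exact Finite.of_equiv _ (Equiv.subtypeEquivRight fun v => by rw [v27hcPerm_pow_apply])
  have := v27hr_rec (v27hc_per hOr1) hfix d
  simp only [v27hcA_eq σ hdeg, v27hcN_eq]
  exact this

theorem v27hcA_zero (σ : SemilinearAut k F) (hdeg : ∀ v : Place k F, v.deg = 1)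
    (hOr1 : ∀ v : Place k F, ∃ m : ℕ, 0 < m ∧ (σ ^ m) • v = v)
    (hOr2 : ∀ m : ℕ, 0 < m → Finite {v : Place k F // (σ ^ m) • v = v}) :
    v27hcA σ 0 = 1 := by
  have hfix : ∀ m : ℕ, 0 < m → Finite {x : Place k F // (v27hcPerm σ ^ m) x = x} := by
    intro m hm
    haveI := hOr2 m hm
    exact Finite.of_equiv _ (Equiv.subtypeEquivRight fun v => by rw [v27hcPerm_pow_apply])
  rw [v27hcA_eq σ hdeg]
  exact v27hr_A_zero (v27hc_per hOr1) hfix

/-- the level-`m` form consumed by leaf ZB: the recursion for `(σ ^ m)`. -/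
theorem v27hc_rec_level (σ : SemilinearAut k F) (hdeg : ∀ v : Place k F, v.deg = 1)
    (hOr1 : ∀ v : Place k F, ∃ m : ℕ, 0 < m ∧ (σ ^ m) • v = v)
    (hOr2 : ∀ m : ℕ, 0 < m → Finite {v : Place k F // (σ ^ m) • v = v}) (m : ℕ) (hm : 0 < m)
    (d : ℕ) :
    d * v27hcA (σ ^ m) d =
      ∑ i ∈ Finset.range d, v27hcN σ (m * (i + 1)) * v27hcA (σ ^ m) (d - (i + 1)) := by
  have h1 : ∀ v : Place k F, ∃ r : ℕ, 0 < r ∧ ((σ ^ m) ^ r) • v = v := by
    intro v
    obtain ⟨r, hr, hv⟩ := hOr1 v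
    refine ⟨r, hr, ?_⟩
    rw [← pow_mul, mul_comm, pow_mul]
    have : ∀ j : ℕ, ((σ ^ r) ^ j) • v = v := by
      intro j
      induction j with
      | zero => simp
      | succ j ih => rw [pow_succ, mul_smul, hv, ih]
    exact this m
  have h2 : ∀ r : ℕ, 0 < r → Finite {v : Place k F // ((σ ^ m) ^ r) • v = v} := by
    intro r hr
    haveI := hOr2 (m * r) (Nat.mul_pos hm hr)
    exact Finite.of_equiv {v : Place k F // (σ ^ (m * r)) • v = v}
      (Equiv.subtypeEquivRight fun v => by rw [pow_mul])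
  have := v27hc_rec (σ ^ m) hdeg h1 h2 d
  rw [this]
  refine Finset.sum_congr rfl fun i _ => ?_
  congr 1
  unfold v27hcN
  exact Nat.card_congr (Equiv.subtypeEquivRight fun v => by rw [← pow_mul])

/-- finitely many invariant effective divisors of each degree. -/
theorem v27hc_finite_eff (σ : SemilinearAut k F) (hdeg : ∀ v : Place k F, v.deg = 1)
    (hOr1 : ∀ v : Place k F, ∃ m : ℕ, 0 < m ∧ (σ ^ m) • v = v)
    (hOr2 : ∀ m : ℕ, 0 < m → Finite {v : Place k F // (σ ^ m) • v = v}) (d : ℕ) :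
    Finite {E : Divisor k F // 0 ≤ E ∧ σ • E = E ∧ Divisor.degree E = (d : ℤ)} := by
  have hfix : ∀ m : ℕ, 0 < m → Finite {x : Place k F // (v27hcPerm σ ^ m) x = x} := by
    intro m hm
    haveI := hOr2 m hm
    exact Finite.of_equiv _ (Equiv.subtypeEquivRight fun v => by rw [v27hcPerm_pow_apply])
  have hper := v27hc_per hOr1
  have hfin := v27o_finite_deg_le hper hfix
  haveI : Finite {E : v27oOrb (v27hcPerm σ) →₀ ℕ // v27nDeg (v27oDeg (v27hcPerm σ)) E = d} :=
    Finite.of_equiv (↥(v27nEff hfin d))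
      (Equiv.subtypeEquivRight fun E => mem_v27nEff (fun v => v27oDeg_pos hper v) hfin)
  haveI : Finite {D : Place k F →₀ ℤ // Finsupp.mapDomain (⇑(v27hcPerm σ)) D = D ∧ 0 ≤ D ∧
      v27odTotal D = (d : ℤ)} := Finite.of_equiv _ (v27hrEquiv hper d)
  refine Finite.of_equiv {D : Place k F →₀ ℤ // Finsupp.mapDomain (⇑(v27hcPerm σ)) D = D ∧ 0 ≤ D ∧
      v27odTotal D = (d : ℤ)} (Equiv.subtypeEquivRight fun D => ?_)
  rw [v27hc_mapDomain, v27hc_degree_eq_total hdeg]
  tauto

end Fermat.Agent.V
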