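import Mathlib
import Fermat.Prelude.Def_AlgebraicCurve_BaseChangeGalois
import Fermat.Prelude.Def_AlgebraicCurve_IsCurveOver
import Fermat.Agent.S24.PlaceOrd

/-!
# Program V (S27), leaf ORBIT: Frobenius orbits of places, divisors, classes

`k` algebraically closed, `F / k` a function field (`IsCurveOver k F`), `σ : SemilinearAut k F`
with `baseAut σ c = c ^ Q` (`1 < Q`) and finite orbits on `F`.  Then

* `v27fo_place_orbit_finite` : every place has a finite `σ`-orbit;
* `v27fo_fixed_places_finite` : for `n > 0` only finitely many places are fixed by `σ ^ n`;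
* `v27fo_divisor_orbit_finite`, `v27fo_pic0_orbit_finite` : the same for divisors and classes;
* `v27fo_effective_finite` : finitely many effective `σ ^ n`-invariant divisors of given degree.
-/

set_option autoImplicit false
set_option linter.unusedSectionVars false
set_option linter.style.haveILetI false

noncomputable section

open AlgebraicCurve Fermat.Agent.S24

section Basic

variable {k F : Type*} [Field k] [Field F] [Algebra k F]

theorem v27fo_baseAut_pow (σ : SemilinearAut k F) (n : ℕ) :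
    SemilinearAut.baseAut (σ ^ n) = SemilinearAut.baseAut σ ^ n := by
  induction n with
  | zero => simp
  | succ n ih => rw [pow_succ, SemilinearAut.baseAut_mul, ih, pow_succ]

theorem v27fo_baseAut_pow_apply (σ : SemilinearAut k F) (Q : ℕ)
    (hbase : ∀ c : k, SemilinearAut.baseAut σ c = c ^ Q) (n : ℕ) (c : k) :
    SemilinearAut.baseAut (σ ^ n) c = c ^ Q ^ n := by
  induction n generalizing c with
  | zero => simp
  | succ n ih =>
    rw [pow_succ, SemilinearAut.baseAut_mul, RingAut.mul_apply, hbase, ih, ← pow_mul, ← pow_succ']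

theorem v27fo_pow_smul_algebraMap (σ : SemilinearAut k F) (Q : ℕ)
    (hbase : ∀ c : k, SemilinearAut.baseAut σ c = c ^ Q) (n : ℕ) (c : k) :
    (σ ^ n) • algebraMap k F c = algebraMap k F (c ^ Q ^ n) := by
  rw [SemilinearAut.smul_algebraMap, v27fo_baseAut_pow_apply σ Q hbase]

/-- the set of places where a non-zero function has a zero or a pole is finite. -/
theorem v27fo_finite_ord_ne_zero [HasPrincipalDivisors k F] {f : F} (hf : f ≠ 0) :
    {w : Place k F | w.ord f ≠ 0}.Finite := by
  obtain ⟨D, hD, -⟩ := HasPrincipalDivisors.exists_divisor (K := k) f hf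
  refine D.support.finite_toSet.subset fun w hw => ?_
  rw [Finset.mem_coe, Finsupp.mem_support_iff, hD w]
  exact hw

/-- a constant is not a zero or a pole anywhere, so a function outside some valuation ring is
not constant. -/
theorem v27fo_not_mem_range_of_not_mem (w : Place k F) {x : F} (hx : x ∉ w.toValuationSubring) :
    x ∉ (algebraMap k F).range := by
  rintro ⟨c, rfl⟩
  exact hx (w.algebraMap_mem' c)

end Basic

section Residue

variable {k F : Type*} [Field k] [Field F] [Algebra k F] [IsAlgClosed k] [IsCurveOver k F]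

/-- the value of an integral function at a place: `x - c` vanishes at `w`. -/
theorem v27fo_exists_value (w : Place k F) {x : F} (hx : x ∈ w.toValuationSubring)
    (hxc : x ∉ (algebraMap k F).range) :
    ∃ c : k, 0 < w.ord (x - algebraMap k F c) := by
  haveI : Module.Finite k w.ResidueField := IsCurveOver.finiteResidue w
  have : Algebra.IsIntegral k w.ResidueField := Algebra.IsIntegral.of_finite k w.ResidueField
  have hbij : Function.Bijective (algebraMap k w.ResidueField) :=
    IsAlgClosed.algebraMap_bijective_of_isIntegral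
  obtain ⟨c, hc⟩ := hbij.2 (IsLocalRing.residue w.toValuationSubring ⟨x, hx⟩)
  refine ⟨c, ?_⟩
  set a : w.toValuationSubring := ⟨x, hx⟩ - algebraMap k w.toValuationSubring c with ha
  have hacoe : (a : F) = x - algebraMap k F c := by
    rw [ha]
    simp
  have ha0 : a ≠ 0 := by
    intro h0
    apply hxc
    refine ⟨c, ?_⟩
    have : (a : F) = 0 := by rw [h0]; rfl
    rw [hacoe, sub_eq_zero] at this
    exact this.symm
  have hmem : a ∈ IsLocalRing.maximalIdeal w.toValuationSubring := by
    rw [← IsLocalRing.residue_eq_zero_iff, ha, map_sub, sub_eq_zero]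
    rw [← hc]
    rfl
  have := (PlaceOrd.ord_pos_iff_mem_maximalIdeal w ha0).2 hmem
  rwa [hacoe] at this

end Residue

section Fixed

variable {k F : Type*} [Field k] [Field F] [Algebra k F] [IsAlgClosed k] [IsCurveOver k F]
  (σ : SemilinearAut k F) (Q : ℕ)

/-- the value at a `τ`-fixed place of a `τ`-fixed function is a `τ`-fixed constant. -/
theorem v27fo_value_fixed (hbase : ∀ c : k, SemilinearAut.baseAut σ c = c ^ Q) (N : ℕ)
    (w : Place k F) (hw : σ ^ N • w = w) {x : F} (hxfix : (σ ^ N) • x = x)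
    {c : k} (hc : 0 < w.ord (x - algebraMap k F c)) :
    c ^ Q ^ N = c := by
  by_contra hne
  have h1 : (σ ^ N • w).ord ((σ ^ N) • (x - algebraMap k F c)) = w.ord (x - algebraMap k F c) :=
    SemilinearAut.ord_smul (σ ^ N) w _
  rw [hw, smul_sub, hxfix, v27fo_pow_smul_algebraMap σ Q hbase] at h1
  have h2 : 0 < w.ord (x - algebraMap k F (c ^ Q ^ N)) := by rw [h1]; exact hc
  have hdiff : (x - algebraMap k F c) - (x - algebraMap k F (c ^ Q ^ N))
      = algebraMap k F (c ^ Q ^ N - c) := by
    rw [map_sub]; ring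
  have hne' : (x - algebraMap k F c) - (x - algebraMap k F (c ^ Q ^ N)) ≠ 0 := by
    rw [hdiff]
    intro h0
    apply hne
    have := (algebraMap k F).injective (h0.trans (map_zero _).symm)
    exact sub_eq_zero.1 this
  have h3 := PlaceOrd.ord_sub_pos_of_pos w hc h2 hne'
  rw [hdiff, PlaceOrd.ord_algebraMap] at h3
  exact lt_irrefl _ h3

theorem v27fo_pow_mul_smul {X : Type*} [MulAction (SemilinearAut k F) X] (n m : ℕ) {w : X}
    (hw : σ ^ n • w = w) : σ ^ (n * m) • w = w := by
  induction m with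
  | zero => simp
  | succ m ih =>
    rw [Nat.mul_succ, pow_add, mul_smul, hw, ih]

/-- **(Ob)** only finitely many places are fixed by `σ ^ n`, `n > 0`. -/
theorem v27fo_fixed_places_finite (hQ : 1 < Q)
    (hbase : ∀ c : k, SemilinearAut.baseAut σ c = c ^ Q)
    (hloc : ∀ f : F, ∃ m : ℕ, 0 < m ∧ (σ ^ m) • f = f) (n : ℕ) (hn : 0 < n) :
    {w : Place k F | σ ^ n • w = w}.Finite := by
  classical
  by_cases hne : Nonempty (Place k F)
  swap
  · refine Set.Finite.subset Set.finite_empty fun w _ => (hne ⟨w⟩).elim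
  obtain ⟨w0⟩ := hne
  -- a non-constant function
  obtain ⟨x, hx0⟩ : ∃ x : F, x ∉ w0.toValuationSubring := by
    by_contra hall
    push Not at hall
    exact w0.ne_top' (SetLike.ext fun x => ⟨fun _ => ValuationSubring.mem_top x, fun _ => hall x⟩)
  have hxc : x ∉ (algebraMap k F).range := v27fo_not_mem_range_of_not_mem w0 hx0
  obtain ⟨m, hm, hxm⟩ := hloc x
  set N := n * m with hN
  have hNpos : 0 < N := Nat.mul_pos hn hm
  have hxN : (σ ^ N) • x = x := by
    rw [hN, mul_comm]
    exact v27fo_pow_mul_smul σ m n hxm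
  have hsub : {w : Place k F | σ ^ n • w = w} ⊆ {w : Place k F | σ ^ N • w = w} :=
    fun w hw => v27fo_pow_mul_smul σ n m hw
  refine Set.Finite.subset ?_ hsub
  have hx_ne : x ≠ 0 := fun h => hxc ⟨0, by rw [h, map_zero]⟩
  -- the finite set of possible values
  have hR : 1 < Q ^ N := Nat.one_lt_pow hNpos.ne' hQ
  have hroots : {c : k | c ^ Q ^ N = c}.Finite := by
    have hpoly : (Polynomial.X ^ Q ^ N - Polynomial.X : Polynomial k) ≠ 0 :=
      FiniteField.X_pow_card_sub_X_ne_zero k hR
    refine ((Polynomial.X ^ Q ^ N - Polynomial.X : Polynomial k).roots.toFinset.finite_toSet).subset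
      fun c hc => ?_
    simp only [Finset.mem_coe, Multiset.mem_toFinset, Polynomial.mem_roots hpoly,
      Polynomial.IsRoot.def, Polynomial.eval_sub, Polynomial.eval_pow, Polynomial.eval_X]
    exact sub_eq_zero.2 hc
  have hfin : ({w : Place k F | w.ord x ≠ 0} ∪
      ⋃ c ∈ {c : k | c ^ Q ^ N = c}, {w : Place k F | w.ord (x - algebraMap k F c) ≠ 0}).Finite := by
    refine (v27fo_finite_ord_ne_zero hx_ne).union (hroots.biUnion fun c _ => ?_)
    refine v27fo_finite_ord_ne_zero fun h0 => hxc ⟨c, ?_⟩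
    exact (sub_eq_zero.1 h0).symm
  refine hfin.subset fun w hw => ?_
  by_cases hxw : x ∈ w.toValuationSubring
  · right
    obtain ⟨c, hc⟩ := v27fo_exists_value w hxw hxc
    have hcfix := v27fo_value_fixed σ Q hbase N w hw hxN hc
    simp only [Set.mem_iUnion, Set.mem_ofPred_eq]
    exact ⟨c, hcfix, hc.ne'⟩
  · left
    intro h0
    exact hxw (PlaceOrd.mem_of_ord_nonneg w h0.ge)

/-- **(Oa)** every place has a finite `σ`-orbit. -/
theorem v27fo_place_orbit_finite
    (hloc : ∀ f : F, ∃ m : ℕ, 0 < m ∧ (σ ^ m) • f = f) (w : Place k F) :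
    ∃ n : ℕ, 0 < n ∧ σ ^ n • w = w := by
  obtain ⟨y, hy⟩ : ∃ y : F, y ∉ w.toValuationSubring := by
    by_contra hall
    push Not at hall
    exact w.ne_top' (SetLike.ext fun x => ⟨fun _ => ValuationSubring.mem_top x, fun _ => hall x⟩)
  have hy0 : y ≠ 0 := fun h => hy (h ▸ w.toValuationSubring.zero_mem)
  set x : F := y⁻¹ with hx
  have hx0 : x ≠ 0 := inv_ne_zero hy0
  have hxpos : 0 < w.ord x := by
    rw [PlaceOrd.ord_pos_iff w hx0, hx, inv_inv]
    exact hy
  obtain ⟨m, hm, hxm⟩ := hloc x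
  -- all translates of `w` by powers of `σ ^ m` are zeros of `x`
  have hzero : ∀ j : ℕ, ((σ ^ m) ^ j • w).ord x = w.ord x := by
    intro j
    have hfix : ((σ ^ m) ^ j) • x = x := by
      rw [← pow_mul]
      exact v27fo_pow_mul_smul σ m j hxm
    have h1 := SemilinearAut.ord_smul ((σ ^ m) ^ j) w x
    rwa [hfix] at h1
  have hfinZ : {w' : Place k F | w'.ord x ≠ 0}.Finite := v27fo_finite_ord_ne_zero hx0
  haveI : Finite {w' : Place k F | w'.ord x ≠ 0} := hfinZ
  let g : ℕ → {w' : Place k F | w'.ord x ≠ 0} := fun j =>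
    ⟨(σ ^ m) ^ j • w, by
      show ((σ ^ m) ^ j • w).ord x ≠ 0
      rw [hzero j]
      exact hxpos.ne'⟩
  obtain ⟨i, j, hij, hg⟩ := Finite.exists_ne_map_eq_of_infinite g
  have hg' : (σ ^ m) ^ i • w = (σ ^ m) ^ j • w := congrArg Subtype.val hg
  wlog hlt : i < j generalizing i j
  · exact this j i hij.symm hg.symm hg'.symm (lt_of_le_of_ne (not_lt.1 hlt) hij.symm)
  refine ⟨m * (j - i), Nat.mul_pos hm (Nat.sub_pos_of_lt hlt), ?_⟩
  have hj : j = i + (j - i) := (Nat.add_sub_cancel' hlt.le).symm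
  rw [hj, pow_add, mul_smul] at hg'
  have := smul_left_cancel _ hg'
  rw [pow_mul]
  exact this.symm

/-- **(Oc)** every divisor has a finite `σ`-orbit. -/
theorem v27fo_divisor_orbit_finite
    (hloc : ∀ f : F, ∃ m : ℕ, 0 < m ∧ (σ ^ m) • f = f) (D : Divisor k F) :
    ∃ n : ℕ, 0 < n ∧ σ ^ n • D = D := by
  induction D using Finsupp.induction with
  | zero => exact ⟨1, Nat.one_pos, smul_zero _⟩
  | single_add v a D _ _ ih =>
    obtain ⟨n₁, hn₁, h₁⟩ := v27fo_place_orbit_finite σ hloc v
    obtain ⟨n₂, hn₂, h₂⟩ := ih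
    refine ⟨n₁ * n₂, Nat.mul_pos hn₁ hn₂, ?_⟩
    rw [smul_add, SemilinearAut.smul_single, v27fo_pow_mul_smul σ n₁ n₂ h₁]
    rw [mul_comm, v27fo_pow_mul_smul σ n₂ n₁ h₂]

/-- **(Oc')** every class in `Pic0` has a finite `σ`-orbit. -/
theorem v27fo_pic0_orbit_finite
    (hloc : ∀ f : F, ∃ m : ℕ, 0 < m ∧ (σ ^ m) • f = f) (x : Pic0 k F) :
    ∃ n : ℕ, 0 < n ∧ σ ^ n • x = x := by
  obtain ⟨D, rfl⟩ := Pic0.mk_surjective x
  obtain ⟨n, hn, hD⟩ := v27fo_divisor_orbit_finite σ hloc (D : Divisor k F)
  refine ⟨n, hn, ?_⟩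
  rw [SemilinearAut.pic0_smul_mk]
  exact congrArg Pic0.mk (Subtype.ext (by rw [SemilinearAut.coe_degZeroSMulHom, hD]))

end Fixed

section Effective

variable {k F : Type*} [Field k] [Field F] [Algebra k F] [IsAlgClosed k] [IsCurveOver k F]
  (σ : SemilinearAut k F) (Q : ℕ)

/-- over an algebraically closed field the degree is the sum of the coefficients. -/
theorem v27fo_degree_eq_sum (E : Divisor k F) : Divisor.degree E = ∑ w ∈ E.support, E w := by
  rw [Divisor.degree, Finsupp.liftAddHom_apply, Finsupp.sum]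
  refine Finset.sum_congr rfl fun v _ => ?_
  simp [IsCurveOver.deg_eq_one_of_isAlgClosed v]

theorem v27fo_sum_le_degree {E : Divisor k F} (hE : 0 ≤ E) (T : Finset (Place k F)) :
    ∑ w ∈ T, E w ≤ Divisor.degree E := by
  classical
  have hnn : ∀ w, 0 ≤ E w := fun w => by
    have := Finsupp.le_def.mp hE w
    simpa using this
  rw [v27fo_degree_eq_sum]
  have h1 : ∑ w ∈ T, E w = ∑ w ∈ T ∩ E.support, E w := by
    symm
    refine Finset.sum_subset Finset.inter_subset_left fun w hwT hw => ?_
    rw [Finset.mem_inter, not_and] at hw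
    have := hw hwT
    rwa [Finsupp.mem_support_iff, not_not] at this
  rw [h1]
  exact Finset.sum_le_sum_of_subset_of_nonneg Finset.inter_subset_right fun w _ _ => hnn w

theorem v27fo_apply_pow_smul {E : Divisor k F} {τ : SemilinearAut k F} (hτ : τ • E = E)
    (j : ℕ) (w : Place k F) : E (τ ^ j • w) = E w := by
  induction j with
  | zero => simp
  | succ j ih =>
    rw [pow_succ', mul_smul]
    have h := SemilinearAut.divisor_smul_apply_smul τ E (τ ^ j • w)
    rw [hτ] at h
    rw [h, ih]

/-- **(Od)** for `n > 0` there are only finitely many effective `σ ^ n`-invariant divisors of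
degree at most `d`. -/
theorem v27fo_effective_finite (hQ : 1 < Q)
    (hbase : ∀ c : k, SemilinearAut.baseAut σ c = c ^ Q)
    (hloc : ∀ f : F, ∃ m : ℕ, 0 < m ∧ (σ ^ m) • f = f) (n : ℕ) (hn : 0 < n) (d : ℕ) :
    {E : Divisor k F | 0 ≤ E ∧ σ ^ n • E = E ∧ Divisor.degree E ≤ d}.Finite := by
  classical
  set N := n * d.factorial with hN
  have hNpos : 0 < N := Nat.mul_pos hn d.factorial_pos
  have hS := v27fo_fixed_places_finite σ Q hQ hbase hloc N hNpos
  -- supports lie in the finite set of `σ ^ N`-fixed places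
  have hsupp : ∀ E : Divisor k F, 0 ≤ E → σ ^ n • E = E → Divisor.degree E ≤ d →
      ∀ w, E w ≠ 0 → σ ^ N • w = w := by
    intro E hE hτ hd w hw
    have hnn : ∀ w, 0 ≤ E w := fun w => by
      have := Finsupp.le_def.mp hE w
      simpa using this
    have hpos : ∀ j : ℕ, 1 ≤ E ((σ ^ n) ^ j • w) := by
      intro j
      rw [v27fo_apply_pow_smul hτ]
      have := hnn w
      omega
    -- the `d + 1` translates cannot be distinct
    have hninj : ¬ Function.Injective (fun j : Fin (d + 1) => (σ ^ n) ^ (j : ℕ) • w) := by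
      intro hinj
      have h1 := v27fo_sum_le_degree hE (Finset.univ.map ⟨_, hinj⟩)
      rw [Finset.sum_map] at h1
      have h2 : ((d + 1 : ℕ) : ℤ) ≤ ∑ j : Fin (d + 1), E ((σ ^ n) ^ (j : ℕ) • w) := by
        have : ∑ _j : Fin (d + 1), (1 : ℤ) ≤ ∑ j : Fin (d + 1), E ((σ ^ n) ^ (j : ℕ) • w) :=
          Finset.sum_le_sum fun j _ => hpos j
        simpa using this
      simp only [Function.Embedding.coeFn_mk] at h1
      push_cast at h2
      omega
    rw [Function.Injective] at hninj
    push Not at hninj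
    obtain ⟨i, j, hij, hne⟩ := hninj
    wlog hlt : (i : ℕ) < j generalizing i j
    · exact this j i hij.symm hne.symm
        (lt_of_le_of_ne (not_lt.1 hlt) (fun h => hne (Fin.ext h.symm)))
    have hj : (j : ℕ) = i + (j - i) := (Nat.add_sub_cancel' hlt.le).symm
    rw [hj, pow_add, mul_smul] at hij
    have hfix : (σ ^ n) ^ ((j : ℕ) - i) • w = w := (smul_left_cancel _ hij).symm
    have hle : (j : ℕ) - i ≤ d := by
      have := j.2
      omega
    have hdvd : (j : ℕ) - i ∣ d.factorial :=
      Nat.dvd_factorial (Nat.sub_pos_of_lt hlt) hle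
    obtain ⟨t, ht⟩ := hdvd
    rw [hN, ht, ← mul_assoc, pow_mul, pow_mul]
    rw [← pow_mul] at hfix
    have := v27fo_pow_mul_smul σ (n * ((j : ℕ) - i)) t hfix
    rwa [pow_mul, pow_mul] at this
  haveI : Finite {w : Place k F | σ ^ N • w = w} := hS
  let Φ : Divisor k F → ({w : Place k F | σ ^ N • w = w} → Fin (d + 1)) := fun E w =>
    ⟨min (E w).toNat d, Nat.lt_succ_of_le (min_le_right _ _)⟩
  refine Set.Finite.of_injOn (f := Φ) (t := Set.univ) (fun _ _ => Set.mem_univ _) ?_
    Set.finite_univ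
  rintro E₁ ⟨hE₁, hτ₁, hd₁⟩ E₂ ⟨hE₂, hτ₂, hd₂⟩ hΦ
  have hbound : ∀ E : Divisor k F, 0 ≤ E → Divisor.degree E ≤ d → ∀ w, 0 ≤ E w ∧ E w ≤ d := by
    intro E hE hd w
    have hnn : 0 ≤ E w := by
      have := Finsupp.le_def.mp hE w
      simpa using this
    have := v27fo_sum_le_degree hE {w}
    rw [Finset.sum_singleton] at this
    exact ⟨hnn, this.trans hd⟩
  ext w
  by_cases hw : σ ^ N • w = w
  · have h := congrFun hΦ ⟨w, hw⟩
    simp only [Φ, Fin.mk.injEq] at h
    obtain ⟨h1, h1'⟩ := hbound E₁ hE₁ hd₁ w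
    obtain ⟨h2, h2'⟩ := hbound E₂ hE₂ hd₂ w
    have e1 : min (E₁ w).toNat d = (E₁ w).toNat := min_eq_left (by omega)
    have e2 : min (E₂ w).toNat d = (E₂ w).toNat := min_eq_left (by omega)
    rw [e1, e2] at h
    omega
  · have h1 : E₁ w = 0 := by
      by_contra h0
      exact hw (hsupp E₁ hE₁ hτ₁ hd₁ w h0)
    have h2 : E₂ w = 0 := by
      by_contra h0
      exact hw (hsupp E₂ hE₂ hτ₂ hd₂ w h0)
    rw [h1, h2]

end Effective

section Perm

variable {k F : Type*} [Field k] [Field F] [Algebra k F] [IsAlgClosed k] [IsCurveOver k F]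
  (σ : SemilinearAut k F) (Q : ℕ)

theorem v27fo_toPerm_pow_apply (m : ℕ) (w : Place k F) :
    ((MulAction.toPerm σ : Equiv.Perm (Place k F)) ^ m) w = σ ^ m • w := by
  induction m generalizing w with
  | zero => simp
  | succ m ih =>
    rw [pow_succ, Equiv.Perm.mul_apply, ih, pow_succ, mul_smul]
    rfl

/-- **(Oe)** the permutation of the places induced by `σ` has only finite cycles
(this is literally `V27oPer (MulAction.toPerm σ)` of `V/Frob/OrbitComb`). -/
theorem v27fo_toPerm_per (hloc : ∀ f : F, ∃ m : ℕ, 0 < m ∧ (σ ^ m) • f = f) :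
    ∀ w : Place k F, ∃ m : ℕ, 0 < m ∧
      ((MulAction.toPerm σ : Equiv.Perm (Place k F)) ^ m) w = w := by
  intro w
  obtain ⟨m, hm, h⟩ := v27fo_place_orbit_finite σ hloc w
  exact ⟨m, hm, by rw [v27fo_toPerm_pow_apply, h]⟩

/-- **(Oe')** the fixed points of the `m`-th power of that permutation form a finite type. -/
theorem v27fo_toPerm_fix_finite (hQ : 1 < Q)
    (hbase : ∀ c : k, SemilinearAut.baseAut σ c = c ^ Q)
    (hloc : ∀ f : F, ∃ m : ℕ, 0 < m ∧ (σ ^ m) • f = f) (m : ℕ) (hm : 0 < m) :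
    Finite {w : Place k F // ((MulAction.toPerm σ : Equiv.Perm (Place k F)) ^ m) w = w} := by
  have h := v27fo_fixed_places_finite σ Q hQ hbase hloc m hm
  have : {w : Place k F | σ ^ m • w = w} =
      {w : Place k F | ((MulAction.toPerm σ : Equiv.Perm (Place k F)) ^ m) w = w} := by
    ext w
    simp only [Set.mem_ofPred_eq, v27fo_toPerm_pow_apply]
  rw [this] at h
  exact h

end Perm

end
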