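import Fermat.Agent.V.Frob.Count

/-!
# Program V (S27), leaf Frob : descent of divisor classes (C3) and invariance of `ℓ` (C4)

`σ : SemilinearAut k F`, `baseAut σ c = c ^ Q`, locally finite on `F`, `k` algebraically closed.

* `v27f_picdesc_a` : a `σ`-invariant principal divisor is the divisor of a `σ`-fixed function;
* `v27f_picdesc_b` : a divisor whose class is `σ`-invariant is linearly equivalent to a `σ`-invariant
  divisor (Hilbert-90-free : a fixed vector of the twisted semilinear map `g ↦ f₁ · σ g`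
  on `L(D + A)`).
-/

set_option autoImplicit false
set_option linter.unusedSectionVars false

noncomputable section

namespace Fermat.Agent.V

open AlgebraicCurve

variable {k F : Type*} [Field k] [Field F] [Algebra k F]

section Norm

variable (σ : SemilinearAut k F)

/-- the partial norms `N_n f = f · σ f ⋯ σ^(n-1) f`, defined by `N_(n+1) f = f · σ (N_n f)` -/
def v27fNorm (f : F) : ℕ → F
  | 0 => 1
  | n + 1 => f * σ • v27fNorm f n

@[simp] theorem v27fNorm_zero (f : F) : v27fNorm σ f 0 = 1 := rfl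

theorem v27fNorm_succ (f : F) (n : ℕ) : v27fNorm σ f (n + 1) = f * σ • v27fNorm σ f n := rfl

theorem v27fNorm_ne_zero {f : F} (hf : f ≠ 0) (n : ℕ) : v27fNorm σ f n ≠ 0 := by
  induction n with
  | zero => simp
  | succ n ih =>
    rw [v27fNorm_succ]
    exact mul_ne_zero hf (fun h => ih ((smul_eq_zero_iff_eq σ).mp h))

/-- cocycle relation -/
theorem v27fNorm_add (f : F) (m n : ℕ) :
    v27fNorm σ f (m + n) = v27fNorm σ f m * (σ ^ m) • v27fNorm σ f n := by
  induction m with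
  | zero => simp
  | succ m ih =>
    rw [Nat.succ_add, v27fNorm_succ, ih, v27fNorm_succ, smul_mul', ← mul_smul, ← pow_succ',
      mul_assoc]

theorem v27fNorm_mul_eq_one {f : F} {n₀ : ℕ} (h : v27fNorm σ f n₀ = 1) (j : ℕ) :
    v27fNorm σ f (n₀ * j) = 1 := by
  induction j with
  | zero => simp
  | succ j ih =>
    rw [Nat.mul_succ, v27fNorm_add, ih, h, smul_one, mul_one]

/-- geometric sum `S_n = 1 + Q + ⋯ + Q^(n-1)` -/
def v27fGeom (Q : ℕ) : ℕ → ℕ
  | 0 => 0
  | n + 1 => 1 + Q * v27fGeom Q n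

theorem v27fGeom_pos (Q : ℕ) {n : ℕ} (hn : 0 < n) : 0 < v27fGeom Q n := by
  obtain ⟨m, rfl⟩ : ∃ m, n = m + 1 := ⟨n - 1, by omega⟩
  simp [v27fGeom]

theorem v27fNorm_smul {Q : ℕ} (hbase : ∀ c : k, SemilinearAut.baseAut σ c = c ^ Q)
    (c : k) (f : F) (n : ℕ) :
    v27fNorm σ (c • f) n = c ^ v27fGeom Q n • v27fNorm σ f n := by
  induction n with
  | zero => simp [v27fGeom]
  | succ n ih =>
    rw [v27fNorm_succ, ih, v27f_smul_smul_base σ hbase, v27fNorm_succ, v27fGeom, smul_mul_smul_comm,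
      ← pow_mul, pow_add, pow_one, mul_comm (v27fGeom Q n) Q]

/-- the divisor of `N_n f` telescopes -/
theorem v27fNorm_ord {D : Divisor k F} {f : F} (hf : f ≠ 0)
    (hdiv : ∀ v : Place k F, (σ • D - D) v = v.ord f) (n : ℕ) (v : Place k F) :
    v.ord (v27fNorm σ f n) = ((σ ^ n) • D - D) v := by
  induction n generalizing v with
  | zero => simp
  | succ n ih =>
    rw [v27fNorm_succ, v.ord_mul hf (fun h => v27fNorm_ne_zero σ hf n ((smul_eq_zero_iff_eq σ).mp h)),
      v27f_ord_smul', ih, ← hdiv]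
    simp only [Finsupp.sub_apply]
    rw [pow_succ', mul_smul, SemilinearAut.divisor_smul_apply σ ((σ ^ n) • D) v,
      SemilinearAut.divisor_smul_apply σ D v]
    ring

end Norm

section Twist

variable (σ : SemilinearAut k F)

theorem v27f_pow_smul_fixed (g : SemilinearAut k F) {w : F} (hw : g • w = w) (n : ℕ) :
    (g ^ n) • w = w := by
  induction n with
  | zero => simp
  | succ n ih => rw [pow_succ, mul_smul, hw, ih]

/-- `g ↦ f · σ g` preserves `L(D + A)` when `div f = σ D - D` and `σ A = A`. -/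
theorem v27f_twist_mem {D A : Divisor k F} (hA : σ • A = A) {f : F} (hf : f ≠ 0)
    (hdiv : ∀ v : Place k F, (σ • D - D) v = v.ord f) {g : F}
    (hg : g ∈ riemannRochSpace (D + A)) : f * σ • g ∈ riemannRochSpace (D + A) := by
  rw [mem_riemannRochSpace_iff] at hg ⊢
  intro v
  rcases eq_or_ne g 0 with rfl | hg0
  · left
    rw [smul_zero, mul_zero]
  · right
    have hσg : σ • g ≠ 0 := fun h => hg0 ((smul_eq_zero_iff_eq σ).mp h)
    rw [v.ord_mul hf hσg, ← hdiv, v27f_ord_smul']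
    rcases hg (σ⁻¹ • v) with h | h
    · exact absurd h hg0
    · have hA' : A (σ⁻¹ • v) = A v := by
        conv_rhs => rw [← hA]
        rw [SemilinearAut.divisor_smul_apply]
      simp only [Finsupp.sub_apply, Finsupp.add_apply] at h ⊢
      rw [SemilinearAut.divisor_smul_apply σ D v]
      rw [hA'] at h
      linarith

/-- the twisted additive map `g ↦ f · σ g` on `L(D + A)` -/
def v27fTwist {D A : Divisor k F} (hA : σ • A = A) {f : F} (hf : f ≠ 0)
    (hdiv : ∀ v : Place k F, (σ • D - D) v = v.ord f) :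
    riemannRochSpace (D + A) →+ riemannRochSpace (D + A) where
  toFun g := ⟨f * σ • (g : F), v27f_twist_mem σ hA hf hdiv g.2⟩
  map_zero' := Subtype.ext (by simp)
  map_add' g h := Subtype.ext (by
    show f * σ • ((g : F) + (h : F)) = f * σ • (g : F) + f * σ • (h : F)
    rw [smul_add, mul_add])

theorem v27fTwist_iterate_coe {D A : Divisor k F} (hA : σ • A = A) {f : F} (hf : f ≠ 0)
    (hdiv : ∀ v : Place k F, (σ • D - D) v = v.ord f) (n : ℕ) (g : riemannRochSpace (D + A)) :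
    (((⇑(v27fTwist σ hA hf hdiv))^[n] g : riemannRochSpace (D + A)) : F) =
      v27fNorm σ f n * (σ ^ n) • (g : F) := by
  induction n with
  | zero => simp
  | succ n ih =>
    rw [Function.iterate_succ_apply']
    show f * σ • (((⇑(v27fTwist σ hA hf hdiv))^[n] g : riemannRochSpace (D + A)) : F) = _
    rw [ih, smul_mul', ← mul_smul, ← pow_succ', v27fNorm_succ, mul_assoc]

end Twist

section Desc

variable [HasPrincipalDivisors k F] [IsAlgClosed k]
variable (σ : SemilinearAut k F) {Q : ℕ}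

/-- **C3 (a)** : a `σ`-invariant principal divisor is the divisor of a `σ`-fixed function. -/
theorem v27f_picdesc_a (hQ1 : 1 < Q)
    (hbase : ∀ c : k, SemilinearAut.baseAut σ c = c ^ Q)
    (hconst : ∀ f : F, f ≠ 0 → (∀ v : Place k F, v.ord f = 0) → ∃ c : k, f = algebraMap k F c)
    {D : Divisor k F} (hD : σ • D = D) (hprin : D ∈ Divisor.principal (K := k) (F := F)) :
    ∃ f : F, f ≠ 0 ∧ σ • f = f ∧ ∀ v : Place k F, D v = v.ord f := by
  obtain ⟨g₀, hg₀, hdiv⟩ := hprin
  have hinv : ∀ v : Place k F, v.ord (σ • g₀) = v.ord g₀ := by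
    intro v
    rw [v27f_ord_smul', ← hdiv, ← hdiv]
    conv_rhs => rw [← hD]
    rw [SemilinearAut.divisor_smul_apply]
  obtain ⟨e, he0, hfix⟩ := v27f_exists_fixed_generator σ hQ1 hbase hconst hg₀ hinv
  exact ⟨e • g₀, smul_ne_zero he0 hg₀, hfix, fun v => by rw [v27f_ord_smul_const v he0, hdiv]⟩

/-- **C3 (b)** : a divisor with `σ`-invariant class is linearly equivalent to a `σ`-invariant one.
Hypotheses : `D` has a finite `σ`-orbit, and `L(D + A) ≠ 0` for some `σ`-invariant `A`. -/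
theorem v27f_picdesc_b (p : ℕ) [Fact p.Prime] [CharP k p] {a : ℕ} (hQ : Q = p ^ a) (ha : 0 < a)
    (hbase : ∀ c : k, SemilinearAut.baseAut σ c = c ^ Q)
    (hfin : ∀ f : F, ∃ n : ℕ, 0 < n ∧ (σ ^ n) • f = f)
    (hconst : ∀ f : F, f ≠ 0 → (∀ v : Place k F, v.ord f = 0) → ∃ c : k, f = algebraMap k F c)
    {D : Divisor k F} (hD : σ • D - D ∈ Divisor.principal (K := k) (F := F))
    (horb : ∃ n : ℕ, 0 < n ∧ (σ ^ n) • D = D)
    (hA : ∃ A : Divisor k F, σ • A = A ∧ ∃ g ∈ riemannRochSpace (D + A), g ≠ 0) :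
    ∃ D' : Divisor k F, D' - D ∈ Divisor.principal (K := k) (F := F) ∧ σ • D' = D' := by
  obtain ⟨f, hf, hdiv⟩ := hD
  obtain ⟨n₀, hn₀, hDn⟩ := horb
  obtain ⟨A, hAinv, g₁, hg₁, hg₁0⟩ := hA
  -- `c = N_{n₀} f` is a constant
  have hN0 : v27fNorm σ f n₀ ≠ 0 := v27fNorm_ne_zero σ hf n₀
  obtain ⟨c, hc⟩ := hconst _ hN0 (fun v => by
    rw [v27fNorm_ord σ hf hdiv, hDn, sub_self]
    rfl)
  have hc0 : c ≠ 0 := by
    rintro rfl
    rw [map_zero] at hc
    exact hN0 hc
  -- `d` with `d ^ S_{n₀} = c`, `f₁ = d⁻¹ • f`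
  obtain ⟨d, hd⟩ := IsAlgClosed.exists_pow_nat_eq c (v27fGeom_pos Q hn₀)
  have hd0 : d ≠ 0 := by
    rintro rfl
    rw [zero_pow (v27fGeom_pos Q hn₀).ne'] at hd
    exact hc0 hd.symm
  set f₁ : F := d⁻¹ • f with hf₁def
  have hf₁ : f₁ ≠ 0 := smul_ne_zero (inv_ne_zero hd0) hf
  have hdiv₁ : ∀ v : Place k F, (σ • D - D) v = v.ord f₁ := fun v => by
    rw [hf₁def, v27f_ord_smul_const v (inv_ne_zero hd0), hdiv]
  have hN1 : v27fNorm σ f₁ n₀ = 1 := by
    rw [hf₁def, v27fNorm_smul σ hbase, hc, inv_pow, hd, Algebra.smul_def, ← map_mul,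
      inv_mul_cancel₀ hc0, map_one]
  -- the twisted map is semilinear and locally finite
  have hsemi : V27Semilin (k := k) Q (v27fTwist σ hAinv hf₁ hdiv₁) :=
    { smul := fun c w => Subtype.ext (by
        show f₁ * σ • (c • (w : F)) = c ^ Q • (f₁ * σ • (w : F))
        rw [v27f_smul_smul_base σ hbase, mul_smul_comm])
      fin := fun w => by
        obtain ⟨m, hm, hw⟩ := hfin (w : F)
        refine ⟨n₀ * m, Nat.mul_pos hn₀ hm, Subtype.ext ?_⟩
        rw [v27fTwist_iterate_coe, v27fNorm_mul_eq_one σ hN1, one_mul, mul_comm, pow_mul]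
        exact v27f_pow_smul_fixed (σ ^ m) hw n₀ }
  have : Nontrivial (riemannRochSpace (D + A)) :=
    ⟨⟨⟨g₁, hg₁⟩, 0, fun h => hg₁0 (congrArg Subtype.val h)⟩⟩
  obtain ⟨g, hg0, hgfix⟩ := v27f_exists_fixed_ne_zero p hQ ha hsemi
  have hgF : (g : F) ≠ 0 := fun h => hg0 (Subtype.ext h)
  have hfix : f₁ * σ • (g : F) = (g : F) := congrArg Subtype.val hgfix
  have hσg : σ • (g : F) ≠ 0 := fun h => hgF ((smul_eq_zero_iff_eq σ).mp h)
  refine ⟨D + v27fDivOf (k := k) (g : F) hgF, ⟨(g : F), hgF, fun v => ?_⟩, ?_⟩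
  · rw [Finsupp.sub_apply, Finsupp.add_apply, v27fDivOf_apply]
    ring
  · ext v
    rw [SemilinearAut.divisor_smul_apply, Finsupp.add_apply, Finsupp.add_apply, v27fDivOf_apply,
      v27fDivOf_apply, ← v27f_ord_smul' σ v (g : F)]
    have h1 : v.ord (g : F) = v.ord f₁ + v.ord (σ • (g : F)) := by
      conv_lhs => rw [← hfix]
      exact v.ord_mul hf₁ hσg
    rw [h1, ← hdiv₁, Finsupp.sub_apply, SemilinearAut.divisor_smul_apply σ D v]
    ring

end Desc

end Fermat.Agent.V
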