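import Fermat.Agent.V.Frob.Ell
import Fermat.Agent.V.Frob.PicDesc

/-!
# Program V (S27), leaf Frob : C2 / C3 / C4 with the hypotheses discharged by `V27RR`

The technical hypotheses `hconst` (functions without zeros and poles are constant),
finite-dimensionality of `L(D)` and `L(D + A) ≠ 0` of `Count` / `PicDesc` are consequences of the
Riemann–Roch package `V27RR k F g` (helper9, `V/RR/Pack.lean`).
-/

set_option autoImplicit false
set_option linter.unusedSectionVars false
set_option linter.unusedVariables false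

noncomputable section

namespace Fermat.Agent.V

open AlgebraicCurve Module Fermat.Agent.V.RR

variable {k F : Type*} [Field k] [Field F] [Algebra k F] {g : ℕ}

/-- `hconst` from `l(0) = 1` -/
theorem v27f_hconst_of_rr (R : V27RR k F g) (f : F) (hf : f ≠ 0)
    (hord : ∀ v : Place k F, v.ord f = 0) : ∃ c : k, f = algebraMap k F c := by
  have h1 : (1 : F) ∈ riemannRochSpace (0 : Divisor k F) := by
    rw [mem_riemannRochSpace_iff]
    intro v
    right
    simp
  have hfm : f ∈ riemannRochSpace (0 : Divisor k F) := by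
    rw [mem_riemannRochSpace_iff]
    intro v
    right
    rw [hord v]
    simp
  have hne : (⟨1, h1⟩ : riemannRochSpace (0 : Divisor k F)) ≠ 0 := fun h =>
    one_ne_zero (congrArg Subtype.val h)
  obtain ⟨c, hc⟩ := (finrank_eq_one_iff_of_nonzero' _ hne).mp R.zero ⟨f, hfm⟩
  refine ⟨c, ?_⟩
  have := congrArg Subtype.val hc
  simp only [Submodule.coe_smul] at this
  rw [← this, Algebra.smul_def, mul_one]

section Closed

variable [IsAlgClosed k] (p : ℕ) [Fact p.Prime] [CharP k p]
variable (σ : SemilinearAut k F) {Q a : ℕ}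

/-- **C2 (COUNT), closed form.** -/
theorem v27f_count_rr (R : V27RR k F g) (hQ : Q = p ^ a) (ha : 0 < a)
    (hbase : ∀ c : k, SemilinearAut.baseAut σ c = c ^ Q)
    (hfin : ∀ f : F, ∃ n : ℕ, 0 < n ∧ (σ ^ n) • f = f)
    (D : Divisor k F) (hD : σ • D = D) :
    Nat.card {E : Divisor k F //
        0 ≤ E ∧ σ • E = E ∧ E - D ∈ Divisor.principal (K := k) (F := F)} * (Q - 1) =
      Q ^ finrank k (riemannRochSpace D) - 1 := by
  have := R.hasDiv
  have := R.finL D
  exact v27f_count σ p hQ ha hbase hfin (v27f_hconst_of_rr R) D hD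

/-- **C3 (a), closed form.** -/
theorem v27f_picdesc_a_rr (R : V27RR k F g) (hQ : Q = p ^ a) (ha : 0 < a)
    (hbase : ∀ c : k, SemilinearAut.baseAut σ c = c ^ Q)
    {D : Divisor k F} (hD : σ • D = D) (hprin : D ∈ Divisor.principal (K := k) (F := F)) :
    ∃ f : F, f ≠ 0 ∧ σ • f = f ∧ ∀ v : Place k F, D v = v.ord f := by
  have := R.hasDiv
  exact v27f_picdesc_a σ (v27f_one_lt p hQ ha) hbase (v27f_hconst_of_rr R) hD hprin

/-- **C3 (b), closed form** : needs a `σ`-invariant divisor `B` of positive degree (e.g. the orbit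
divisor of a place) and finiteness of the `σ`-orbit of `D`. -/
theorem v27f_picdesc_b_rr (R : V27RR k F g) (hQ : Q = p ^ a) (ha : 0 < a)
    (hbase : ∀ c : k, SemilinearAut.baseAut σ c = c ^ Q)
    (hfin : ∀ f : F, ∃ n : ℕ, 0 < n ∧ (σ ^ n) • f = f)
    (hB : ∃ B : Divisor k F, σ • B = B ∧ 0 < Divisor.degree B)
    {D : Divisor k F} (hD : σ • D - D ∈ Divisor.principal (K := k) (F := F))
    (horb : ∃ n : ℕ, 0 < n ∧ (σ ^ n) • D = D) :
    ∃ D' : Divisor k F, D' - D ∈ Divisor.principal (K := k) (F := F) ∧ σ • D' = D' := by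
  have := R.hasDiv
  obtain ⟨B, hBinv, hBdeg⟩ := hB
  refine v27f_picdesc_b σ p hQ ha hbase hfin (v27f_hconst_of_rr R) hD horb ?_
  set m : ℕ := ((g : ℤ) - Divisor.degree D).toNat with hm
  refine ⟨m • B, ?_, ?_⟩
  · rw [smul_comm, hBinv]
  · obtain ⟨f, hf0, hf⟩ := R.exists_ne_zero_mem (D := D + m • B) (by
      rw [map_add, map_nsmul, nsmul_eq_mul]
      have h1 : (g : ℤ) - Divisor.degree D ≤ (m : ℤ) := by
        rw [hm]
        exact Int.self_le_toNat _
      have h2 : (m : ℤ) ≤ (m : ℤ) * Divisor.degree B := by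
        have : (0 : ℤ) ≤ (m : ℤ) := Int.natCast_nonneg _
        nlinarith
      linarith)
    exact ⟨f, hf, hf0⟩

/-- **C3 (b)** in the literal shape of the field `desc` of `V27ziHyp` (helper25, C5) : the
invariant divisor of positive degree is a `σ`-fixed place, finite orbits of divisors are (Oc). -/
theorem v27f_desc_rr (R : V27RR k F g) (hQ : Q = p ^ a) (ha : 0 < a)
    (hbase : ∀ c : k, SemilinearAut.baseAut σ c = c ^ Q)
    (hfin : ∀ f : F, ∃ n : ℕ, 0 < n ∧ (σ ^ n) • f = f)
    (hfixed : ∃ v0 : Place k F, σ • v0 = v0)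
    (hOc : ∀ D : Divisor k F, ∃ n : ℕ, 0 < n ∧ (σ ^ n) • D = D) :
    ∀ D : Divisor k F, σ • D - D ∈ Divisor.principal (K := k) (F := F) →
      ∃ D' : Divisor k F, D' - D ∈ Divisor.principal (K := k) (F := F) ∧ σ • D' = D' := by
  intro D hD
  obtain ⟨v0, hv0⟩ := hfixed
  refine v27f_picdesc_b_rr p σ R hQ ha hbase hfin ⟨Finsupp.single v0 1, ?_, ?_⟩ hD (hOc D)
  · rw [SemilinearAut.smul_single, hv0]
  · rw [Divisor.degree_single, one_mul]
    exact_mod_cast Fermat.Agent.V.Dual.v27d_deg_pos R.res v0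

/-- **C4 (iii), closed form** : a canonical divisor of the package with `σ`-invariant class. -/
theorem v27f_canonical_invariant_rr (R : V27RR k F g) (τ : SemilinearAut k F) :
    ∃ W : Divisor k F, Divisor.degree W = 2 * (g : ℤ) - 2 ∧
      finrank k (riemannRochSpace W) = g ∧
      (∀ D : Divisor k F, (finrank k (riemannRochSpace D) : ℤ) =
        Divisor.degree D + 1 - g + finrank k (riemannRochSpace (W - D))) ∧
      τ • W - W ∈ Divisor.principal (K := k) (F := F) := by
  obtain ⟨W, h1, h2, -, h4⟩ := R.can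
  exact ⟨W, h1, h2, h4, v27f_canonical_invariant R τ h1 h2 h4⟩

end Closed

end Fermat.Agent.V
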