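import Fermat.Agent.V.Frob.ZetaInst
import Fermat.Agent.V.Frob.Spec

/-!
# Program V (S27), leaf C5 in the shape of the Spec (`V27SpecZeta`), and leaf C4 (ELL) by hand

* `v27zs_finrank_smul` : `ℓ(g • D) = ℓ(D)` for every semilinear automorphism `g`
  (the map `f ↦ g • f` is a `baseAut g`-semilinear bijection `L(D) → L(g • D)`);
* `v27zs_finrank_of_principal` : `ℓ(D') = ℓ(D)` if `D' - D` is principal (multiplication by `f`);
* `v27zs_specEll` : `V27SpecEll k F` (C4 in the shape of the Spec);
* `v27zs_hyp` : the hypotheses `V27ziHyp σ Q g` of `v27zi_main` from the Specs C1, C2, C3 and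
  Riemann–Roch;
* `v27zs_specZeta` : **C5 in the shape of the Spec**, `V27SpecZeta σ Q g`.
-/

set_option autoImplicit false
set_option linter.style.haveILetI false
set_option linter.unusedSectionVars false

noncomputable section

namespace Fermat.Agent.V

open AlgebraicCurve Module Fermat.Agent.V.RR

variable {k F : Type*} [Field k] [Field F] [Algebra k F]

/-! ### C4 (a): `ℓ` is invariant under semilinear automorphisms -/

theorem v27zs_smul_mem_rrSpace (g : SemilinearAut k F) (D : Divisor k F) {f : F}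
    (hf : f ∈ riemannRochSpace D) : g • f ∈ riemannRochSpace (g • D) := by
  rw [mem_riemannRochSpace_iff] at hf ⊢
  intro w
  rcases hf (g⁻¹ • w) with h | h
  · left
    rw [h, smul_zero]
  · right
    rw [SemilinearAut.divisor_smul_apply]
    have h1 := SemilinearAut.ord_smul g (g⁻¹ • w) f
    rw [smul_inv_smul] at h1
    rw [h1]
    exact h

/-- `f ↦ g • f` as an additive equivalence `L(D) ≃ L(g • D)`. -/
def v27zsSmulEquiv (g : SemilinearAut k F) (D : Divisor k F) :
    riemannRochSpace D ≃+ riemannRochSpace (g • D) where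
  toFun f := ⟨g • (f : F), v27zs_smul_mem_rrSpace g D f.2⟩
  invFun f := ⟨g⁻¹ • (f : F), by
    have h1 := v27zs_smul_mem_rrSpace g⁻¹ (g • D) f.2
    rwa [inv_smul_smul] at h1⟩
  left_inv f := Subtype.ext (inv_smul_smul g (f : F))
  right_inv f := Subtype.ext (smul_inv_smul g (f : F))
  map_add' a b := Subtype.ext (smul_add g (a : F) (b : F))

theorem v27zsSmulEquiv_smul (g : SemilinearAut k F) (D : Divisor k F) (c : k)
    (f : riemannRochSpace D) :
    v27zsSmulEquiv g D (c • f) = SemilinearAut.baseAut g c • v27zsSmulEquiv g D f := by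
  apply Subtype.ext
  show g • (c • (f : F)) = SemilinearAut.baseAut g c • (g • (f : F))
  rw [Algebra.smul_def, Algebra.smul_def, smul_mul', SemilinearAut.smul_algebraMap]

/-- **C4 (a)**: `ℓ(g • D) = ℓ(D)`. -/
theorem v27zs_finrank_smul (g : SemilinearAut k F) (D : Divisor k F) :
    finrank k (riemannRochSpace (g • D)) = finrank k (riemannRochSpace D) := by
  have h := rank_eq_of_equiv_equiv (SemilinearAut.baseAut g) (v27zsSmulEquiv g D)
    (SemilinearAut.baseAut g).bijective (v27zsSmulEquiv_smul g D)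
  unfold Module.finrank
  rw [h]

/-! ### C4 (b): `ℓ` is a class function -/

theorem v27zs_mul_mem_rrSpace {D D' : Divisor k F} {f : F} (hf : f ≠ 0)
    (hD : ∀ v : Place k F, (D' - D) v = v.ord f) {h : F} (hh : h ∈ riemannRochSpace D') :
    f * h ∈ riemannRochSpace D := by
  rw [mem_riemannRochSpace_iff] at hh ⊢
  intro v
  rcases eq_or_ne h 0 with rfl | hh0
  · left
    rw [mul_zero]
  · right
    rcases hh v with h0 | h1
    · exact absurd h0 hh0
    · rw [Place.ord_mul v hf hh0, ← hD v]
      have : (D' - D) v = D' v - D v := rfl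
      rw [this]
      linarith

/-- `L(D') ≃ L(D)` when `D' - D = div f`: multiplication by `f`. -/
def v27zsMulEquiv {D D' : Divisor k F} {f : F} (hf : f ≠ 0)
    (hD : ∀ v : Place k F, (D' - D) v = v.ord f) :
    riemannRochSpace D' ≃ₗ[k] riemannRochSpace D where
  toFun h := ⟨f * (h : F), v27zs_mul_mem_rrSpace hf hD h.2⟩
  invFun h := ⟨f⁻¹ * (h : F), v27zs_mul_mem_rrSpace (D := D') (D' := D) (inv_ne_zero hf)
    (fun v => by
      rw [Place.ord_inv, ← hD v]
      show D v - D' v = -(D' v - D v)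
      ring) h.2⟩
  left_inv h := Subtype.ext (by
    show f⁻¹ * (f * (h : F)) = h
    rw [← mul_assoc, inv_mul_cancel₀ hf, one_mul])
  right_inv h := Subtype.ext (by
    show f * (f⁻¹ * (h : F)) = h
    rw [← mul_assoc, mul_inv_cancel₀ hf, one_mul])
  map_add' a b := Subtype.ext (mul_add f (a : F) (b : F))
  map_smul' c a := Subtype.ext (by
    show f * (c • (a : F)) = c • (f * (a : F))
    rw [mul_smul_comm])

/-- **C4 (b)**: `ℓ(D') = ℓ(D)` if `D' - D` is principal. -/
theorem v27zs_finrank_of_principal {D D' : Divisor k F}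
    (hDD' : D' - D ∈ Divisor.principal (K := k) (F := F)) :
    finrank k (riemannRochSpace D') = finrank k (riemannRochSpace D) := by
  obtain ⟨f, hf, hD⟩ := hDD'
  exact (v27zsMulEquiv hf hD).finrank_eq

/-- **C4 ELL** in the shape of the Spec. -/
theorem v27zs_specEll : V27SpecEll k F := by
  have hcls : ∀ D : Divisor k F,
      v27Ell (v27PicMk D) = finrank k (riemannRochSpace D) := by
    intro D
    unfold v27Ell
    apply v27zs_finrank_of_principal
    have h1 : v27PicMk (Quotient.out (v27PicMk D) : Divisor k F) = v27PicMk D :=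
      Quotient.out_eq (v27PicMk D)
    have h2 := v27PicMk_eq_iff.1 h1
    have h3 := neg_mem h2
    rwa [neg_sub] at h3
  refine ⟨hcls, fun g c => ?_⟩
  obtain ⟨D, rfl⟩ := v27PicMk_surjective c
  rw [v27PicMap_mk, hcls, hcls, v27zs_finrank_smul]

/-! ### the hypotheses of `v27zi_main` from the Specs -/

theorem v27zs_mk_eq_iff' {D E : Divisor k F} :
    v27PicMk E = v27PicMk D ↔ E - D ∈ Divisor.principal (K := k) (F := F) := by
  rw [v27PicMk_eq_iff]
  constructor
  · intro h
    have h1 := neg_mem h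
    rwa [neg_sub] at h1
  · intro h
    have h1 := neg_mem h
    rwa [neg_sub] at h1

/-- the hypotheses of `v27zi_main`, from Riemann–Roch and the Specs C1, C2, C3. -/
theorem v27zs_hyp {σ : SemilinearAut k F} {Q g : ℕ} (hQ : 1 < Q)
    (hdeg : ∀ v : Place k F, v.deg = 1)
    (hv : ∃ v₀ : Place k F, σ • v₀ = v₀) (hRR : V27RR k F g) (hOrb : V27SpecOrbit σ)
    (hCount : V27SpecCount σ Q) (hDesc : V27SpecPicDesc σ) : V27ziHyp σ Q g where
  rr := hRR
  hdeg := hdeg
  hQ := hQ
  hOr1 := hOrb.1
  hOr2 := fun m hm => (hOrb.2 m hm).to_subtype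
  hfixed := hv
  count := fun D hD => by
    have h1 := hCount D hD
    unfold v27NCls at h1
    rw [← h1]
    congr 1
    exact Nat.card_congr (Equiv.subtypeEquivRight fun E => by rw [v27zs_mk_eq_iff'])
  desc := fun D hD => by
    have hc : v27PicMap σ (v27PicMk D) = v27PicMk D := by
      rw [v27PicMap_mk, v27zs_mk_eq_iff']
      exact hD
    obtain ⟨D', hD'inv, hD'⟩ := hDesc.2 _ hc
    exact ⟨D', v27zs_mk_eq_iff'.1 hD', hD'inv⟩
  ell_smul := fun D => v27zs_finrank_smul σ D
  ell_class := fun D D' h => v27zs_finrank_of_principal h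

/-- **C5 ZETA-INST + FIN in the shape of the Spec.** -/
theorem v27zs_specZeta {σ : SemilinearAut k F} {Q g : ℕ} (hQ : 1 < Q)
    (hdeg : ∀ v : Place k F, v.deg = 1)
    (hv : ∃ v₀ : Place k F, σ • v₀ = v₀) (hRR : V27RR k F g) (hOrb : V27SpecOrbit σ)
    (hCount : V27SpecCount σ Q) (hDesc : V27SpecPicDesc σ) : V27SpecZeta σ Q g :=
  v27zi_main (v27zs_hyp hQ hdeg hv hRR hOrb hCount hDesc)

/-- C5 for a Frobenius structure over an algebraically closed field. -/
theorem v27zs_specZeta_frob [IsAlgClosed k] [IsCurveOver k F] {p : ℕ} [Fact p.Prime]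
    {σ : SemilinearAut k F} {Q g : ℕ} (hF : V27Frob p σ Q)
    (hv : ∃ v₀ : Place k F, σ • v₀ = v₀) (hRR : V27RR k F g) (hOrb : V27SpecOrbit σ)
    (hCount : V27SpecCount σ Q) (hDesc : V27SpecPicDesc σ) : V27SpecZeta σ Q g :=
  v27zs_specZeta hF.one_lt IsCurveOver.forall_deg_eq_one_of_isAlgClosed hv hRR hOrb hCount hDesc

end Fermat.Agent.V
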