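import Fermat.Agent.V.Frob.OrbitComb

/-!
# Program V (S27), leaf (O5): invariant divisors = divisors on orbits

For `s : Equiv.Perm X` with all points periodic, the `s`-invariant finitely supported functions
`X →₀ ℤ` are exactly the `ℤ`-combinations of orbit divisors: an additive equivalence
`(v27oOrb s →₀ ℤ) ≃+ {D : X →₀ ℤ // mapDomain s D = D}`, compatible with positivity and total degree.
-/

set_option autoImplicit false
set_option linter.style.haveILetI false

noncomputable section

namespace Fermat.Agent.V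

open Function

variable {X : Type*}

/-- the orbit divisor is the indicator function of the orbit. -/
theorem v27oDiv_apply {s : Equiv.Perm X} (h : V27oPer s) (y x : X) [Decidable (s.SameCycle y x)] :
    v27oDiv s y x = if s.SameCycle y x then 1 else 0 := by
  classical
  unfold v27oDiv
  rw [Finsupp.finsetSum_apply]
  simp only [Finsupp.single_apply]
  split_ifs with hyx
  · obtain ⟨j, hj, rfl⟩ := (v27o_sameCycle_iff h y x).1 hyx
    rw [Finset.sum_eq_single j]
    · simp
    · intro i hi hij
      rw [if_neg]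
      intro heq
      rw [v27o_coe_pow, v27o_coe_pow] at heq
      exact hij ((iterate_eq_iterate_iff_of_lt_minimalPeriod (Finset.mem_range.1 hi) hj).1 heq)
    · intro hj'
      exact absurd (Finset.mem_range.2 hj) hj'
  · refine Finset.sum_eq_zero fun i _ => ?_
    rw [if_neg]
    intro heq
    exact hyx ⟨i, by rw [zpow_natCast]; exact heq⟩

theorem v27oDivOrb_apply {s : Equiv.Perm X} (h : V27oPer s) (v : v27oOrb s) (x : X)
    [Decidable (v = v27oMk s x)] :
    v27oDivOrb h v x = if v = v27oMk s x then 1 else 0 := by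
  classical
  obtain ⟨y, rfl⟩ := v27oMk_surjective s v
  rw [v27oDivOrb_mk, v27oDiv_apply h]
  simp only [v27oMk_eq_iff]

/-- the total degree of a finitely supported function. -/
def v27odTotal : (X →₀ ℤ) →+ ℤ := Finsupp.liftAddHom fun _ => AddMonoidHom.id ℤ

@[simp] theorem v27odTotal_single (x : X) (k : ℤ) : v27odTotal (Finsupp.single x k) = k := by
  simp [v27odTotal]

theorem v27odTotal_div (s : Equiv.Perm X) (x : X) :
    v27odTotal (v27oDiv s x) = (minimalPeriod (⇑s) x : ℤ) := by
  unfold v27oDiv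
  rw [map_sum]
  simp

theorem v27odTotal_divOrb {s : Equiv.Perm X} (h : V27oPer s) (v : v27oOrb s) :
    v27odTotal (v27oDivOrb h v) = (v27oDeg s v : ℤ) := by
  obtain ⟨y, rfl⟩ := v27oMk_surjective s v
  exact v27odTotal_div s y

/-- divisors on orbits to divisors on points. -/
def v27odPhi {s : Equiv.Perm X} (h : V27oPer s) : (v27oOrb s →₀ ℤ) →+ (X →₀ ℤ) :=
  Finsupp.liftAddHom fun v => (smulAddHom ℤ (X →₀ ℤ)).flip (v27oDivOrb h v)

theorem v27odPhi_single {s : Equiv.Perm X} (h : V27oPer s) (v : v27oOrb s) (k : ℤ) :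
    v27odPhi h (Finsupp.single v k) = k • v27oDivOrb h v := by
  simp [v27odPhi]

theorem v27odPhi_apply {s : Equiv.Perm X} (h : V27oPer s) (E : v27oOrb s →₀ ℤ) (x : X) :
    v27odPhi h E x = E (v27oMk s x) := by
  classical
  induction E using Finsupp.induction_linear with
  | zero => simp
  | add E₁ E₂ h₁ h₂ => rw [map_add, Finsupp.add_apply, h₁, h₂, Finsupp.add_apply]
  | single v k =>
    rw [v27odPhi_single, Finsupp.smul_apply, v27oDivOrb_apply h, Finsupp.single_apply]
    split_ifs <;> simp

theorem v27odPhi_total {s : Equiv.Perm X} (h : V27oPer s) (E : v27oOrb s →₀ ℤ) :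
    v27odTotal (v27odPhi h E) = E.sum fun v k => k * (v27oDeg s v : ℤ) := by
  induction E using Finsupp.induction_linear with
  | zero => simp
  | add E₁ E₂ h₁ h₂ =>
    rw [map_add, map_add, h₁, h₂, Finsupp.sum_add_index']
    · intro v; simp
    · intro v a b; ring
  | single v k =>
    rw [v27odPhi_single, map_zsmul, v27odTotal_divOrb, Finsupp.sum_single_index (by simp)]
    simp

theorem v27o_mapDomain_apply (s : Equiv.Perm X) (D : X →₀ ℤ) (x : X) :
    Finsupp.mapDomain (⇑s) D (s x) = D x :=
  Finsupp.mapDomain_apply s.injective D x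

theorem v27odPhi_invariant {s : Equiv.Perm X} (h : V27oPer s) (E : v27oOrb s →₀ ℤ) :
    Finsupp.mapDomain (⇑s) (v27odPhi h E) = v27odPhi h E := by
  ext x
  obtain ⟨y, rfl⟩ := s.surjective x
  rw [v27o_mapDomain_apply, v27odPhi_apply, v27odPhi_apply]
  congr 1
  exact (v27oMk_eq_iff s _ _).2 (Equiv.Perm.sameCycle_apply_right.2 (Equiv.Perm.SameCycle.refl s y))

/-- an invariant function is constant on orbits. -/
theorem v27o_invariant_sameCycle {s : Equiv.Perm X} {D : X →₀ ℤ}
    (hD : Finsupp.mapDomain (⇑s) D = D) {x y : X} (hxy : s.SameCycle x y) : D x = D y := by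
  have h1 : ∀ z, D (s z) = D z := fun z => by
    conv_lhs => rw [← hD]
    exact v27o_mapDomain_apply s D z
  have h2 : ∀ (n : ℕ) z, D ((s ^ n) z) = D z := by
    intro n
    induction n with
    | zero => intro z; simp
    | succ n ih => intro z; rw [pow_succ', Equiv.Perm.mul_apply, h1, ih]
  have h3 : ∀ (i : ℤ) z, D ((s ^ i) z) = D z := by
    intro i z
    cases i with
    | ofNat n => simpa using h2 n z
    | negSucc n =>
      have := h2 (n + 1) ((s ^ (Int.negSucc n)) z)
      rw [← this]
      congr 1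
      rw [← Equiv.Perm.mul_apply, ← zpow_natCast, ← zpow_add]
      simp [Int.negSucc_eq]
  obtain ⟨i, rfl⟩ := hxy
  exact (h3 i x).symm

/-- divisors on points (invariant) to divisors on orbits. -/
def v27odPsi {s : Equiv.Perm X} (D : X →₀ ℤ) (hD : Finsupp.mapDomain (⇑s) D = D) :
    v27oOrb s →₀ ℤ :=
  Finsupp.ofSupportFinite
    (Quotient.lift (fun x => D x) fun _ _ hxy => v27o_invariant_sameCycle hD hxy)
    (by
      classical
      refine (D.support.image (v27oMk s)).finite_toSet.subset ?_
      intro v hv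
      obtain ⟨x, rfl⟩ := v27oMk_surjective s v
      have hx : D x ≠ 0 := hv
      exact Finset.mem_coe.2 (Finset.mem_image.2 ⟨x, Finsupp.mem_support_iff.2 hx, rfl⟩))

@[simp] theorem v27odPsi_mk {s : Equiv.Perm X} (D : X →₀ ℤ)
    (hD : Finsupp.mapDomain (⇑s) D = D) (x : X) : v27odPsi D hD (v27oMk s x) = D x := rfl

/-- **(O5)** invariant divisors are the divisors on orbits. -/
def v27odEquiv {s : Equiv.Perm X} (h : V27oPer s) :
    (v27oOrb s →₀ ℤ) ≃ {D : X →₀ ℤ // Finsupp.mapDomain (⇑s) D = D} where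
  toFun E := ⟨v27odPhi h E, v27odPhi_invariant h E⟩
  invFun D := v27odPsi D.1 D.2
  left_inv E := by
    ext v
    obtain ⟨x, rfl⟩ := v27oMk_surjective s v
    rw [v27odPsi_mk, v27odPhi_apply]
  right_inv D := by
    apply Subtype.ext
    ext x
    show v27odPhi h (v27odPsi D.1 D.2) x = D.1 x
    rw [v27odPhi_apply, v27odPsi_mk]

@[simp] theorem v27odEquiv_apply_coe {s : Equiv.Perm X} (h : V27oPer s) (E : v27oOrb s →₀ ℤ) :
    ((v27odEquiv h E : {D : X →₀ ℤ // Finsupp.mapDomain (⇑s) D = D}) : X →₀ ℤ) = v27odPhi h E := rfl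

theorem v27odPhi_nonneg_iff {s : Equiv.Perm X} (h : V27oPer s) (E : v27oOrb s →₀ ℤ) :
    0 ≤ v27odPhi h E ↔ 0 ≤ E := by
  constructor
  · intro hE v
    obtain ⟨x, rfl⟩ := v27oMk_surjective s v
    have := hE x
    rwa [v27odPhi_apply] at this
  · intro hE x
    rw [v27odPhi_apply]
    exact hE _

/-! ### effective divisors -/

/-- the integral divisor on orbits attached to an effective one. -/
def v27odCast {P : Type*} (E : P →₀ ℕ) : P →₀ ℤ := E.mapRange (Nat.cast : ℕ → ℤ) Nat.cast_zero

@[simp] theorem v27odCast_apply {P : Type*} (E : P →₀ ℕ) (v : P) :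
    v27odCast E v = (E v : ℤ) := rfl

/-- **(O5)**, effective form: effective divisors on orbits are the effective invariant divisors. -/
def v27odEffEquiv {s : Equiv.Perm X} (h : V27oPer s) :
    (v27oOrb s →₀ ℕ) ≃ {D : X →₀ ℤ // Finsupp.mapDomain (⇑s) D = D ∧ 0 ≤ D} where
  toFun E := ⟨v27odPhi h (v27odCast E), v27odPhi_invariant h _,
    (v27odPhi_nonneg_iff h _).2 fun v => by simp⟩
  invFun D := (v27odPsi D.1 D.2.1).mapRange Int.toNat Int.toNat_zero
  left_inv E := by
    ext v
    obtain ⟨x, rfl⟩ := v27oMk_surjective s v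
    rw [Finsupp.mapRange_apply, v27odPsi_mk, v27odPhi_apply, v27odCast_apply, Int.toNat_natCast]
  right_inv D := by
    apply Subtype.ext
    ext x
    show v27odPhi h (v27odCast ((v27odPsi D.1 D.2.1).mapRange Int.toNat Int.toNat_zero)) x = D.1 x
    rw [v27odPhi_apply, v27odCast_apply, Finsupp.mapRange_apply, v27odPsi_mk]
    exact Int.toNat_of_nonneg (D.2.2 x)

@[simp] theorem v27odEffEquiv_apply_coe {s : Equiv.Perm X} (h : V27oPer s)
    (E : v27oOrb s →₀ ℕ) :
    ((v27odEffEquiv h E : {D : X →₀ ℤ // Finsupp.mapDomain (⇑s) D = D ∧ 0 ≤ D}) : X →₀ ℤ) =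
      v27odPhi h (v27odCast E) := rfl

/-- `Φ` of an effective divisor as a sum of orbit divisors. -/
theorem v27odPhi_cast {s : Equiv.Perm X} (h : V27oPer s) (E : v27oOrb s →₀ ℕ) :
    v27odPhi h (v27odCast E) = E.sum fun v k => k • v27oDivOrb h v := by
  induction E using Finsupp.induction_linear with
  | zero => simp [v27odCast]
  | add E₁ E₂ h₁ h₂ =>
    have : v27odCast (E₁ + E₂) = v27odCast E₁ + v27odCast E₂ := by
      ext v; simp
    rw [this, map_add, h₁, h₂, Finsupp.sum_add_index']
    · intro v; simp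
    · intro v a b; rw [add_smul]
  | single v k =>
    have : v27odCast (Finsupp.single v k) = Finsupp.single v (k : ℤ) := by
      ext w; simp [v27odCast]
    rw [this, v27odPhi_single, Finsupp.sum_single_index (by simp)]
    simp

/-- the total degree of an effective divisor on orbits. -/
theorem v27odPhi_cast_total {s : Equiv.Perm X} (h : V27oPer s) (E : v27oOrb s →₀ ℕ) :
    v27odTotal (v27odPhi h (v27odCast E)) = ((E.sum fun v k => k * v27oDeg s v : ℕ) : ℤ) := by
  rw [v27odPhi_total]
  unfold v27odCast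
  rw [Finsupp.sum_mapRange_index (by intro v; simp)]
  simp [Finsupp.sum]

end Fermat.Agent.V
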