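import Fermat.Agent.V.Frob.Semilin
import Fermat.Prelude.Def_AlgebraicCurve_BaseChangeGalois
import Fermat.Prelude.Def_AlgebraicCurve_Repartitions
import Fermat.Agent.S24.PlaceOrd

/-!
# Program V (S27), leaf Frob : counting invariant effective divisors in a class

`σ : SemilinearAut k F` with `baseAut σ c = c ^ Q`, locally finite on `F`.
For a `σ`-invariant divisor `D` the Frobenius acts `Q`-semilinearly on `L(D)`, and

`#{E ≥ 0 | σ • E = E, E - D principal} * (Q - 1) = Q ^ dim L(D) - 1`.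
-/

set_option autoImplicit false
set_option linter.unusedSectionVars false

noncomputable section

namespace Fermat.Agent.V

open AlgebraicCurve

variable {k F : Type*} [Field k] [Field F] [Algebra k F]

/-- `σ` preserves `L(D)` for a `σ`-invariant divisor `D` -/
theorem v27f_smul_mem_rr (σ : SemilinearAut k F) {D : Divisor k F} (hD : σ • D = D) {f : F}
    (hf : f ∈ riemannRochSpace D) : σ • f ∈ riemannRochSpace D := by
  rw [mem_riemannRochSpace_iff] at hf ⊢
  intro w
  rcases hf (σ⁻¹ • w) with h0 | h1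
  · left
    rw [h0, smul_zero]
  · right
    have h2 := SemilinearAut.ord_smul σ (σ⁻¹ • w) f
    rw [smul_inv_smul] at h2
    rw [h2]
    have h3 : D (σ⁻¹ • w) = D w := by
      conv_rhs => rw [← hD]
      rw [SemilinearAut.divisor_smul_apply]
    rwa [h3] at h1

/-- the additive map induced by `σ` on `L(D)` -/
def v27fTau (σ : SemilinearAut k F) (D : Divisor k F) (hD : σ • D = D) :
    riemannRochSpace D →+ riemannRochSpace D where
  toFun f := ⟨σ • (f : F), v27f_smul_mem_rr σ hD f.2⟩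
  map_zero' := Subtype.ext (smul_zero σ)
  map_add' f g := Subtype.ext (smul_add σ (f : F) (g : F))

theorem v27fTau_coe (σ : SemilinearAut k F) (D : Divisor k F) (hD : σ • D = D)
    (f : riemannRochSpace D) : ((v27fTau σ D hD f : riemannRochSpace D) : F) = σ • (f : F) := rfl

theorem v27fTau_iterate_coe (σ : SemilinearAut k F) (D : Divisor k F) (hD : σ • D = D)
    (n : ℕ) (f : riemannRochSpace D) :
    (((⇑(v27fTau σ D hD))^[n] f : riemannRochSpace D) : F) = (σ ^ n) • (f : F) := by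
  induction n with
  | zero => simp
  | succ n ih =>
    rw [Function.iterate_succ_apply', v27fTau_coe, ih, pow_succ', mul_smul]

theorem v27f_smul_smul_base (σ : SemilinearAut k F) {Q : ℕ}
    (hbase : ∀ c : k, SemilinearAut.baseAut σ c = c ^ Q) (c : k) (f : F) :
    σ • (c • f) = c ^ Q • (σ • f) := by
  rw [Algebra.smul_def, Algebra.smul_def, smul_mul', SemilinearAut.smul_algebraMap, hbase]

theorem v27fTau_semilin (σ : SemilinearAut k F) {Q : ℕ}
    (hbase : ∀ c : k, SemilinearAut.baseAut σ c = c ^ Q)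
    (hfin : ∀ f : F, ∃ n : ℕ, 0 < n ∧ (σ ^ n) • f = f)
    (D : Divisor k F) (hD : σ • D = D) :
    V27Semilin (k := k) Q (v27fTau σ D hD) where
  smul c w := Subtype.ext (v27f_smul_smul_base σ hbase c (w : F))
  fin w := by
    obtain ⟨n, hn, h⟩ := hfin (w : F)
    exact ⟨n, hn, Subtype.ext (by rw [v27fTau_iterate_coe, h])⟩

theorem v27f_ord_smul_const (v : Place k F) {c : k} (hc : c ≠ 0) (f : F) :
    v.ord (c • f) = v.ord f := by
  rcases eq_or_ne f 0 with rfl | hf
  · simp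
  · rw [Algebra.smul_def, v.ord_mul (by simpa using hc) hf,
      Fermat.Agent.S24.PlaceOrd.ord_algebraMap, zero_add]

/-- `ord_v (σ f) = ord_{σ⁻¹ v} f` -/
theorem v27f_ord_smul' (σ : SemilinearAut k F) (v : Place k F) (f : F) :
    v.ord (σ • f) = (σ⁻¹ • v).ord f := by
  have h := SemilinearAut.ord_smul σ (σ⁻¹ • v) f
  rwa [smul_inv_smul] at h

section Count

variable [HasPrincipalDivisors k F]

/-- the divisor of a nonzero function -/
def v27fDivOf (g : F) (hg : g ≠ 0) : Divisor k F :=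
  Classical.choose (HasPrincipalDivisors.exists_divisor (K := k) g hg)

theorem v27fDivOf_apply (g : F) (hg : g ≠ 0) (v : Place k F) :
    v27fDivOf (k := k) g hg v = v.ord g :=
  (Classical.choose_spec (HasPrincipalDivisors.exists_divisor (K := k) g hg)).1 v

theorem v27fDivOf_degree (g : F) (hg : g ≠ 0) :
    Divisor.degree (v27fDivOf (k := k) g hg) = 0 :=
  (Classical.choose_spec (HasPrincipalDivisors.exists_divisor (K := k) g hg)).2

/-- the effective `σ`-invariant divisors linearly equivalent to `D` -/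
def v27fEff (σ : SemilinearAut k F) (D : Divisor k F) : Set (Divisor k F) :=
  {E | 0 ≤ E ∧ σ • E = E ∧ E - D ∈ Divisor.principal (K := k) (F := F)}

end Count

section Main

variable [HasPrincipalDivisors k F] [IsAlgClosed k]
variable (σ : SemilinearAut k F) {Q : ℕ}

/-- **(F4a)** a function whose divisor is `σ`-invariant can be rescaled to a `σ`-fixed function. -/
theorem v27f_exists_fixed_generator (hQ1 : 1 < Q)
    (hbase : ∀ c : k, SemilinearAut.baseAut σ c = c ^ Q)
    (hconst : ∀ f : F, f ≠ 0 → (∀ v : Place k F, v.ord f = 0) → ∃ c : k, f = algebraMap k F c)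
    {g₀ : F} (hg₀ : g₀ ≠ 0) (hinv : ∀ v : Place k F, v.ord (σ • g₀) = v.ord g₀) :
    ∃ e : k, e ≠ 0 ∧ σ • (e • g₀) = e • g₀ := by
  have hσg : σ • g₀ ≠ 0 := by
    intro h
    exact hg₀ ((smul_eq_zero_iff_eq σ).mp h)
  obtain ⟨c, hc⟩ := hconst (σ • g₀ / g₀) (div_ne_zero hσg hg₀) (fun v => by
    rw [div_eq_mul_inv, v.ord_mul hσg (inv_ne_zero hg₀), v.ord_inv, hinv]
    ring)
  have hc0 : c ≠ 0 := by
    rintro rfl
    rw [map_zero] at hc
    exact div_ne_zero hσg hg₀ hc
  obtain ⟨e, he⟩ := IsAlgClosed.exists_pow_nat_eq c⁻¹ (n := Q - 1) (by omega)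
  have he0 : e ≠ 0 := by
    rintro rfl
    rw [zero_pow (by omega)] at he
    exact inv_ne_zero hc0 he.symm
  refine ⟨e, he0, ?_⟩
  have h1 : σ • g₀ = c • g₀ := by
    rw [Algebra.smul_def, ← hc, div_mul_cancel₀ _ hg₀]
  rw [v27f_smul_smul_base σ hbase, h1, smul_smul]
  congr 1
  have h2 : e ^ Q = e ^ (Q - 1) * e := by
    rw [← pow_succ, Nat.sub_add_cancel (by omega)]
  rw [h2, he]
  field_simp

/-- nonzero `σ`-fixed elements of `L(D)` -/
def v27fX (σ : SemilinearAut k F) (D : Divisor k F) : Set F :=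
  {g | g ∈ riemannRochSpace D ∧ σ • g = g ∧ g ≠ 0}

/-- the nonzero elements of the fixed field of `c ↦ c ^ Q` -/
def v27fFixNe (k : Type*) [Field k] (Q : ℕ) : Set k := {c | c ^ Q = c ∧ c ≠ 0}

theorem v27f_card_fixNe (p : ℕ) [Fact p.Prime] [CharP k p] (hQ1 : 1 < Q) (hpQ : p ∣ Q) :
    Nat.card (v27fFixNe k Q) = Q - 1 := by
  classical
  have hcard := v27f_card_fix (k := k) p hQ1 hpQ
  have : Finite (v27fFix k Q) := Nat.finite_of_card_ne_zero (by rw [hcard]; omega)
  have : Fintype (v27fFix k Q) := Fintype.ofFinite _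
  let z : v27fFix k Q := ⟨0, by show (0 : k) ^ Q = 0; exact zero_pow (by omega)⟩
  have e : v27fFixNe k Q ≃ {c : v27fFix k Q // ¬ c = z} :=
    { toFun := fun c => ⟨⟨c.1, c.2.1⟩, fun h => c.2.2 (congrArg Subtype.val h)⟩
      invFun := fun c => ⟨c.1.1, c.1.2, fun h => c.2 (Subtype.ext h)⟩
      left_inv := fun c => rfl
      right_inv := fun c => rfl }
  rw [Nat.card_congr e, Nat.card_eq_fintype_card, Fintype.card_subtype_compl,
    Fintype.card_subtype_eq, ← Nat.card_eq_fintype_card, hcard]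

/-- the divisor `D + div g` attached to `g ∈ X` -/
def v27fPhi (D : Divisor k F) (g : F) (hg : g ≠ 0) : Divisor k F :=
  D + v27fDivOf (k := k) g hg

theorem v27fPhi_apply (D : Divisor k F) (g : F) (hg : g ≠ 0) (v : Place k F) :
    v27fPhi D g hg v = D v + v.ord g := by
  rw [v27fPhi, Finsupp.add_apply, v27fDivOf_apply]

theorem v27fPhi_mem (D : Divisor k F) (hD : σ • D = D) {g : F} (hg : g ∈ v27fX σ D) :
    v27fPhi D g hg.2.2 ∈ v27fEff σ D := by
  obtain ⟨hL, hfix, hne⟩ := hg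
  refine ⟨?_, ?_, ?_⟩
  · intro v
    rw [v27fPhi_apply]
    rcases (mem_riemannRochSpace_iff.mp hL) v with h | h
    · exact absurd h hne
    · show (0 : ℤ) ≤ _
      linarith
  · ext v
    rw [SemilinearAut.divisor_smul_apply, v27fPhi_apply, v27fPhi_apply,
      ← v27f_ord_smul' σ v g, hfix]
    congr 1
    conv_rhs => rw [← hD]
    rw [SemilinearAut.divisor_smul_apply]
  · refine ⟨g, hne, fun v => ?_⟩
    rw [Finsupp.sub_apply, v27fPhi_apply]
    ring

theorem v27fPhi_surj (hQ1 : 1 < Q)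
    (hbase : ∀ c : k, SemilinearAut.baseAut σ c = c ^ Q)
    (hconst : ∀ f : F, f ≠ 0 → (∀ v : Place k F, v.ord f = 0) → ∃ c : k, f = algebraMap k F c)
    (D : Divisor k F) (hD : σ • D = D) {E : Divisor k F} (hE : E ∈ v27fEff σ D) :
    ∃ (g : F) (hg : g ∈ v27fX σ D), v27fPhi D g hg.2.2 = E := by
  obtain ⟨hpos, hinv, g₀, hg₀, hdiv⟩ := hE
  have hDinv : ∀ v : Place k F, v.ord (σ • g₀) = v.ord g₀ := by
    intro v
    rw [v27f_ord_smul', ← hdiv, ← hdiv]
    have h1 : σ • (E - D) = E - D := by rw [smul_sub, hinv, hD]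
    conv_rhs => rw [← h1]
    rw [SemilinearAut.divisor_smul_apply]
  obtain ⟨e, he0, hfix⟩ := v27f_exists_fixed_generator σ hQ1 hbase hconst hg₀ hDinv
  have hne : e • g₀ ≠ 0 := smul_ne_zero he0 hg₀
  have hord : ∀ v : Place k F, v.ord (e • g₀) = E v - D v := by
    intro v
    rw [v27f_ord_smul_const v he0, ← hdiv, Finsupp.sub_apply]
  have hL : e • g₀ ∈ riemannRochSpace D := by
    rw [mem_riemannRochSpace_iff]
    intro v
    right
    rw [hord]
    have := hpos v
    change (0 : ℤ) ≤ E v at this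
    linarith
  refine ⟨e • g₀, ⟨hL, hfix, hne⟩, ?_⟩
  ext v
  rw [v27fPhi_apply, hord]
  ring

theorem v27fPhi_fibre
    (hbase : ∀ c : k, SemilinearAut.baseAut σ c = c ^ Q)
    (hconst : ∀ f : F, f ≠ 0 → (∀ v : Place k F, v.ord f = 0) → ∃ c : k, f = algebraMap k F c)
    (D : Divisor k F) {g g' : F} (hg : g ∈ v27fX σ D) (hg' : g' ∈ v27fX σ D)
    (h : v27fPhi D g hg.2.2 = v27fPhi D g' hg'.2.2) :
    ∃ c : k, c ∈ v27fFixNe k Q ∧ g' = c • g := by
  have hord : ∀ v : Place k F, v.ord g' = v.ord g := by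
    intro v
    have := DFunLike.congr_fun h v
    rw [v27fPhi_apply, v27fPhi_apply] at this
    linarith
  obtain ⟨c, hc⟩ := hconst (g' / g) (div_ne_zero hg'.2.2 hg.2.2) (fun v => by
    rw [div_eq_mul_inv, v.ord_mul hg'.2.2 (inv_ne_zero hg.2.2), v.ord_inv, hord]
    ring)
  have hc0 : c ≠ 0 := by
    rintro rfl
    rw [map_zero] at hc
    exact div_ne_zero hg'.2.2 hg.2.2 hc
  have hg'c : g' = c • g := by
    rw [Algebra.smul_def, ← hc, div_mul_cancel₀ _ hg.2.2]
  refine ⟨c, ⟨?_, hc0⟩, hg'c⟩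
  -- `c ^ Q = c` from `σ g' = g'`
  have h1 : σ • g' = c ^ Q • g := by
    rw [hg'c, v27f_smul_smul_base σ hbase, hg.2.1]
  rw [hg'.2.1, hg'c] at h1
  have h2 : (c - c ^ Q) • g = 0 := by rw [sub_smul, h1, sub_self]
  rcases smul_eq_zero.mp h2 with h3 | h3
  · exact (sub_eq_zero.mp h3).symm
  · exact absurd h3 hg.2.2

theorem v27f_smul_mem_X
    (hbase : ∀ c : k, SemilinearAut.baseAut σ c = c ^ Q)
    (D : Divisor k F) {g : F} (hg : g ∈ v27fX σ D) {c : k} (hc : c ∈ v27fFixNe k Q) :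
    c • g ∈ v27fX σ D := by
  refine ⟨Submodule.smul_mem _ c hg.1, ?_, smul_ne_zero hc.2 hg.2.2⟩
  rw [v27f_smul_smul_base σ hbase, hg.2.1, hc.1]

theorem v27fPhi_smul (D : Divisor k F) {g : F} (hg : g ≠ 0) {c : k} (hc : c ≠ 0) :
    v27fPhi D (c • g) (smul_ne_zero hc hg) = v27fPhi D g hg := by
  ext v
  rw [v27fPhi_apply, v27fPhi_apply, v27f_ord_smul_const v hc]

theorem v27fPhi_congr (D : Divisor k F) {g g' : F} (hg : g ≠ 0) (hg' : g' ≠ 0) (h : g = g') :
    v27fPhi D g hg = v27fPhi D g' hg' := by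
  subst h
  rfl

theorem v27f_card_X (p : ℕ) [Fact p.Prime] [CharP k p] {a : ℕ} (hQ : Q = p ^ a) (ha : 0 < a)
    (hbase : ∀ c : k, SemilinearAut.baseAut σ c = c ^ Q)
    (hfin : ∀ f : F, ∃ n : ℕ, 0 < n ∧ (σ ^ n) • f = f)
    (D : Divisor k F) (hD : σ • D = D) [FiniteDimensional k (riemannRochSpace D)] :
    Nat.card (v27fX σ D) = Q ^ Module.finrank k (riemannRochSpace D) - 1 := by
  classical
  have hτ : V27Semilin (k := k) Q (v27fTau σ D hD) := v27fTau_semilin σ hbase hfin D hD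
  have hcard := v27f_card_fixed p hQ ha hτ
  have hQ1 : 1 < Q := v27f_one_lt p hQ ha
  have : Finite {w : riemannRochSpace D // v27fTau σ D hD w = w} :=
    Nat.finite_of_card_ne_zero (by
      rw [hcard]
      exact (pow_pos (by omega) _).ne')
  have : Fintype {w : riemannRochSpace D // v27fTau σ D hD w = w} := Fintype.ofFinite _
  let z : {w : riemannRochSpace D // v27fTau σ D hD w = w} := ⟨0, map_zero _⟩
  have e : v27fX σ D ≃ {y : {w : riemannRochSpace D // v27fTau σ D hD w = w} // ¬ y = z} :=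
    { toFun := fun g => ⟨⟨⟨g.1, g.2.1⟩, Subtype.ext g.2.2.1⟩, fun h =>
        g.2.2.2 (congrArg (fun y : {w : riemannRochSpace D // v27fTau σ D hD w = w} =>
          ((y.1 : riemannRochSpace D) : F)) h)⟩
      invFun := fun y => ⟨(y.1.1 : F), y.1.1.2, congrArg Subtype.val y.1.2, fun h =>
        y.2 (Subtype.ext (Subtype.ext h))⟩
      left_inv := fun g => rfl
      right_inv := fun y => rfl }
  rw [Nat.card_congr e, Nat.card_eq_fintype_card, Fintype.card_subtype_compl,
    Fintype.card_subtype_eq, ← Nat.card_eq_fintype_card, hcard]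

/-- **(F5) the count** : for a `σ`-invariant divisor `D`,
`#{E ≥ 0 | σ • E = E, E ∼ D} * (Q - 1) = Q ^ dim L(D) - 1`. -/
theorem v27f_count (p : ℕ) [Fact p.Prime] [CharP k p] {a : ℕ} (hQ : Q = p ^ a) (ha : 0 < a)
    (hbase : ∀ c : k, SemilinearAut.baseAut σ c = c ^ Q)
    (hfin : ∀ f : F, ∃ n : ℕ, 0 < n ∧ (σ ^ n) • f = f)
    (hconst : ∀ f : F, f ≠ 0 → (∀ v : Place k F, v.ord f = 0) → ∃ c : k, f = algebraMap k F c)
    (D : Divisor k F) (hD : σ • D = D) [FiniteDimensional k (riemannRochSpace D)] :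
    Nat.card (v27fEff σ D) * (Q - 1) = Q ^ Module.finrank k (riemannRochSpace D) - 1 := by
  classical
  have hQ1 : 1 < Q := v27f_one_lt p hQ ha
  have hpQ : p ∣ Q := v27f_dvd p hQ ha
  have hsec : ∀ E : v27fEff σ D, ∃ g : v27fX σ D, v27fPhi D g.1 g.2.2.2 = E.1 := fun E => by
    obtain ⟨g, hg, h⟩ := v27fPhi_surj σ hQ1 hbase hconst D hD E.2
    exact ⟨⟨g, hg⟩, h⟩
  choose sec hsec' using hsec
  let Ψ : v27fEff σ D × v27fFixNe k Q → v27fX σ D := fun x =>
    ⟨(x.2 : k) • (sec x.1 : F), v27f_smul_mem_X σ hbase D (sec x.1).2 x.2.2⟩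
  have hΨ : Function.Bijective Ψ := by
    constructor
    · rintro ⟨E, c⟩ ⟨E', c'⟩ h
      have h0 : (c : k) • (sec E : F) = (c' : k) • (sec E' : F) := congrArg Subtype.val h
      have hE : E = E' := by
        apply Subtype.ext
        rw [← hsec' E, ← hsec' E', ← v27fPhi_smul D (sec E).2.2.2 c.2.2,
          ← v27fPhi_smul D (sec E').2.2.2 c'.2.2]
        exact v27fPhi_congr D _ _ h0
      subst hE
      have hc : (c : k) = c' := by
        have h1 : ((c : k) - c') • (sec E : F) = 0 := by rw [sub_smul, h0, sub_self]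
        rcases smul_eq_zero.mp h1 with h2 | h2
        · exact sub_eq_zero.mp h2
        · exact absurd h2 (sec E).2.2.2
      exact Prod.ext rfl (Subtype.ext hc)
    · rintro ⟨g, hg⟩
      let E : v27fEff σ D := ⟨v27fPhi D g hg.2.2, v27fPhi_mem σ D hD hg⟩
      obtain ⟨c, hc, hgc⟩ := v27fPhi_fibre σ hbase hconst D (sec E).2 hg (by rw [hsec' E])
      exact ⟨(E, ⟨c, hc⟩), Subtype.ext hgc.symm⟩
  rw [← v27f_card_X σ p hQ ha hbase hfin D hD,
    ← Nat.card_congr (Equiv.ofBijective Ψ hΨ), Nat.card_prod, v27f_card_fixNe p hQ1 hpQ]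

end Main

end Fermat.Agent.V
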