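import Fermat.Agent.V.Frob.Count
import Fermat.Agent.V.RR.Pack

/-!
# Program V (S27), leaf Frob, C4 : `ℓ` is a class function compatible with `σ`

* `v27f_finrank_smul` : `dim L(σ • D) = dim L(D)` for every `σ : SemilinearAut k F`;
* `v27f_finrank_of_sub_mem_principal` : `dim L(D') = dim L(D)` if `D' - D` is principal;
* `v27f_canonical_invariant` : the canonical class of `V27RR` is `σ`-invariant.
-/

set_option autoImplicit false
set_option linter.unusedSectionVars false

noncomputable section

namespace Fermat.Agent.V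

open AlgebraicCurve Module

variable {k F : Type*} [Field k] [Field F] [Algebra k F]

theorem v27f_smul_mem_rr_smul (σ : SemilinearAut k F) {D : Divisor k F} {f : F}
    (hf : f ∈ riemannRochSpace D) : σ • f ∈ riemannRochSpace (σ • D) := by
  rw [mem_riemannRochSpace_iff] at hf ⊢
  intro w
  rcases hf (σ⁻¹ • w) with h0 | h1
  · left
    rw [h0, smul_zero]
  · right
    rw [v27f_ord_smul', SemilinearAut.divisor_smul_apply]
    exact h1

/-- `σ` as an additive equivalence `L(D) ≃+ L(σ • D)` -/
def v27fRREquiv (σ : SemilinearAut k F) (D : Divisor k F) :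
    riemannRochSpace D ≃+ riemannRochSpace (σ • D) where
  toFun f := ⟨σ • (f : F), v27f_smul_mem_rr_smul σ f.2⟩
  invFun f := ⟨σ⁻¹ • (f : F), by
    have h := v27f_smul_mem_rr_smul σ⁻¹ f.2
    rwa [inv_smul_smul] at h⟩
  left_inv f := Subtype.ext (inv_smul_smul σ (f : F))
  right_inv f := Subtype.ext (smul_inv_smul σ (f : F))
  map_add' f g := Subtype.ext (smul_add σ (f : F) (g : F))

/-- **C4 (i)** : `dim L(σ • D) = dim L(D)`. -/
theorem v27f_finrank_smul (σ : SemilinearAut k F) (D : Divisor k F) :
    finrank k (riemannRochSpace (σ • D)) = finrank k (riemannRochSpace D) := by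
  have h := rank_eq_of_equiv_equiv (R := k) (R' := k) (SemilinearAut.baseAut σ)
    (v27fRREquiv σ D) (SemilinearAut.baseAut σ).bijective (fun c f => Subtype.ext (by
      show σ • (c • (f : F)) = SemilinearAut.baseAut σ c • (σ • (f : F))
      rw [Algebra.smul_def, Algebra.smul_def, smul_mul', SemilinearAut.smul_algebraMap]))
  exact (congrArg Cardinal.toNat h).symm

/-- multiplication by `f` as a linear equivalence `L(D') ≃ L(D)` when `D' - D = div f` -/
def v27fMulEquiv {D D' : Divisor k F} {f : F} (hf : f ≠ 0)
    (hdiv : ∀ v : Place k F, (D' - D) v = v.ord f) :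
    riemannRochSpace D' ≃ₗ[k] riemannRochSpace D where
  toFun g := ⟨(g : F) * f, by
    have hg := mem_riemannRochSpace_iff.mp g.2
    rw [mem_riemannRochSpace_iff]
    intro v
    rcases eq_or_ne (g : F) 0 with h0 | h0
    · left; rw [h0, zero_mul]
    · right
      rw [v.ord_mul h0 hf, ← hdiv, Finsupp.sub_apply]
      have := (hg v).resolve_left h0
      linarith⟩
  invFun g := ⟨(g : F) * f⁻¹, by
    have hg := mem_riemannRochSpace_iff.mp g.2
    rw [mem_riemannRochSpace_iff]
    intro v
    rcases eq_or_ne (g : F) 0 with h0 | h0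
    · left; rw [h0, zero_mul]
    · right
      rw [v.ord_mul h0 (inv_ne_zero hf), v.ord_inv, ← hdiv, Finsupp.sub_apply]
      have := (hg v).resolve_left h0
      linarith⟩
  left_inv g := Subtype.ext (by
    show (g : F) * f * f⁻¹ = (g : F)
    rw [mul_assoc, mul_inv_cancel₀ hf, mul_one])
  right_inv g := Subtype.ext (by
    show (g : F) * f⁻¹ * f = (g : F)
    rw [mul_assoc, inv_mul_cancel₀ hf, mul_one])
  map_add' g h := Subtype.ext (add_mul (g : F) (h : F) f)
  map_smul' c g := Subtype.ext (smul_mul_assoc c (g : F) f)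

/-- **C4 (ii)** : `dim L` only depends on the class. -/
theorem v27f_finrank_of_sub_mem_principal {D D' : Divisor k F}
    (h : D' - D ∈ Divisor.principal (K := k) (F := F)) :
    finrank k (riemannRochSpace D') = finrank k (riemannRochSpace D) := by
  obtain ⟨f, hf, hdiv⟩ := h
  exact (v27fMulEquiv hf hdiv).finrank_eq

/-- an effective divisor of degree `0` is `0` -/
theorem v27f_eq_zero_of_degree_eq_zero
    (hres : ∀ v : Place k F, Module.Finite k v.ResidueField) {E : Divisor k F} (hE : 0 ≤ E)
    (hdeg : Divisor.degree E = 0) : E = 0 := by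
  classical
  by_contra hne
  obtain ⟨P, hP⟩ : ∃ P, E P ≠ 0 := by
    by_contra hall
    push Not at hall
    exact hne (Finsupp.ext hall)
  have hEP : 0 ≤ E P := Finsupp.le_def.mp hE P
  have hle : Finsupp.single P (1 : ℤ) ≤ E := by
    rw [Finsupp.le_def]
    intro v
    rw [Finsupp.single_apply]
    split_ifs with hv
    · subst hv; omega
    · exact Finsupp.le_def.mp hE v
  have h1 := Fermat.Agent.V.RR.v27rr_degree_mono hle
  rw [Divisor.degree_single, one_mul, hdeg] at h1
  have hpos := Fermat.Agent.V.Dual.v27d_deg_pos hres P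
  omega

/-- **C4 (iii)** : the canonical class is `σ`-invariant. -/
theorem v27f_canonical_invariant {g : ℕ} (R : Fermat.Agent.V.RR.V27RR k F g)
    (σ : SemilinearAut k F) {W : Divisor k F}
    (hdegW : Divisor.degree W = 2 * (g : ℤ) - 2)
    (hlW : finrank k (riemannRochSpace W) = g)
    (hRR : ∀ D : Divisor k F, (finrank k (riemannRochSpace D) : ℤ) =
      Divisor.degree D + 1 - g + finrank k (riemannRochSpace (W - D))) :
    σ • W - W ∈ Divisor.principal (K := k) (F := F) := by
  have := R.hasDiv
  have h1 := hRR (σ • W)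
  rw [v27f_finrank_smul, hlW, SemilinearAut.degree_smul, hdegW] at h1
  have h2 : finrank k (riemannRochSpace (W - σ • W)) = 1 := by
    have : (finrank k (riemannRochSpace (W - σ • W)) : ℤ) = 1 := by linarith
    exact_mod_cast this
  have hne : riemannRochSpace (W - σ • W) ≠ ⊥ := by
    intro h0
    rw [h0, finrank_bot] at h2
    exact zero_ne_one h2
  obtain ⟨f, hf, hf0⟩ := Submodule.exists_mem_ne_zero_of_ne_bot hne
  refine ⟨f, hf0, fun v => ?_⟩
  -- `E = div f - (σ W - W) ≥ 0` has degree `0`
  set E : Divisor k F := v27fDivOf (k := k) f hf0 - (σ • W - W) with hEdef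
  have hE : 0 ≤ E := by
    rw [Finsupp.le_def]
    intro w
    rw [hEdef]
    simp only [Finsupp.sub_apply, Finsupp.coe_zero, Pi.zero_apply]
    rw [v27fDivOf_apply]
    have := ((mem_riemannRochSpace_iff.mp hf) w).resolve_left hf0
    simp only [Finsupp.sub_apply] at this
    linarith
  have hdegE : Divisor.degree E = 0 := by
    rw [hEdef, map_sub, map_sub, v27fDivOf_degree, SemilinearAut.degree_smul]
    ring
  have hE0 := v27f_eq_zero_of_degree_eq_zero R.res hE hdegE
  have := DFunLike.congr_fun hE0 v
  rw [hEdef] at this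
  simp only [Finsupp.sub_apply, Finsupp.coe_zero, Pi.zero_apply] at this
  rw [v27fDivOf_apply] at this
  simp only [Finsupp.sub_apply]
  linarith

end Fermat.Agent.V
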