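import Mathlib

/-!
# Program V (S27), leaf (F6): orbit combinatorics of a permutation with finite orbits

`s : Equiv.Perm X` with all points periodic.  "Places of level `1`" are the orbits of `s`, "places of
level `n`" the orbits of `s ^ n`; the degree of an orbit is its size.  We prove the three facts the
norm-surjectivity leaf consumes:

* `v27o_hdegpi` : `deg' w * gcd n (deg (π w)) = deg (π w)`;
* `v27o_hfib`   : an `s`-orbit of size `d` contains exactly `gcd n d` orbits of `s ^ n`;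
* `v27o_norm_div` : `Σ_{i<n} s^i • [w] = (n / gcd n d) • [π w]` on orbit divisors.
-/

set_option autoImplicit false
set_option linter.style.haveILetI false

noncomputable section

namespace Fermat.Agent.V

open Function

variable {X : Type*}

/-- every point of `X` is periodic under `s`. -/
def V27oPer (s : Equiv.Perm X) : Prop := ∀ x : X, ∃ m : ℕ, 0 < m ∧ (s ^ m) x = x

theorem v27o_coe_pow (s : Equiv.Perm X) (n : ℕ) : ⇑(s ^ n) = (⇑s)^[n] :=
  (Equiv.Perm.iterate_eq_pow s n).symm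

theorem V27oPer.mem_periodicPts {s : Equiv.Perm X} (h : V27oPer s) (x : X) :
    x ∈ periodicPts (⇑s) := by
  obtain ⟨m, hm, hx⟩ := h x
  refine mk_mem_periodicPts hm ?_
  show (⇑s)^[m] x = x
  rw [← v27o_coe_pow]; exact hx

theorem V27oPer.minimalPeriod_pos {s : Equiv.Perm X} (h : V27oPer s) (x : X) :
    0 < minimalPeriod (⇑s) x :=
  minimalPeriod_pos_of_mem_periodicPts (h.mem_periodicPts x)

theorem V27oPer.pow {s : Equiv.Perm X} (h : V27oPer s) (n : ℕ) : V27oPer (s ^ n) := by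
  intro x
  obtain ⟨m, hm, hx⟩ := h x
  refine ⟨m, hm, ?_⟩
  rw [← pow_mul, mul_comm, pow_mul]
  have : ∀ k : ℕ, ((s ^ m) ^ k) x = x := by
    intro k
    induction k with
    | zero => simp
    | succ k ih => rw [pow_succ, Equiv.Perm.mul_apply, hx, ih]
  exact this n

theorem v27o_pow_minimalPeriod (s : Equiv.Perm X) (x : X) :
    (s ^ minimalPeriod (⇑s) x) x = x := by
  rw [v27o_coe_pow]; exact iterate_minimalPeriod

theorem v27o_pow_mul_minimalPeriod (s : Equiv.Perm X) (x : X) (a : ℕ) :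
    (s ^ (a * minimalPeriod (⇑s) x)) x = x := by
  rw [v27o_coe_pow]
  exact (isPeriodicPt_minimalPeriod (⇑s) x).const_mul a

theorem v27o_pow_mul_add (s : Equiv.Perm X) (x : X) (a b : ℕ) :
    (s ^ (a * minimalPeriod (⇑s) x + b)) x = (s ^ b) x := by
  rw [add_comm, pow_add, Equiv.Perm.mul_apply, v27o_pow_mul_minimalPeriod]

/-- integer powers reduce to natural powers below the minimal period. -/
theorem v27o_zpow_eq_pow {s : Equiv.Perm X} (h : V27oPer s) (x : X) (i : ℤ) :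
    ∃ j : ℕ, j < minimalPeriod (⇑s) x ∧ (s ^ i) x = (s ^ j) x := by
  set d := minimalPeriod (⇑s) x with hd
  have hdpos : 0 < d := h.minimalPeriod_pos x
  have hdz : (0 : ℤ) < (d : ℤ) := by exact_mod_cast hdpos
  have hfix : (s ^ (d : ℤ)) x = x := by
    rw [zpow_natCast]; exact v27o_pow_minimalPeriod s x
  have key : ∀ k : ℤ, (s ^ ((d : ℤ) * k)) x = x := by
    intro k
    rw [zpow_mul]
    exact Equiv.Perm.zpow_apply_eq_self_of_apply_eq_self hfix k
  refine ⟨(i % (d : ℤ)).toNat, ?_, ?_⟩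
  · have h1 := Int.emod_lt_of_pos i hdz
    have h2 := Int.emod_nonneg i hdz.ne'
    omega
  · have h2 := Int.emod_nonneg i hdz.ne'
    have e : i = i % (d : ℤ) + (d : ℤ) * (i / (d : ℤ)) := (Int.emod_add_mul_ediv i d).symm
    conv_lhs => rw [e, zpow_add, Equiv.Perm.mul_apply, key]
    rw [← zpow_natCast, Int.toNat_of_nonneg h2]

theorem v27o_sameCycle_iff {s : Equiv.Perm X} (h : V27oPer s) (x y : X) :
    s.SameCycle x y ↔ ∃ j : ℕ, j < minimalPeriod (⇑s) x ∧ (s ^ j) x = y := by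
  constructor
  · rintro ⟨i, rfl⟩
    obtain ⟨j, hj, e⟩ := v27o_zpow_eq_pow h x i
    exact ⟨j, hj, e.symm⟩
  · rintro ⟨j, -, rfl⟩
    exact ⟨j, by rw [zpow_natCast]⟩

theorem v27o_minimalPeriod_zpow (s : Equiv.Perm X) (x : X) (i : ℤ) :
    minimalPeriod (⇑s) ((s ^ i) x) = minimalPeriod (⇑s) x := by
  rw [minimalPeriod_eq_minimalPeriod_iff]
  intro n
  show (⇑s)^[n] ((s ^ i) x) = (s ^ i) x ↔ (⇑s)^[n] x = x
  rw [← v27o_coe_pow]
  have : (s ^ n) ((s ^ i) x) = (s ^ i) ((s ^ n) x) := by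
    rw [← Equiv.Perm.mul_apply, ← Equiv.Perm.mul_apply, ← zpow_natCast, ← zpow_add, ← zpow_add,
      add_comm]
  rw [this]
  exact (s ^ i).injective.eq_iff

theorem v27o_minimalPeriod_sameCycle {s : Equiv.Perm X} {x y : X} (h : s.SameCycle x y) :
    minimalPeriod (⇑s) x = minimalPeriod (⇑s) y := by
  obtain ⟨i, rfl⟩ := h
  exact (v27o_minimalPeriod_zpow s x i).symm

/-! ### orbits -/

/-- the type of orbits of `s`. -/
abbrev v27oOrb (s : Equiv.Perm X) : Type _ := Quotient (Equiv.Perm.SameCycle.setoid s)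

/-- the orbit of a point. -/
def v27oMk (s : Equiv.Perm X) (x : X) : v27oOrb s := Quotient.mk _ x

theorem v27oMk_eq_iff (s : Equiv.Perm X) (x y : X) :
    v27oMk s x = v27oMk s y ↔ s.SameCycle x y :=
  Quotient.eq (r := Equiv.Perm.SameCycle.setoid s)

theorem v27oMk_surjective (s : Equiv.Perm X) : Function.Surjective (v27oMk s) :=
  Quotient.mk_surjective

/-- the degree (= size) of an orbit. -/
def v27oDeg (s : Equiv.Perm X) : v27oOrb s → ℕ :=
  Quotient.lift (fun x => minimalPeriod (⇑s) x) fun _ _ h => v27o_minimalPeriod_sameCycle h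

@[simp] theorem v27oDeg_mk (s : Equiv.Perm X) (x : X) :
    v27oDeg s (v27oMk s x) = minimalPeriod (⇑s) x := rfl

theorem v27oDeg_pos {s : Equiv.Perm X} (h : V27oPer s) (v : v27oOrb s) : 0 < v27oDeg s v := by
  obtain ⟨x, rfl⟩ := v27oMk_surjective s v
  exact h.minimalPeriod_pos x

/-- the `s`-orbit containing an `s ^ n`-orbit. -/
def v27oPi (s : Equiv.Perm X) (n : ℕ) : v27oOrb (s ^ n) → v27oOrb s :=
  Quotient.map' id fun _ _ h => Equiv.Perm.SameCycle.of_pow h

@[simp] theorem v27oPi_mk (s : Equiv.Perm X) (n : ℕ) (x : X) :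
    v27oPi s n (v27oMk (s ^ n) x) = v27oMk s x := rfl

/-- **(O2)** the degree of an `s ^ n`-orbit. -/
theorem v27o_hdegpi (s : Equiv.Perm X) {n : ℕ} (hn : 0 < n) (w : v27oOrb (s ^ n)) :
    v27oDeg (s ^ n) w * Nat.gcd n (v27oDeg s (v27oPi s n w)) = v27oDeg s (v27oPi s n w) := by
  obtain ⟨x, rfl⟩ := v27oMk_surjective (s ^ n) w
  rw [v27oPi_mk, v27oDeg_mk, v27oDeg_mk, v27o_coe_pow, minimalPeriod_iterate_eq_div_gcd hn.ne',
    Nat.gcd_comm n]
  exact Nat.div_mul_cancel (Nat.gcd_dvd_left _ _)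

/-! ### the points of an orbit -/

/-- the points of the orbit `v`. -/
abbrev v27oPts (s : Equiv.Perm X) (v : v27oOrb s) : Type _ := {x : X // v27oMk s x = v}

/-- the points of the orbit of `x₀` are `x₀, s x₀, …, s^(d-1) x₀`. -/
def v27oFinEquiv {s : Equiv.Perm X} (h : V27oPer s) (x₀ : X) :
    Fin (minimalPeriod (⇑s) x₀) ≃ v27oPts s (v27oMk s x₀) :=
  Equiv.ofBijective
    (fun i => ⟨(s ^ (i : ℕ)) x₀, (v27oMk_eq_iff s _ _).2
      (Equiv.Perm.sameCycle_pow_left.2 (Equiv.Perm.SameCycle.refl s x₀))⟩)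
    (by
      constructor
      · intro i j hij
        have h1 : (s ^ (i : ℕ)) x₀ = (s ^ (j : ℕ)) x₀ := congrArg Subtype.val hij
        rw [v27o_coe_pow, v27o_coe_pow] at h1
        exact Fin.ext ((iterate_eq_iterate_iff_of_lt_minimalPeriod i.2 j.2).1 h1)
      · rintro ⟨y, hy⟩
        have hsc : s.SameCycle x₀ y := ((v27oMk_eq_iff s _ _).1 hy).symm
        obtain ⟨j, hj, rfl⟩ := (v27o_sameCycle_iff h x₀ y).1 hsc
        exact ⟨⟨j, hj⟩, rfl⟩)

theorem v27o_card_pts {s : Equiv.Perm X} (h : V27oPer s) (v : v27oOrb s) :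
    Nat.card (v27oPts s v) = v27oDeg s v := by
  obtain ⟨x, rfl⟩ := v27oMk_surjective s v
  rw [← Nat.card_congr (v27oFinEquiv h x), Nat.card_fin, v27oDeg_mk]

theorem v27o_finite_pts {s : Equiv.Perm X} (h : V27oPer s) (v : v27oOrb s) :
    Finite (v27oPts s v) := by
  obtain ⟨x, rfl⟩ := v27oMk_surjective s v
  exact Finite.of_equiv _ (v27oFinEquiv h x)

/-! ### the fibre count -/

/-- the points of an `s`-orbit, sorted by the `s ^ n`-orbit they lie in. -/
def v27oSigmaEquiv (s : Equiv.Perm X) (n : ℕ) (v : v27oOrb s) :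
    v27oPts s v ≃ Σ w : {w : v27oOrb (s ^ n) // v27oPi s n w = v}, v27oPts (s ^ n) w.1 where
  toFun x := ⟨⟨v27oMk (s ^ n) x.1, x.2⟩, ⟨x.1, rfl⟩⟩
  invFun p := ⟨p.2.1, (congrArg (v27oPi s n) p.2.2).trans p.1.2⟩
  left_inv x := rfl
  right_inv := by
    rintro ⟨⟨w, hw⟩, ⟨y, hy⟩⟩
    have hy' : v27oMk (s ^ n) y = w := hy
    subst hy'
    rfl

/-- **(O1)** an `s`-orbit of size `d` contains exactly `gcd n d` orbits of `s ^ n`. -/
theorem v27o_hfib {s : Equiv.Perm X} (h : V27oPer s) {n : ℕ} (hn : 0 < n) (v : v27oOrb s) :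
    Nat.card {w : v27oOrb (s ^ n) // v27oPi s n w = v} = Nat.gcd n (v27oDeg s v) := by
  have hfinv : Finite (v27oPts s v) := v27o_finite_pts h v
  have hfinfib : Finite {w : v27oOrb (s ^ n) // v27oPi s n w = v} := by
    refine Finite.of_surjective (fun x : v27oPts s v =>
      (⟨v27oMk (s ^ n) x.1, x.2⟩ : {w : v27oOrb (s ^ n) // v27oPi s n w = v})) ?_
    rintro ⟨w, hw⟩
    obtain ⟨x, rfl⟩ := v27oMk_surjective (s ^ n) w
    exact ⟨⟨x, hw⟩, rfl⟩
  haveI := Fintype.ofFinite {w : v27oOrb (s ^ n) // v27oPi s n w = v}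
  haveI : ∀ w : {w : v27oOrb (s ^ n) // v27oPi s n w = v}, Finite (v27oPts (s ^ n) w.1) :=
    fun w => v27o_finite_pts (h.pow n) w.1
  have hd := v27oDeg_pos h v
  set G := Nat.gcd n (v27oDeg s v) with hG
  have hGpos : 0 < G := Nat.gcd_pos_of_pos_left _ hn
  have hGd : G ∣ v27oDeg s v := Nat.gcd_dvd_right _ _
  have hdeg' : ∀ w : {w : v27oOrb (s ^ n) // v27oPi s n w = v},
      Nat.card (v27oPts (s ^ n) w.1) = v27oDeg s v / G := by
    intro w
    rw [v27o_card_pts (h.pow n)]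
    have := v27o_hdegpi s hn w.1
    rw [w.2] at this
    exact Nat.eq_div_of_mul_eq_left hGpos.ne' this
  have hcount : v27oDeg s v =
      Nat.card {w : v27oOrb (s ^ n) // v27oPi s n w = v} * (v27oDeg s v / G) := by
    conv_lhs => rw [← v27o_card_pts h v, Nat.card_congr (v27oSigmaEquiv s n v), Nat.card_sigma,
      Finset.sum_congr rfl fun w _ => hdeg' w, Finset.sum_const, Finset.card_univ,
      ← Nat.card_eq_fintype_card, smul_eq_mul]
  have hq : 0 < v27oDeg s v / G := Nat.div_pos (Nat.le_of_dvd hd hGd) hGpos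
  have h2 : G * (v27oDeg s v / G) = v27oDeg s v := Nat.mul_div_cancel' hGd
  have h3 : Nat.card {w : v27oOrb (s ^ n) // v27oPi s n w = v} * (v27oDeg s v / G) =
      G * (v27oDeg s v / G) := by rw [h2, ← hcount]
  exact Nat.eq_of_mul_eq_mul_right hq h3

/-! ### orbit divisors -/

theorem v27o_sum_range_mul {M : Type*} [AddCommMonoid M] (g : ℕ → M) (a b : ℕ) :
    ∑ k ∈ Finset.range (a * b), g k = ∑ j ∈ Finset.range a, ∑ i ∈ Finset.range b, g (j * b + i) := by
  induction a with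
  | zero => simp
  | succ a ih =>
    rw [Nat.succ_mul, Finset.sum_range_add, ih, Finset.sum_range_succ]

/-- the orbit divisor of a point: the sum of the points of its orbit. -/
def v27oDiv (s : Equiv.Perm X) (x : X) : X →₀ ℤ :=
  ∑ i ∈ Finset.range (minimalPeriod (⇑s) x), Finsupp.single ((s ^ i) x) 1

/-- summing over several periods. -/
theorem v27o_sum_periods (s : Equiv.Perm X) (x : X) (c : ℕ) :
    ∑ k ∈ Finset.range (c * minimalPeriod (⇑s) x), Finsupp.single ((s ^ k) x) (1 : ℤ) =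
      c • v27oDiv s x := by
  rw [v27o_sum_range_mul]
  have : ∀ j ∈ Finset.range c, ∑ i ∈ Finset.range (minimalPeriod (⇑s) x),
      Finsupp.single ((s ^ (j * minimalPeriod (⇑s) x + i)) x) (1 : ℤ) = v27oDiv s x := by
    intro j _
    refine Finset.sum_congr rfl fun i _ => ?_
    rw [v27o_pow_mul_add]
  rw [Finset.sum_congr rfl this, Finset.sum_const, Finset.card_range]

theorem v27oDiv_apply_perm (s : Equiv.Perm X) (x : X) : v27oDiv s (s x) = v27oDiv s x := by
  have hd : minimalPeriod (⇑s) (s x) = minimalPeriod (⇑s) x := by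
    simpa using v27o_minimalPeriod_zpow s x 1
  unfold v27oDiv
  rw [hd]
  set d := minimalPeriod (⇑s) x with hdd
  have h1 : ∀ i, (s ^ i) (s x) = (s ^ (i + 1)) x := by
    intro i; rw [pow_succ, Equiv.Perm.mul_apply]
  simp only [h1]
  have e1 := Finset.sum_range_succ' (fun i => Finsupp.single ((s ^ i) x) (1 : ℤ)) d
  have e2 := Finset.sum_range_succ (fun i => Finsupp.single ((s ^ i) x) (1 : ℤ)) d
  have e3 : (s ^ d) x = x := v27o_pow_minimalPeriod s x
  simp only [pow_zero, Equiv.Perm.coe_one, id_eq] at e1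
  rw [e3] at e2
  exact add_right_cancel (e1.symm.trans e2)

theorem v27oDiv_pow_apply (s : Equiv.Perm X) (x : X) (j : ℕ) :
    v27oDiv s ((s ^ j) x) = v27oDiv s x := by
  induction j with
  | zero => simp
  | succ j ih => rw [pow_succ', Equiv.Perm.mul_apply, v27oDiv_apply_perm, ih]

theorem v27oDiv_sameCycle {s : Equiv.Perm X} (h : V27oPer s) {x y : X} (hxy : s.SameCycle x y) :
    v27oDiv s x = v27oDiv s y := by
  obtain ⟨j, -, rfl⟩ := (v27o_sameCycle_iff h x y).1 hxy
  exact (v27oDiv_pow_apply s x j).symm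

/-- the orbit divisor is invariant. -/
theorem v27oDiv_mapDomain (s : Equiv.Perm X) (x : X) :
    Finsupp.mapDomain (⇑s) (v27oDiv s x) = v27oDiv s x := by
  conv_rhs => rw [← v27oDiv_apply_perm]
  have hd : minimalPeriod (⇑s) (s x) = minimalPeriod (⇑s) x := by
    simpa using v27o_minimalPeriod_zpow s x 1
  unfold v27oDiv
  rw [hd, Finsupp.mapDomain_finsetSum]
  refine Finset.sum_congr rfl fun i _ => ?_
  rw [Finsupp.mapDomain_single]
  congr 1
  rw [← Equiv.Perm.mul_apply, ← Equiv.Perm.mul_apply, ← pow_succ', ← pow_succ]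

/-- the orbit divisor of an orbit. -/
def v27oDivOrb {s : Equiv.Perm X} (h : V27oPer s) : v27oOrb s → (X →₀ ℤ) :=
  Quotient.lift (v27oDiv s) fun _ _ hxy => v27oDiv_sameCycle h hxy

@[simp] theorem v27oDivOrb_mk {s : Equiv.Perm X} (h : V27oPer s) (x : X) :
    v27oDivOrb h (v27oMk s x) = v27oDiv s x := rfl

/-- **(O3)**, pointwise form: the norm of the orbit divisor of an `s ^ n`-orbit. -/
theorem v27o_norm_div_pt (s : Equiv.Perm X) {n : ℕ} (hn : 0 < n) (x : X) :
    ∑ i ∈ Finset.range n, Finsupp.mapDomain (⇑(s ^ i)) (v27oDiv (s ^ n) x) =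
      (n / Nat.gcd n (minimalPeriod (⇑s) x)) • v27oDiv s x := by
  set d := minimalPeriod (⇑s) x with hd
  have hd' : minimalPeriod (⇑(s ^ n)) x = d / Nat.gcd d n := by
    rw [v27o_coe_pow, minimalPeriod_iterate_eq_div_gcd hn.ne']
  have hterm : ∀ i ∈ Finset.range n, Finsupp.mapDomain (⇑(s ^ i)) (v27oDiv (s ^ n) x) =
      ∑ j ∈ Finset.range (d / Nat.gcd d n), Finsupp.single ((s ^ (j * n + i)) x) (1 : ℤ) := by
    intro i _
    unfold v27oDiv
    rw [hd', Finsupp.mapDomain_finsetSum]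
    refine Finset.sum_congr rfl fun j _ => ?_
    rw [Finsupp.mapDomain_single]
    congr 1
    rw [← Equiv.Perm.mul_apply, ← pow_mul, ← pow_add]
    congr 2
    ring
  rw [Finset.sum_congr rfl hterm, Finset.sum_comm,
    ← v27o_sum_range_mul (fun k => Finsupp.single ((s ^ k) x) (1 : ℤ))]
  have hG : 0 < Nat.gcd d n := Nat.gcd_pos_of_pos_right _ hn
  have harith : d / Nat.gcd d n * n = n / Nat.gcd n d * d := by
    obtain ⟨a, ha⟩ := Nat.gcd_dvd_left d n
    obtain ⟨b, hb⟩ := Nat.gcd_dvd_right d n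
    rw [Nat.gcd_comm n d]
    set G := Nat.gcd d n
    have h1 : d / G = a := by
      conv_lhs => rw [ha]
      exact Nat.mul_div_cancel_left a hG
    have h2 : n / G = b := by
      conv_lhs => rw [hb]
      exact Nat.mul_div_cancel_left b hG
    rw [h1, h2]
    conv_lhs => rw [hb]
    conv_rhs => rw [ha]
    ring
  rw [harith, v27o_sum_periods]

/-- **(O3)** the norm of the orbit divisor of an `s ^ n`-orbit `w` is `n / gcd n (deg (π w))` times
the orbit divisor of the `s`-orbit containing `w`. -/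
theorem v27o_norm_div {s : Equiv.Perm X} (h : V27oPer s) {n : ℕ} (hn : 0 < n)
    (w : v27oOrb (s ^ n)) :
    ∑ i ∈ Finset.range n, Finsupp.mapDomain (⇑(s ^ i)) (v27oDivOrb (h.pow n) w) =
      (n / Nat.gcd n (v27oDeg s (v27oPi s n w))) • v27oDivOrb h (v27oPi s n w) := by
  obtain ⟨x, rfl⟩ := v27oMk_surjective (s ^ n) w
  exact v27o_norm_div_pt s hn x

/-! ### fixed points of powers -/

theorem v27o_pow_apply_eq_iff (s : Equiv.Perm X) (m : ℕ) (x : X) :
    (s ^ m) x = x ↔ minimalPeriod (⇑s) x ∣ m := by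
  rw [v27o_coe_pow]
  exact isPeriodicPt_iff_minimalPeriod_dvd

/-- the fixed points of `s ^ m`, sorted by orbit. -/
def v27oFixSigmaEquiv (s : Equiv.Perm X) (m : ℕ) :
    {x : X // (s ^ m) x = x} ≃ Σ v : {v : v27oOrb s // v27oDeg s v ∣ m}, v27oPts s v.1 where
  toFun x := ⟨⟨v27oMk s x.1, (v27o_pow_apply_eq_iff s m x.1).1 x.2⟩, ⟨x.1, rfl⟩⟩
  invFun p := ⟨p.2.1, (v27o_pow_apply_eq_iff s m p.2.1).2 (by
    have h1 : v27oDeg s (v27oMk s p.2.1) = v27oDeg s p.1.1 := congrArg (v27oDeg s) p.2.2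
    rw [v27oDeg_mk] at h1
    rw [h1]; exact p.1.2)⟩
  left_inv x := rfl
  right_inv := by
    rintro ⟨⟨v, hv⟩, ⟨y, hy⟩⟩
    have hy' : v27oMk s y = v := hy
    subst hy'
    rfl

theorem v27o_finite_orb_dvd {s : Equiv.Perm X} (m : ℕ) (hfix : Finite {x : X // (s ^ m) x = x}) :
    Finite {v : v27oOrb s // v27oDeg s v ∣ m} := by
  refine Finite.of_surjective (fun x : {x : X // (s ^ m) x = x} =>
    (⟨v27oMk s x.1, (v27o_pow_apply_eq_iff s m x.1).1 x.2⟩ :
      {v : v27oOrb s // v27oDeg s v ∣ m})) ?_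
  rintro ⟨v, hv⟩
  obtain ⟨x, rfl⟩ := v27oMk_surjective s v
  exact ⟨⟨x, (v27o_pow_apply_eq_iff s m x).2 hv⟩, rfl⟩

/-- **(O4)** the number of fixed points of `s ^ m` is the sum of the degrees of the orbits of
degree dividing `m`. -/
theorem v27o_card_fix {s : Equiv.Perm X} (h : V27oPer s) (m : ℕ)
    (hfix : Finite {x : X // (s ^ m) x = x}) :
    Nat.card {x : X // (s ^ m) x = x} =
      ∑ᶠ v : {v : v27oOrb s // v27oDeg s v ∣ m}, v27oDeg s v.1 := by
  haveI := v27o_finite_orb_dvd m hfix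
  haveI := Fintype.ofFinite {v : v27oOrb s // v27oDeg s v ∣ m}
  haveI : ∀ v : {v : v27oOrb s // v27oDeg s v ∣ m}, Finite (v27oPts s v.1) :=
    fun v => v27o_finite_pts h v.1
  rw [Nat.card_congr (v27oFixSigmaEquiv s m), Nat.card_sigma, finsum_eq_sum_of_fintype]
  exact Finset.sum_congr rfl fun v _ => v27o_card_pts h v.1

/-- **(O4)**, finset form: for any finset `T` of orbits with `v ∈ T ↔ deg v ∣ m`. -/
theorem v27o_card_fix_finset {s : Equiv.Perm X} (h : V27oPer s) (m : ℕ)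
    (hfix : Finite {x : X // (s ^ m) x = x}) (T : Finset (v27oOrb s))
    (hT : ∀ v, v ∈ T ↔ v27oDeg s v ∣ m) :
    Nat.card {x : X // (s ^ m) x = x} = ∑ v ∈ T, v27oDeg s v := by
  rw [v27o_card_fix h m hfix]
  haveI := v27o_finite_orb_dvd m hfix
  haveI := Fintype.ofFinite {v : v27oOrb s // v27oDeg s v ∣ m}
  rw [finsum_eq_sum_of_fintype]
  refine Finset.sum_bij' (fun v _ => v.1) (fun v hv => ⟨v, (hT v).1 hv⟩) ?_ ?_ ?_ ?_ ?_
  · intro v _; exact (hT v.1).2 v.2
  · intro v _; exact Finset.mem_univ _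
  · intro v _; rfl
  · intro v _; rfl
  · intro v _; rfl

/-- finitely many orbits of bounded degree, if every power has finitely many fixed points. -/
theorem v27o_finite_deg_le {s : Equiv.Perm X} (h : V27oPer s)
    (hfix : ∀ m : ℕ, 0 < m → Finite {x : X // (s ^ m) x = x}) (d : ℕ) :
    {v : v27oOrb s | v27oDeg s v ≤ d}.Finite := by
  have hsub : {v : v27oOrb s | v27oDeg s v ≤ d} ⊆
      ⋃ m ∈ Finset.Icc 1 d, {v : v27oOrb s | v27oDeg s v ∣ m} := by
    intro v hv
    have hpos := v27oDeg_pos h v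
    simp only [Set.mem_iUnion, Set.mem_ofPred_eq, Finset.mem_Icc, exists_prop]
    exact ⟨v27oDeg s v, ⟨hpos, hv⟩, dvd_rfl⟩
  refine Set.Finite.subset ?_ hsub
  refine Set.Finite.biUnion (Finset.finite_toSet _) fun m hm => ?_
  have hm1 : 0 < m := by
    have := (Finset.mem_Icc.1 (Finset.mem_coe.1 hm)).1
    omega
  exact Set.finite_coe_iff.1 (v27o_finite_orb_dvd m (hfix m hm1))

end Fermat.Agent.V
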