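import Mathlib

/-!
# Program V (S27), leaf Frob : abstract semilinear descent

`k` an algebraically closed field of characteristic `p`, `Q = p ^ a` with `0 < a`,
`W` a `k`-vector space, `τ : W →+ W` a `Q`-semilinear map (`τ (c • w) = c ^ Q • τ w`) which is
locally finite (`∀ w, ∃ n > 0, τ^[n] w = w`).

* `v27f_mem_span_fixed` : every vector is a `k`-linear combination of `τ`-fixed vectors;
* `v27f_exists_fixed_basis` : `W` has a `k`-basis of `τ`-fixed vectors;
* `v27f_exists_fixed_ne_zero` : a nonzero `W` has a nonzero fixed vector;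
* `v27f_card_fixed` : if `dim_k W = d` then there are exactly `Q ^ d` fixed vectors.
-/

set_option autoImplicit false
set_option linter.unusedSectionVars false

noncomputable section

namespace Fermat.Agent.V

open Polynomial

/-- `τ` is `Q`-semilinear and locally finite -/
structure V27Semilin {k : Type*} [Field k] (Q : ℕ) {W : Type*} [AddCommGroup W] [Module k W]
    (τ : W →+ W) : Prop where
  smul : ∀ (c : k) (w : W), τ (c • w) = c ^ Q • τ w
  fin : ∀ w : W, ∃ n : ℕ, 0 < n ∧ (⇑τ)^[n] w = w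

section Roots

variable {k : Type*} [Field k] [IsAlgClosed k] (p : ℕ) [Fact p.Prime] [CharP k p]

/-- the submonoid `{c | c ^ R = c}` of `k` -/
def v27fFix (k : Type*) [Field k] (R : ℕ) : Submonoid k where
  carrier := {c | c ^ R = c}
  one_mem' := one_pow R
  mul_mem' := fun {a b} ha hb => by
    show (a * b) ^ R = a * b
    rw [mul_pow, ha, hb]

omit [IsAlgClosed k] in
theorem v27f_mem_fix {R : ℕ} {c : k} : c ∈ v27fFix k R ↔ c ^ R = c := Iff.rfl

/-- `X ^ R - X` has exactly `R` roots when `p ∣ R`, `1 < R`. -/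
theorem v27f_card_fix {R : ℕ} (hR : 1 < R) (hpR : p ∣ R) :
    Nat.card (v27fFix k R) = R := by
  classical
  have hsep : (X ^ R - X : k[X]).Separable := galois_poly_separable p R hpR
  have hdeg : (X ^ R - X : k[X]).natDegree = R := FiniteField.X_pow_card_sub_X_natDegree_eq k hR
  have hne : (X ^ R - X : k[X]) ≠ 0 := FiniteField.X_pow_card_sub_X_ne_zero k hR
  have hcard := Polynomial.card_rootSet_eq_natDegree (K := k) hsep (IsAlgClosed.splits _)
  rw [hdeg] at hcard
  have hset : ((X ^ R - X : k[X]).rootSet k) = {c : k | c ^ R = c} := by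
    ext c
    rw [Polynomial.mem_rootSet_of_ne hne]
    simp [sub_eq_zero]
  calc Nat.card (v27fFix k R) = Nat.card ((X ^ R - X : k[X]).rootSet k) :=
        Nat.card_congr (Equiv.setCongr hset.symm)
    _ = R := by rw [Nat.card_eq_fintype_card, hcard]

end Roots

section Descent

variable {k : Type*} [Field k] [IsAlgClosed k] (p : ℕ) [Fact p.Prime] [CharP k p]
variable {Q : ℕ} {W : Type*} [AddCommGroup W] [Module k W] {τ : W →+ W}

theorem V27Semilin.iterate_smul (h : V27Semilin (k := k) Q τ) (n : ℕ) (c : k) (w : W) :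
    (⇑τ)^[n] (c • w) = c ^ (Q ^ n) • (⇑τ)^[n] w := by
  induction n generalizing c w with
  | zero => simp
  | succ n ih =>
    rw [Function.iterate_succ_apply', Function.iterate_succ_apply', ih, h.smul, ← pow_mul, pow_succ]

/-- the averaging operator `t_c w = ∑_{i<n} c^(Q^i) • τ^i w` -/
def v27fAvg (Q : ℕ) (τ : W →+ W) (n : ℕ) (c : k) (w : W) : W :=
  ∑ i ∈ Finset.range n, c ^ (Q ^ i) • (⇑τ)^[i] w

theorem v27f_avg_fixed (h : V27Semilin (k := k) Q τ) {n : ℕ} (hn : 0 < n) {c : k}
    (hc : c ^ (Q ^ n) = c) {w : W} (hw : (⇑τ)^[n] w = w) :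
    τ (v27fAvg Q τ n c w) = v27fAvg Q τ n c w := by
  unfold v27fAvg
  rw [map_sum]
  have h1 : ∀ i ∈ Finset.range n, τ (c ^ (Q ^ i) • (⇑τ)^[i] w) =
      c ^ (Q ^ (i + 1)) • (⇑τ)^[i + 1] w := by
    intro i _
    rw [h.smul, ← pow_mul, ← pow_succ, Function.iterate_succ_apply']
  rw [Finset.sum_congr rfl h1]
  obtain ⟨m, rfl⟩ : ∃ m, n = m + 1 := ⟨n - 1, by omega⟩
  rw [Finset.sum_range_succ (fun i => c ^ (Q ^ (i + 1)) • (⇑τ)^[i + 1] w), hc, hw,
    Finset.sum_range_succ' (fun i => c ^ (Q ^ i) • (⇑τ)^[i] w)]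
  simp

/-- the character `c ↦ c ^ (Q ^ i)` of the monoid `{c | c ^ R = c}` -/
def v27fChar (k : Type*) [Field k] (R Q i : ℕ) : v27fFix k R →* k where
  toFun c := (c : k) ^ (Q ^ i)
  map_one' := by simp
  map_mul' a b := by simp [mul_pow]

theorem v27f_pow_inj {a : ℕ} (hQ : Q = p ^ a) (i : ℕ) {x y : k} (h : x ^ (Q ^ i) = y ^ (Q ^ i)) :
    x = y := by
  subst hQ
  rw [← pow_mul] at h
  exact iterateFrobenius_inj k p (a * i) h

theorem v27f_one_lt {a : ℕ} (hQ : Q = p ^ a) (ha : 0 < a) : 1 < Q := by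
  subst hQ
  exact Nat.one_lt_pow ha.ne' (Fact.out : p.Prime).one_lt

theorem v27f_dvd {a : ℕ} (hQ : Q = p ^ a) (ha : 0 < a) : p ∣ Q := by
  subst hQ
  exact dvd_pow_self p ha.ne'

theorem v27f_char_injective {a : ℕ} (hQ : Q = p ^ a) (ha : 0 < a) {n : ℕ} :
    Function.Injective (fun i : Fin n => v27fChar k (Q ^ n) Q i) := by
  classical
  have hQ1 : 1 < Q := v27f_one_lt p hQ ha
  have hpQ : p ∣ Q := v27f_dvd p hQ ha
  have key : ∀ i j : ℕ, i < j → j < n → v27fChar k (Q ^ n) Q i ≠ v27fChar k (Q ^ n) Q j := by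
    intro i j hij hjn heq
    have hsub : ∀ c : v27fFix k (Q ^ n), (c : k) ^ (Q ^ (j - i)) = (c : k) := by
      intro c
      have h1 : (c : k) ^ (Q ^ i) = (c : k) ^ (Q ^ j) := DFunLike.congr_fun heq c
      have h2 : ((c : k) ^ (Q ^ (j - i))) ^ (Q ^ i) = (c : k) ^ (Q ^ i) := by
        rw [← pow_mul, ← pow_add, Nat.sub_add_cancel hij.le, ← h1]
      exact v27f_pow_inj p hQ i h2
    have hji : 1 < Q ^ (j - i) := Nat.one_lt_pow (by omega) hQ1
    have hle : Nat.card (v27fFix k (Q ^ n)) ≤ Nat.card (v27fFix k (Q ^ (j - i))) := by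
      have : Finite (v27fFix k (Q ^ (j - i))) :=
        Nat.finite_of_card_ne_zero (by rw [v27f_card_fix p hji (dvd_pow hpQ (by omega))]; omega)
      exact Nat.card_le_card_of_injective
        (fun c => (⟨(c : k), hsub c⟩ : v27fFix k (Q ^ (j - i))))
        (fun a b hab => Subtype.ext (by simpa using congrArg Subtype.val hab))
    rw [v27f_card_fix p (Nat.one_lt_pow (by omega) hQ1) (dvd_pow hpQ (by omega)),
      v27f_card_fix p hji (dvd_pow hpQ (by omega))] at hle
    have : Q ^ (j - i) < Q ^ n := Nat.pow_lt_pow_right hQ1 (by omega)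
    omega
  intro i j hij
  by_contra hne
  rcases lt_or_gt_of_ne (fun h => hne (Fin.ext h)) with h | h
  · exact key i j h j.2 hij
  · exact key j i h i.2 hij.symm

/-- **spanning** : every vector is a `k`-linear combination of `τ`-fixed vectors. -/
theorem v27f_mem_span_fixed {a : ℕ} (hQ : Q = p ^ a) (ha : 0 < a)
    (h : V27Semilin (k := k) Q τ) (w : W) :
    w ∈ Submodule.span k {v : W | τ v = v} := by
  classical
  obtain ⟨n, hn, hw⟩ := h.fin w
  by_contra hnot
  obtain ⟨f, hfw, hf⟩ := Submodule.exists_dual_map_eq_bot_of_notMem hnot inferInstance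
  have hzero : ∀ c : v27fFix k (Q ^ n),
      ∑ i : Fin n, f ((⇑τ)^[(i : ℕ)] w) * v27fChar k (Q ^ n) Q i c = 0 := by
    intro c
    have hfix : τ (v27fAvg Q τ n (c : k) w) = v27fAvg Q τ n (c : k) w :=
      v27f_avg_fixed h hn c.2 hw
    have hmem : v27fAvg Q τ n (c : k) w ∈ Submodule.span k {v | τ v = v} :=
      Submodule.subset_span hfix
    have h0 : f (v27fAvg Q τ n (c : k) w) = 0 := by
      have h1 := Submodule.mem_map_of_mem (f := f) hmem
      rw [hf] at h1
      exact (Submodule.mem_bot k).mp h1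
    unfold v27fAvg at h0
    rw [map_sum, Finset.sum_range] at h0
    rw [← h0]
    refine Finset.sum_congr rfl fun i _ => ?_
    rw [map_smul, smul_eq_mul, mul_comm]
    rfl
  have hli := (linearIndependent_monoidHom (v27fFix k (Q ^ n)) k).comp _
    (v27f_char_injective (k := k) p hQ ha (n := n))
  have h2 := Fintype.linearIndependent_iff.mp hli (fun i => f ((⇑τ)^[(i : ℕ)] w)) (by
    funext c
    simpa [Finset.sum_apply, smul_eq_mul] using hzero c)
  exact hfw (by simpa using h2 ⟨0, hn⟩)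

/-- **fixed basis** : `W` has a `k`-basis consisting of `τ`-fixed vectors. -/
theorem v27f_exists_fixed_basis {a : ℕ} (hQ : Q = p ^ a) (ha : 0 < a)
    (h : V27Semilin (k := k) Q τ) :
    ∃ (s : Set W) (b : Module.Basis s k W), ∀ i, τ (b i) = b i := by
  obtain ⟨s, hs, hspan, hli⟩ := exists_linearIndependent k {v : W | τ v = v}
  have htop : Submodule.span k s = ⊤ := by
    rw [hspan, eq_top_iff]
    intro w _
    exact v27f_mem_span_fixed p hQ ha h w
  refine ⟨s, Module.Basis.mk hli (by rw [Subtype.range_coe]; exact htop.ge), fun i => ?_⟩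
  rw [Module.Basis.mk_apply]
  exact hs i.2

/-- a nonzero space has a nonzero fixed vector -/
theorem v27f_exists_fixed_ne_zero {a : ℕ} (hQ : Q = p ^ a) (ha : 0 < a)
    (h : V27Semilin (k := k) Q τ) [Nontrivial W] : ∃ w : W, w ≠ 0 ∧ τ w = w := by
  obtain ⟨s, b, hb⟩ := v27f_exists_fixed_basis p hQ ha h
  have : Nonempty s := b.index_nonempty
  obtain ⟨i⟩ := this
  exact ⟨b i, b.ne_zero i, hb i⟩

/-- coordinates of `τ w` in a fixed basis -/
theorem v27f_repr_tau (h : V27Semilin (k := k) Q τ) {ι : Type*} [Fintype ι]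
    (b : Module.Basis ι k W) (hb : ∀ i, τ (b i) = b i) (w : W) (i : ι) :
    b.repr (τ w) i = (b.repr w i) ^ Q := by
  classical
  have h1 : τ w = ∑ j, (b.repr w j) ^ Q • b j := by
    conv_lhs => rw [← b.sum_repr w]
    rw [map_sum]
    exact Finset.sum_congr rfl fun j _ => by rw [h.smul, hb]
  rw [h1, b.repr_sum_self]

/-- **count** : there are exactly `Q ^ dim W` fixed vectors. -/
theorem v27f_card_fixed {a : ℕ} (hQ : Q = p ^ a) (ha : 0 < a)
    (h : V27Semilin (k := k) Q τ) [FiniteDimensional k W] :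
    Nat.card {w : W // τ w = w} = Q ^ Module.finrank k W := by
  classical
  obtain ⟨s, b, hb⟩ := v27f_exists_fixed_basis p hQ ha h
  have : Fintype s := FiniteDimensional.fintypeBasisIndex b
  have hQ1 : 1 < Q := v27f_one_lt p hQ ha
  have hpQ : p ∣ Q := v27f_dvd p hQ ha
  let e : {w : W // τ w = w} ≃ (s → v27fFix k Q) :=
    { toFun := fun w i => ⟨b.repr w.1 i, by
        show (b.repr w.1 i) ^ Q = b.repr w.1 i
        rw [← v27f_repr_tau h b hb, w.2]⟩
      invFun := fun c => ⟨∑ i, (c i : k) • b i, by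
        rw [map_sum]
        exact Finset.sum_congr rfl fun j _ => by
          rw [h.smul, hb, (c j).2]⟩
      left_inv := fun w => Subtype.ext (by
        show ∑ i, (b.repr w.1 i) • b i = w.1
        exact b.sum_repr w.1)
      right_inv := fun c => by
        funext i
        apply Subtype.ext
        show b.repr (∑ j, (c j : k) • b j) i = (c i : k)
        rw [b.repr_sum_self] }
  rw [Nat.card_congr e, Nat.card_fun, v27f_card_fix p hQ1 hpQ, Module.finrank_eq_nat_card_basis b]

end Descent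

end Fermat.Agent.V
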