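import Fermat.Agent.V.Zeta
import Fermat.Agent.V.Frob.HRecCurve
import Fermat.Agent.V.RR.Pack

/-!
# Program V (S27), leaf C5: the zeta polynomial of a Frobenius structure (ZETA-INST + FIN)

For `σ : SemilinearAut k F` (a Frobenius structure with `q = Q`), a `σ`-fixed place `v0`, the
Riemann–Roch package `V27RR k F g` and the counting / descent facts C2, C3, C4 as hypotheses, we
instantiate the abstract zeta formalism `v27z_main` with the group of `σ`-invariant divisor classes
and obtain the `L`-polynomial: `P ∈ ℤ[X]` of degree `2 g`, `P(0) = 1`, leading coefficient `Q ^ g`,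
`P(1) = #Pic⁰(F)^σ`, `(1 - X)(1 - Q X) Σ A_d X^d = P`.
-/

set_option autoImplicit false
set_option linter.style.haveILetI false
set_option linter.unusedSectionVars false

noncomputable section

namespace Fermat.Agent.V

open AlgebraicCurve Module Fermat.Agent.V.RR Fermat.Agent.V.Dual

variable {k F : Type*} [Field k] [Field F] [Algebra k F]

/-! ### principal divisors -/

theorem v27zi_mem_principal_iff [HasPrincipalDivisors k F] {D : Divisor k F} :
    D ∈ Divisor.principal (K := k) (F := F) ↔ ∃ f : F, f ≠ 0 ∧ D = v27d_div k f := by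
  constructor
  · rintro ⟨f, hf, hD⟩
    refine ⟨f, hf, ?_⟩
    ext v
    rw [hD v, v27d_div_apply']
  · rintro ⟨f, hf, rfl⟩
    exact ⟨f, hf, fun v => v27d_div_apply' f v⟩

theorem v27zi_degree_principal [HasPrincipalDivisors k F] {D : Divisor k F}
    (hD : D ∈ Divisor.principal (K := k) (F := F)) : Divisor.degree D = 0 := by
  obtain ⟨f, -, rfl⟩ := v27zi_mem_principal_iff.1 hD
  exact v27d_degree_div f

/-- an effective divisor of degree zero is zero (all places of degree one). -/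
theorem v27zi_eq_zero_of_degree (hdeg : ∀ v : Place k F, v.deg = 1) {D : Divisor k F}
    (h0 : 0 ≤ D) (hd : Divisor.degree D = 0) : D = 0 := by
  rw [v27rr_degree_eq_sum, Finsupp.sum] at hd
  have hnn : ∀ v ∈ D.support, 0 ≤ D v * (v.deg : ℤ) := fun v _ => by
    have : 0 ≤ D v := Finsupp.le_def.mp h0 v
    positivity
  have hz := (Finset.sum_eq_zero_iff_of_nonneg hnn).1 hd
  ext v
  by_cases hv : v ∈ D.support
  · have := hz v hv
    rw [hdeg v] at this
    simpa using this
  · simpa using Finsupp.notMem_support_iff.1 hv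

/-- a divisor of degree zero with `L(D) ≠ 0` is principal. -/
theorem v27zi_principal_of_rrSpace [HasPrincipalDivisors k F]
    (hdeg : ∀ v : Place k F, v.deg = 1) {D : Divisor k F} (hd : Divisor.degree D = 0)
    {f : F} (hf0 : f ≠ 0) (hf : f ∈ riemannRochSpace D) :
    D ∈ Divisor.principal (K := k) (F := F) := by
  have h1 : -D ≤ v27d_div k f := (v27d_mem_rrSpace_iff hf0).1 hf
  have h2 : 0 ≤ v27d_div k f + D := by
    have := add_le_add_right h1 D
    rw [add_comm]
    simpa using this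
  have h3 : Divisor.degree (v27d_div k f + D) = 0 := by
    rw [map_add, v27d_degree_div, hd, add_zero]
  have h4 := v27zi_eq_zero_of_degree hdeg h2 h3
  have h5 : D = v27d_div k f⁻¹ := by
    rw [v27d_div_inv]
    exact eq_neg_of_add_eq_zero_right h4
  exact v27zi_mem_principal_iff.2 ⟨f⁻¹, inv_ne_zero hf0, h5⟩

/-! ### invariant divisor classes -/

/-- the `σ`-invariant divisors. -/
def v27ziInv (σ : SemilinearAut k F) : AddSubgroup (Divisor k F) where
  carrier := {D | σ • D = D}
  zero_mem' := smul_zero σ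
  add_mem' := fun {a b} ha hb => by
    show σ • (a + b) = a + b
    rw [smul_add, ha, hb]
  neg_mem' := fun {a} ha => by
    show σ • (-a) = -a
    rw [smul_neg, ha]

theorem v27zi_mem_inv {σ : SemilinearAut k F} {D : Divisor k F} :
    D ∈ v27ziInv σ ↔ σ • D = D := Iff.rfl

/-- the principal divisors among the invariant ones. -/
def v27ziPrin (σ : SemilinearAut k F) : AddSubgroup (v27ziInv σ) :=
  (Divisor.principal (K := k) (F := F)).addSubgroupOf (v27ziInv σ)

/-- the group of invariant divisor classes. -/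
abbrev v27ziCl (σ : SemilinearAut k F) : Type _ := v27ziInv σ ⧸ v27ziPrin σ

/-- the class of an invariant divisor. -/
def v27ziMk (σ : SemilinearAut k F) (D : v27ziInv σ) : v27ziCl σ := QuotientAddGroup.mk D

theorem v27ziMk_surjective (σ : SemilinearAut k F) : Function.Surjective (v27ziMk σ) :=
  QuotientAddGroup.mk_surjective

theorem v27ziMk_eq_iff {σ : SemilinearAut k F} {D D' : v27ziInv σ} :
    v27ziMk σ D = v27ziMk σ D' ↔
      (D' : Divisor k F) - (D : Divisor k F) ∈ Divisor.principal (K := k) (F := F) := by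
  unfold v27ziMk
  rw [QuotientAddGroup.eq]
  show (((-D + D' : v27ziInv σ) : Divisor k F)) ∈ Divisor.principal (K := k) (F := F) ↔ _
  rw [AddSubgroup.coe_add, AddSubgroup.coe_neg, neg_add_eq_sub]

theorem v27ziMk_add {σ : SemilinearAut k F} (D D' : v27ziInv σ) :
    v27ziMk σ (D + D') = v27ziMk σ D + v27ziMk σ D' := rfl

theorem v27ziMk_sub {σ : SemilinearAut k F} (D D' : v27ziInv σ) :
    v27ziMk σ (D - D') = v27ziMk σ D - v27ziMk σ D' := rfl

theorem v27ziMk_zero {σ : SemilinearAut k F} : v27ziMk σ 0 = 0 := rfl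

/-- a representative of a class. -/
def v27ziRep {σ : SemilinearAut k F} (c : v27ziCl σ) : v27ziInv σ := Quotient.out c

@[simp] theorem v27ziMk_rep {σ : SemilinearAut k F} (c : v27ziCl σ) :
    v27ziMk σ (v27ziRep c) = c := Quotient.out_eq c

/-- the degree of an invariant class. -/
def v27ziDeg [HasPrincipalDivisors k F] (σ : SemilinearAut k F) : v27ziCl σ →+ ℤ :=
  QuotientAddGroup.lift (v27ziPrin σ) (Divisor.degree.comp (v27ziInv σ).subtype)
    (fun _ hD => v27zi_degree_principal (AddSubgroup.mem_addSubgroupOf.1 hD))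

@[simp] theorem v27ziDeg_mk [HasPrincipalDivisors k F] (σ : SemilinearAut k F) (D : v27ziInv σ) :
    v27ziDeg σ (v27ziMk σ D) = Divisor.degree (D : Divisor k F) := rfl

theorem v27ziDeg_rep [HasPrincipalDivisors k F] {σ : SemilinearAut k F} (c : v27ziCl σ) :
    Divisor.degree ((v27ziRep c : v27ziInv σ) : Divisor k F) = v27ziDeg σ c := by
  conv_rhs => rw [← v27ziMk_rep c]
  rfl

/-- `ℓ` of a class (through a representative). -/
def v27ziEll {σ : SemilinearAut k F} (c : v27ziCl σ) : ℕ :=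
  finrank k (riemannRochSpace ((v27ziRep c : v27ziInv σ) : Divisor k F))

/-- the number of invariant effective divisors in a class. -/
def v27ziN {σ : SemilinearAut k F} (c : v27ziCl σ) : ℕ :=
  Nat.card {E : Divisor k F // 0 ≤ E ∧ σ • E = E ∧
    E - ((v27ziRep c : v27ziInv σ) : Divisor k F) ∈ Divisor.principal (K := k) (F := F)}

/-! ### the hypotheses -/

/-- the inputs of leaf C5: Riemann–Roch, a Frobenius structure with a fixed place, and the
leaves C1 (orbits), C2 (count), C3 (descent), C4 (`ℓ` is a class function, `σ`-invariant). -/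
structure V27ziHyp (σ : SemilinearAut k F) (Q g : ℕ) : Prop where
  rr : V27RR k F g
  hdeg : ∀ v : Place k F, v.deg = 1
  hQ : 2 ≤ Q
  hOr1 : ∀ v : Place k F, ∃ m : ℕ, 0 < m ∧ (σ ^ m) • v = v
  hOr2 : ∀ m : ℕ, 0 < m → Finite {v : Place k F // (σ ^ m) • v = v}
  hfixed : ∃ v0 : Place k F, σ • v0 = v0
  count : ∀ D : Divisor k F, σ • D = D →
    Nat.card {E : Divisor k F // 0 ≤ E ∧ σ • E = E ∧
      E - D ∈ Divisor.principal (K := k) (F := F)} * (Q - 1) =
        Q ^ finrank k (riemannRochSpace D) - 1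
  desc : ∀ D : Divisor k F, σ • D - D ∈ Divisor.principal (K := k) (F := F) →
    ∃ D' : Divisor k F, D' - D ∈ Divisor.principal (K := k) (F := F) ∧ σ • D' = D'
  ell_smul : ∀ D : Divisor k F,
    finrank k (riemannRochSpace (σ • D)) = finrank k (riemannRochSpace D)
  ell_class : ∀ D D' : Divisor k F, D' - D ∈ Divisor.principal (K := k) (F := F) →
    finrank k (riemannRochSpace D') = finrank k (riemannRochSpace D)

namespace V27ziHyp

variable {σ : SemilinearAut k F} {Q g : ℕ}

theorem rep_sub_mem (D : v27ziInv σ) :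
    ((v27ziRep (v27ziMk σ D) : v27ziInv σ) : Divisor k F) - (D : Divisor k F) ∈
      Divisor.principal (K := k) (F := F) :=
  v27ziMk_eq_iff.1 (v27ziMk_rep (v27ziMk σ D)).symm

theorem ell_mk (H : V27ziHyp σ Q g) (D : v27ziInv σ) :
    v27ziEll (v27ziMk σ D) = finrank k (riemannRochSpace (D : Divisor k F)) :=
  H.ell_class _ _ (rep_sub_mem D)

theorem N_mul (H : V27ziHyp σ Q g) (c : v27ziCl σ) :
    v27ziN c * (Q - 1) = Q ^ v27ziEll c - 1 :=
  H.count _ (v27ziRep c).2

theorem mk_eq_zero_iff {D : v27ziInv σ} :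
    v27ziMk σ D = 0 ↔ (D : Divisor k F) ∈ Divisor.principal (K := k) (F := F) := by
  rw [← v27ziMk_zero, eq_comm, v27ziMk_eq_iff]
  simp

variable [HasPrincipalDivisors k F]

theorem ell_neg (H : V27ziHyp σ Q g) (c : v27ziCl σ) (hc : v27ziDeg σ c < 0) :
    v27ziEll c = 0 := by
  unfold v27ziEll
  rw [H.rr.neg _ (by rw [v27ziDeg_rep]; exact hc), finrank_bot]

theorem ell_zero (H : V27ziHyp σ Q g) : v27ziEll (0 : v27ziCl σ) = 1 := by
  rw [← v27ziMk_zero, H.ell_mk]
  exact H.rr.zero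

theorem ell_degZero (H : V27ziHyp σ Q g) (c : v27ziCl σ) (hc : v27ziDeg σ c = 0) (hc0 : c ≠ 0) :
    v27ziEll c = 0 := by
  by_contra hne
  apply hc0
  have hne' : riemannRochSpace ((v27ziRep c : v27ziInv σ) : Divisor k F) ≠ ⊥ := by
    intro h0
    apply hne
    unfold v27ziEll
    rw [h0, finrank_bot]
  obtain ⟨f, hf, hf0⟩ := Submodule.exists_mem_ne_zero_of_ne_bot hne'
  have hp := v27zi_principal_of_rrSpace H.hdeg (by rw [v27ziDeg_rep]; exact hc) hf0 hf
  rw [← v27ziMk_rep c]
  exact mk_eq_zero_iff.2 hp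

/-- an invariant canonical divisor. -/
theorem exists_canonical (H : V27ziHyp σ Q g) :
    ∃ W : Divisor k F, σ • W = W ∧ Divisor.degree W = 2 * (g : ℤ) - 2 ∧
      ∀ D : Divisor k F, (finrank k (riemannRochSpace D) : ℤ) =
        Divisor.degree D + 1 - g + finrank k (riemannRochSpace (W - D)) := by
  obtain ⟨W, hW, hlW, -, hRR⟩ := H.rr.can
  -- `σ • W` is again canonical, hence linearly equivalent to `W`
  have h1 := hRR (σ • W)
  rw [H.ell_smul W, hlW, SemilinearAut.degree_smul, hW] at h1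
  have h2 : finrank k (riemannRochSpace (W - σ • W)) = 1 := by
    have : (finrank k (riemannRochSpace (W - σ • W)) : ℤ) = 1 := by linarith
    exact_mod_cast this
  have hne : riemannRochSpace (W - σ • W) ≠ ⊥ := by
    intro h0
    rw [h0, finrank_bot] at h2
    exact zero_ne_one h2
  obtain ⟨f, hf, hf0⟩ := Submodule.exists_mem_ne_zero_of_ne_bot hne
  have hp : W - σ • W ∈ Divisor.principal (K := k) (F := F) :=
    v27zi_principal_of_rrSpace H.hdeg (by rw [map_sub, SemilinearAut.degree_smul, sub_self]) hf0 hf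
  have hp' : σ • W - W ∈ Divisor.principal (K := k) (F := F) := by
    have := (Divisor.principal (K := k) (F := F)).neg_mem hp
    rwa [neg_sub] at this
  obtain ⟨W', hW'p, hW'inv⟩ := H.desc W hp'
  refine ⟨W', hW'inv, ?_, fun D => ?_⟩
  · have : Divisor.degree (W' - W) = 0 := v27zi_degree_principal hW'p
    rw [map_sub] at this
    linarith
  · rw [hRR D]
    congr 2
    refine (H.ell_class (W' - D) (W - D) ?_)
    have : W - D - (W' - D) = -(W' - W) := by abel
    rw [this]
    exact (Divisor.principal (K := k) (F := F)).neg_mem hW'p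

end V27ziHyp

namespace V27ziHyp

variable {σ : SemilinearAut k F} {Q g : ℕ} [HasPrincipalDivisors k F]

/-- Riemann–Roch on invariant classes, for an invariant canonical divisor `W`. -/
theorem rr_class (H : V27ziHyp σ Q g) {W : Divisor k F} (hW : σ • W = W)
    (hRR : ∀ D : Divisor k F, (finrank k (riemannRochSpace D) : ℤ) =
        Divisor.degree D + 1 - g + finrank k (riemannRochSpace (W - D))) (c : v27ziCl σ) :
    (v27ziEll c : ℤ) = v27ziDeg σ c + 1 - g + v27ziEll (v27ziMk σ ⟨W, hW⟩ - c) := by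
  have hc : v27ziMk σ ⟨W, hW⟩ - c = v27ziMk σ (⟨W, hW⟩ - v27ziRep c) := by
    rw [v27ziMk_sub, v27ziMk_rep]
  rw [hc, H.ell_mk]
  have := hRR ((v27ziRep c : v27ziInv σ) : Divisor k F)
  rw [v27ziDeg_rep] at this
  exact this

/-- the class of the fixed place. -/
theorem exists_degree_one (H : V27ziHyp σ Q g) : ∃ c₁ : v27ziCl σ, v27ziDeg σ c₁ = 1 := by
  obtain ⟨v0, hv0⟩ := H.hfixed
  have hinv : Finsupp.single v0 (1 : ℤ) ∈ v27ziInv σ := by
    show σ • Finsupp.single v0 (1 : ℤ) = Finsupp.single v0 1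
    rw [SemilinearAut.smul_single, hv0]
  refine ⟨v27ziMk σ ⟨_, hinv⟩, ?_⟩
  rw [v27ziDeg_mk]
  show Divisor.degree (Finsupp.single v0 (1 : ℤ)) = 1
  rw [Divisor.degree_single, H.hdeg v0]
  simp

theorem N_pos (H : V27ziHyp σ Q g) (c : v27ziCl σ) (hc : (g : ℤ) ≤ v27ziDeg σ c) :
    0 < v27ziN c := by
  have h1 := H.N_mul c
  have hell : 1 ≤ v27ziEll c := by
    have := H.rr.riemann_ineq ((v27ziRep c : v27ziInv σ) : Divisor k F)
    rw [v27ziDeg_rep] at this
    have h2 : (1 : ℤ) ≤ (v27ziEll c : ℤ) := by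
      unfold v27ziEll
      linarith
    exact_mod_cast h2
  have hQ := H.hQ
  have hpow : Q ≤ Q ^ v27ziEll c := by
    calc Q = Q ^ 1 := (pow_one Q).symm
      _ ≤ Q ^ v27ziEll c := Nat.pow_le_pow_right (by omega) hell
  by_contra h0
  have h0' : v27ziN c = 0 := by omega
  rw [h0', zero_mul] at h1
  omega

/-- every invariant class of degree `≥ g` contains an invariant effective divisor. -/
theorem exists_effective (H : V27ziHyp σ Q g) (c : v27ziCl σ) (hc : (g : ℤ) ≤ v27ziDeg σ c) :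
    ∃ E : Divisor k F, ∃ hE : σ • E = E, 0 ≤ E ∧ v27ziMk σ ⟨E, hE⟩ = c := by
  have hpos := H.N_pos c hc
  unfold v27ziN at hpos
  haveI : Nonempty {E : Divisor k F // 0 ≤ E ∧ σ • E = E ∧
      E - ((v27ziRep c : v27ziInv σ) : Divisor k F) ∈ Divisor.principal (K := k) (F := F)} := by
    by_contra hne
    rw [not_nonempty_iff] at hne
    rw [Nat.card_of_isEmpty] at hpos
    exact lt_irrefl _ hpos
  obtain ⟨E, hE0, hEinv, hEp⟩ := Classical.arbitrary {E : Divisor k F // 0 ≤ E ∧ σ • E = E ∧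
      E - ((v27ziRep c : v27ziInv σ) : Divisor k F) ∈ Divisor.principal (K := k) (F := F)}
  refine ⟨E, hEinv, hE0, ?_⟩
  conv_rhs => rw [← v27ziMk_rep c]
  rw [eq_comm, v27ziMk_eq_iff]
  exact hEp

/-- **FIN**: the group of invariant classes of degree zero is finite. -/
theorem finite_ker (H : V27ziHyp σ Q g) : Finite (v27ziDeg σ).ker := by
  obtain ⟨c₁, hc₁⟩ := H.exists_degree_one
  haveI := v27hc_finite_eff σ H.hdeg H.hOr1 H.hOr2 g
  have hsurj : Function.Surjective
      (fun E : {E : Divisor k F // 0 ≤ E ∧ σ • E = E ∧ Divisor.degree E = (g : ℤ)} =>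
        (⟨v27ziMk σ ⟨E.1, E.2.2.1⟩, by rw [v27ziDeg_mk]; exact E.2.2.2⟩ :
          {c : v27ziCl σ // v27ziDeg σ c = (g : ℤ)})) := by
    rintro ⟨c, hc⟩
    obtain ⟨E, hEinv, hE0, hEc⟩ := H.exists_effective c (by rw [hc])
    refine ⟨⟨E, hE0, hEinv, ?_⟩, Subtype.ext hEc⟩
    have := congrArg (v27ziDeg σ) hEc
    rw [v27ziDeg_mk, hc] at this
    exact this
  haveI : Finite {c : v27ziCl σ // v27ziDeg σ c = (g : ℤ)} := Finite.of_surjective _ hsurj
  exact Finite.of_equiv _ (v27z_fibreEquiv (v27ziDeg σ) c₁ hc₁ (g : ℤ)).symm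

end V27ziHyp

/-! ### effective divisors sorted by class -/

namespace V27ziHyp

variable {σ : SemilinearAut k F} {Q g : ℕ} [HasPrincipalDivisors k F]

theorem sub_rep_mem (D : v27ziInv σ) :
    (D : Divisor k F) - ((v27ziRep (v27ziMk σ D) : v27ziInv σ) : Divisor k F) ∈
      Divisor.principal (K := k) (F := F) := by
  have := (Divisor.principal (K := k) (F := F)).neg_mem (rep_sub_mem D)
  rwa [neg_sub] at this

/-- the invariant effective divisors of degree `d`, sorted by their class. -/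
def sigmaEquiv (σ : SemilinearAut k F) (d : ℕ) :
    {E : Divisor k F // 0 ≤ E ∧ σ • E = E ∧ Divisor.degree E = (d : ℤ)} ≃
      Σ c : {c : v27ziCl σ // v27ziDeg σ c = (d : ℤ)},
        {E : Divisor k F // 0 ≤ E ∧ σ • E = E ∧
          E - ((v27ziRep c.1 : v27ziInv σ) : Divisor k F) ∈
            Divisor.principal (K := k) (F := F)} where
  toFun E := ⟨⟨v27ziMk σ ⟨E.1, E.2.2.1⟩, by rw [v27ziDeg_mk]; exact E.2.2.2⟩,
    ⟨E.1, E.2.1, E.2.2.1, sub_rep_mem ⟨E.1, E.2.2.1⟩⟩⟩
  invFun p := ⟨p.2.1, p.2.2.1, p.2.2.2.1, by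
    have h1 := v27zi_degree_principal p.2.2.2.2
    rw [map_sub, v27ziDeg_rep, p.1.2] at h1
    linarith⟩
  left_inv E := rfl
  right_inv := by
    rintro ⟨⟨c, hc⟩, ⟨E, h0, hinv, hp⟩⟩
    have hcE : v27ziMk σ ⟨E, hinv⟩ = c := by
      conv_rhs => rw [← v27ziMk_rep c]
      rw [eq_comm, v27ziMk_eq_iff]
      exact hp
    subst hcE
    rfl

theorem A_eq (H : V27ziHyp σ Q g) (d : ℕ) :
    v27hcA σ d = ∑ᶠ c : {c : v27ziCl σ // v27ziDeg σ c = (d : ℤ)}, v27ziN c.1 := by
  obtain ⟨c₁, hc₁⟩ := H.exists_degree_one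
  haveI := H.finite_ker
  haveI : Finite {c : v27ziCl σ // v27ziDeg σ c = (d : ℤ)} :=
    Finite.of_equiv _ (v27z_fibreEquiv (v27ziDeg σ) c₁ hc₁ (d : ℤ))
  haveI := Fintype.ofFinite {c : v27ziCl σ // v27ziDeg σ c = (d : ℤ)}
  haveI := v27hc_finite_eff σ H.hdeg H.hOr1 H.hOr2 d
  haveI : ∀ c : {c : v27ziCl σ // v27ziDeg σ c = (d : ℤ)},
      Finite {E : Divisor k F // 0 ≤ E ∧ σ • E = E ∧
        E - ((v27ziRep c.1 : v27ziInv σ) : Divisor k F) ∈
          Divisor.principal (K := k) (F := F)} := by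
    intro c
    refine Finite.of_injective
      (fun E => (sigmaEquiv σ d).symm ⟨c, E⟩) ?_
    intro E E' hEE'
    have := (sigmaEquiv σ d).symm.injective hEE'
    exact eq_of_heq (Sigma.mk.inj this).2
  unfold v27hcA
  rw [Nat.card_congr (sigmaEquiv σ d), Nat.card_sigma, finsum_eq_sum_of_fintype]
  rfl

end V27ziHyp

/-! ### invariant classes of degree zero and `Pic⁰` -/

theorem v27zi_pic0_mk_eq_iff {A B : Divisor.degZero (K := k) (F := F)} :
    Pic0.mk A = Pic0.mk B ↔
      (B : Divisor k F) - (A : Divisor k F) ∈ Divisor.principal (K := k) (F := F) := by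
  unfold Pic0.mk
  rw [QuotientAddGroup.eq, AddSubgroup.mem_addSubgroupOf]
  rw [AddSubgroup.coe_add, AddSubgroup.coe_neg, neg_add_eq_sub]

theorem v27zi_smul_pic0_mk (σ : SemilinearAut k F) (A : Divisor.degZero (K := k) (F := F)) :
    σ • Pic0.mk A = Pic0.mk ⟨σ • (A : Divisor k F), SemilinearAut.smul_mem_degZero σ A.2⟩ :=
  SemilinearAut.pic0_smul_mk σ A

namespace V27ziHyp

variable {σ : SemilinearAut k F} {Q g : ℕ} [HasPrincipalDivisors k F]

/-- the map from invariant classes of degree zero to the fixed points of `Pic⁰`. -/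
def kerToPic (σ : SemilinearAut k F) (x : (v27ziDeg σ).ker) : {y : Pic0 k F // σ • y = y} :=
  ⟨Pic0.mk ⟨((v27ziRep x.1 : v27ziInv σ) : Divisor k F), by
      rw [Divisor.mem_degZero, v27ziDeg_rep]; exact x.2⟩, by
    rw [v27zi_smul_pic0_mk]
    congr 1
    exact Subtype.ext (v27ziRep x.1).2⟩

theorem kerToPic_bijective (H : V27ziHyp σ Q g) : Function.Bijective (kerToPic σ) := by
  constructor
  · intro x y hxy
    have h1 := congrArg Subtype.val hxy
    simp only [kerToPic] at h1
    rw [v27zi_pic0_mk_eq_iff] at h1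
    have h2 : v27ziMk σ (v27ziRep x.1) = v27ziMk σ (v27ziRep y.1) := v27ziMk_eq_iff.2 h1
    rw [v27ziMk_rep, v27ziMk_rep] at h2
    exact Subtype.ext h2
  · rintro ⟨z, hz⟩
    obtain ⟨D₀, rfl⟩ := Pic0.mk_surjective z
    rw [v27zi_smul_pic0_mk, v27zi_pic0_mk_eq_iff] at hz
    have hz' : σ • (D₀ : Divisor k F) - (D₀ : Divisor k F) ∈
        Divisor.principal (K := k) (F := F) := by
      have := (Divisor.principal (K := k) (F := F)).neg_mem hz
      rwa [neg_sub] at this
    obtain ⟨D', hD'p, hD'inv⟩ := H.desc _ hz'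
    have hdeg0 : Divisor.degree D' = 0 := by
      have h1 := v27zi_degree_principal hD'p
      rw [map_sub] at h1
      have h2 : Divisor.degree (D₀ : Divisor k F) = 0 := D₀.2
      linarith
    refine ⟨⟨v27ziMk σ ⟨D', hD'inv⟩, by
      rw [AddMonoidHom.mem_ker, v27ziDeg_mk]; exact hdeg0⟩, ?_⟩
    apply Subtype.ext
    simp only [kerToPic]
    rw [v27zi_pic0_mk_eq_iff]
    have h1 := rep_sub_mem (⟨D', hD'inv⟩ : v27ziInv σ)
    have h2 := (Divisor.principal (K := k) (F := F)).add_mem h1 hD'p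
    have h3 := (Divisor.principal (K := k) (F := F)).neg_mem h2
    convert h3 using 1
    abel

theorem card_ker (H : V27ziHyp σ Q g) :
    Nat.card (v27ziDeg σ).ker = Nat.card {y : Pic0 k F // σ • y = y} :=
  Nat.card_congr (Equiv.ofBijective _ H.kerToPic_bijective)

end V27ziHyp

/-- **Leaf C5 (ZETA-INST + FIN)**: the `L`-polynomial of a Frobenius structure. -/
theorem v27zi_main {σ : SemilinearAut k F} {Q g : ℕ} (H : V27ziHyp σ Q g) :
    Finite {y : Pic0 k F // σ • y = y} ∧
    ∃ P : Polynomial ℤ, P.natDegree = 2 * g ∧ P.coeff 0 = 1 ∧ P.leadingCoeff = (Q : ℤ) ^ g ∧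
      P.eval 1 = (Nat.card {y : Pic0 k F // σ • y = y} : ℤ) ∧
      ((1 - PowerSeries.X) * (1 - (Q : ℤ) • PowerSeries.X) *
        PowerSeries.mk (fun d => (v27hcA σ d : ℤ)) : PowerSeries ℤ) = (P : PowerSeries ℤ) := by
  haveI := H.rr.hasDiv
  obtain ⟨c₁, hc₁⟩ := H.exists_degree_one
  obtain ⟨W, hWinv, hWdeg, hWRR⟩ := H.exists_canonical
  have hfin := H.finite_ker
  refine ⟨?_, ?_⟩
  · haveI := hfin
    exact Finite.of_equiv _ (Equiv.ofBijective _ H.kerToPic_bijective)
  · exact v27z_main (v27ziDeg σ) Q g _ H.hQ c₁ hc₁ hfin H.card_ker v27ziEll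
      (v27ziMk σ ⟨W, hWinv⟩) (by rw [v27ziDeg_mk]; exact hWdeg)
      (fun c hc => H.ell_neg c hc) H.ell_zero (fun c hc hc0 => H.ell_degZero c hc hc0)
      (fun c => H.rr_class hWinv hWRR c) v27ziN (fun c => H.N_mul c) (v27hcA σ)
      (fun d => H.A_eq d)

end Fermat.Agent.V
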